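import Fermat.Agent.Corollaries.ES.Defs
import Fermat.Agent.HeckePar.Periods

/-!
# The primitive `Ei f` of `2 π i f`
-/

set_option autoImplicit false

open UpperHalfPlane CongruenceSubgroup ModularFormClass Filter Topology ModularForm
open scoped MatrixGroups Manifold ModularForm PeriodPair

noncomputable section

namespace Fermat.Agent.Cor.ES

open Fermat.Agent.ModFun Fermat.Agent.X0Emb Fermat.Agent.Cor.HW.Per ModularCurve

variable {N : ℕ} [NeZero N] (f : CuspForm (Gamma0 N) 2)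

theorem hasDerivAt_Ei (τ : ℍ) :
    HasDerivAt (Ei f ∘ ofComplex) (2 * Real.pi * Complex.I * f τ) (τ : ℂ) :=
  ((GenES.prm_spec f).prim τ).const_mul _

theorem Ei_smul (γ : Gamma0 N) (τ : ℍ) :
    Ei f ((γ : SL(2, ℤ)) • τ) = Ei f τ + om f (Additive.ofMul γ) := by
  have h := HeckePar.periodLin_apply_of_isPrim (GenES.prm_spec f).prim γ τ
  rw [om_apply, h, Ei, Ei]
  ring

theorem tendsto_Ei : Tendsto (Ei f) atImInfty (𝓝 0) := by
  have := ((GenES.prm_spec f).zero).const_mul (2 * Real.pi * Complex.I)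
  rwa [mul_zero] at this

theorem mdiff_Ei : MDiff (Ei f) := by
  rw [UpperHalfPlane.mdifferentiable_iff]
  intro z hz
  exact (hasDerivAt_Ei f ⟨z, hz⟩).differentiableAt.differentiableWithinAt

theorem continuous_Ei : Continuous (Ei f) := (mdiff_Ei f).continuous

theorem analyticOnNhd_Ei : AnalyticOnNhd ℂ (Ei f ∘ ofComplex) {z | 0 < z.im} := by
  have hopen : IsOpen {z : ℂ | 0 < z.im} := isOpen_lt continuous_const Complex.continuous_im
  refine DifferentiableOn.analyticOnNhd (fun z hz => ?_) hopen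
  exact (hasDerivAt_Ei f ⟨z, hz⟩).differentiableAt.differentiableWithinAt

variable {f}

theorem isOpenMap_Ei (hf : f ≠ 0) : IsOpenMap (Ei f) := by
  have hopen : IsOpen {z : ℂ | 0 < z.im} := isOpen_lt continuous_const Complex.continuous_im
  have hconv : IsPreconnected {z : ℂ | 0 < z.im} := by
    have : Convex ℝ {z : ℂ | 0 < z.im} := convex_halfSpace_im_gt 0
    exact this.isPreconnected
  rcases (analyticOnNhd_Ei f).is_constant_or_isOpen hconv with ⟨w, hw⟩ | h
  · exfalso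
    apply hf
    ext τ
    have h1 := hasDerivAt_Ei f τ
    have h2 : HasDerivAt (Ei f ∘ ofComplex) 0 (τ : ℂ) := by
      refine (hasDerivAt_const (τ : ℂ) w).congr_of_eventuallyEq ?_
      filter_upwards [hopen.mem_nhds τ.im_pos] with z hz
      exact hw z hz
    have h3 := h1.unique h2
    have h4 : (2 * Real.pi * Complex.I : ℂ) ≠ 0 := Complex.two_pi_I_ne_zero
    simpa using (mul_eq_zero.mp h3).resolve_left h4
  · intro W hW
    have h1 : IsOpen ((fun τ : ℍ => (τ : ℂ)) '' W) :=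
      UpperHalfPlane.isOpenEmbedding_coe.isOpenMap W hW
    have h2 := h _ (by rintro _ ⟨τ, -, rfl⟩; exact τ.im_pos) h1
    rw [Set.image_image] at h2
    convert h2 using 2
    simp

theorem open_not_countable {W : Set ℂ} (hW : IsOpen W) (hne : W.Nonempty) : ¬ W.Countable := by
  intro hc
  obtain ⟨z, hz⟩ := hne
  have h1 := (hc.isConnected_compl_of_one_lt_rank (by simp)).nonempty
  have h2 : Dense Wᶜ := hc.dense_compl ℝ
  obtain ⟨w, hw1, hw2⟩ := h2.inter_open_nonempty W hW ⟨z, hz⟩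
  exact hw2 hw1

/-- the points with `Ei f τ` outside a countable set are dense. -/
theorem dense_Ei (hf : f ≠ 0) {C : Set ℂ} (hC : C.Countable) : Dense {τ : ℍ | Ei f τ ∉ C} := by
  rw [dense_iff_inter_open]
  intro W hW hne
  by_contra h
  have hsub : Ei f '' W ⊆ C := by
    rintro _ ⟨τ, hτ, rfl⟩
    by_contra h'
    exact h ⟨τ, hτ, h'⟩
  exact open_not_countable (isOpenMap_Ei hf W hW) (hne.image _) (hC.mono hsub)

/-- identity theorem: an analytic function outside a closed countable set which vanishes at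
`Ei f τ` for all `τ` in a nonempty open set. -/
theorem eq_zero_of_Ei (hf : f ≠ 0) {C : Set ℂ} (hC : C.Countable) {Φ : ℂ → ℂ}
    (hΦ : AnalyticOnNhd ℂ Φ Cᶜ) {W : Set ℍ} (hW : IsOpen W) (hne : W.Nonempty)
    (h0 : ∀ τ ∈ W, Ei f τ ∉ C → Φ (Ei f τ) = 0) {z : ℂ} (hz : z ∉ C) : Φ z = 0 := by
  have hpre : IsPreconnected (Cᶜ : Set ℂ) := Moduli.isPreconnected_compl_of_countable hC
  obtain ⟨τ, hτ, hτC⟩ := (dense_Ei hf hC).inter_open_nonempty W hW hne
  have hEv : ∀ᶠ w in 𝓝 (Ei f τ), w ∈ C ∨ Φ w = 0 := by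
    filter_upwards [(isOpenMap_Ei hf W hW).mem_nhds ⟨τ, hτ, rfl⟩] with w hw
    obtain ⟨τ', hτ', rfl⟩ := hw
    by_cases h : Ei f τ' ∈ C
    · exact Or.inl h
    · exact Or.inr (h0 τ' hτ' h)
  have han := hΦ (Ei f τ) hτC
  have h2 : ∀ᶠ w in 𝓝 (Ei f τ), Φ w = 0 := by
    rcases han.eventually_eq_zero_or_eventually_ne_zero with h | h
    · exact h
    · exfalso
      rw [eventually_nhdsWithin_iff] at h
      obtain ⟨W', hW'sub, hW'o, hW'm⟩ := mem_nhds_iff.mp (hEv.and h)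
      refine open_not_countable hW'o ⟨_, hW'm⟩ ((hC.insert (Ei f τ)).mono fun w hw => ?_)
      obtain ⟨h3, h4⟩ := hW'sub hw
      by_cases hwe : w = Ei f τ
      · exact Or.inl hwe
      · refine Or.inr (h3.resolve_right (h4 hwe))
  exact hΦ.eqOn_zero_of_preconnected_of_eventuallyEq_zero hpre hτC h2 hz

theorem nonempty_ne_zero {V : ℍ → ℂ} (hV : Continuous V) (h0 : V ≠ 0) :
    IsOpen {τ : ℍ | V τ ≠ 0} ∧ {τ : ℍ | V τ ≠ 0}.Nonempty :=
  ⟨isOpen_ne_fun hV continuous_const, by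
    obtain ⟨τ, hτ⟩ := Function.ne_iff.mp h0
    exact ⟨τ, hτ⟩⟩

/-! ### (P5') -/

theorem periodStmt : PeriodStmt N := by
  intro f L x hf hx γ
  obtain ⟨u, v, U, V, hv, -, hU, hV, hUV⟩ := hx
  obtain ⟨γ, rfl⟩ := Additive.ofMul.surjective γ
  set m := om f (Additive.ofMul γ) with hm
  have hV0 : V ≠ 0 := fun h0 => hv (hV.eq_zero_iff.mpr h0)
  obtain ⟨hWo, hWne⟩ := nonempty_ne_zero hV.mdiff.continuous hV0
  by_contra hmL
  set C : Set ℂ := (L.lattice : Set ℂ) ∪ (fun z => z - m) '' (L.lattice : Set ℂ) with hCdef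
  have hC : C.Countable := (Moduli.countable_lattice L).union ((Moduli.countable_lattice L).image _)
  have hmem : ∀ z, z ∉ C → z ∉ L.lattice ∧ z + m ∉ L.lattice := by
    intro z hz
    refine ⟨fun h => hz (Or.inl h), fun h => hz (Or.inr ⟨z + m, h, by simp⟩)⟩
  have hΦ : AnalyticOnNhd ℂ (fun z => ℘[L] (z + m) - ℘[L] z) Cᶜ := by
    intro z hz
    obtain ⟨h1, h2⟩ := hmem z hz
    have h3 : AnalyticAt ℂ (fun z => ℘[L] (z + m)) z :=
      AnalyticAt.fun_comp (g := ℘[L]) (f := fun z => z + m) (Moduli.analyticAt_P L h2)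
        (by fun_prop)
    exact h3.sub (Moduli.analyticAt_P L h1)
  have key := fun z (hz : z ∉ C) => eq_zero_of_Ei hf hC hΦ hWo hWne (fun τ hτ hτC => by
    obtain ⟨h1, h2⟩ := hmem _ hτC
    have e1 := hUV τ h1
    have e2 := hUV ((γ : SL(2, ℤ)) • τ) (by rw [Ei_smul]; exact h2)
    rw [hU.inv _ γ.2, hV.inv _ γ.2, Ei_smul, e1] at e2
    have e3 := mul_right_cancel₀ hτ e2
    rw [← hm] at e3
    simp only [sub_eq_zero]
    exact e3.symm) hz
  -- let `z → 0`
  have e1 : ∀ᶠ z in 𝓝[≠] (0 : ℂ), z ∉ L.lattice := Moduli.eventually_notMem_lattice L 0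
  have hc : Tendsto (fun z : ℂ => z + m) (𝓝[≠] 0) (𝓝 m) := by
    have : ContinuousAt (fun z : ℂ => z + m) 0 := by fun_prop
    have h0 := this.tendsto
    simp only [zero_add] at h0
    exact h0.mono_left nhdsWithin_le_nhds
  have e3 : ∀ᶠ z in 𝓝[≠] (0 : ℂ), z + m ∉ L.lattice :=
    hc.eventually (Moduli.eventually_notMem_lattice' L hmL)
  have hk : ∀ᶠ z in 𝓝[≠] (0 : ℂ), ℘[L] (z + m) = ℘[L] z := by
    filter_upwards [e1, e3] with z h1 h2
    refine sub_eq_zero.mp (key z ?_)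
    rintro (h | ⟨w, hw, rfl⟩)
    · exact h1 h
    · apply h2
      simpa using hw
  have hfin : Tendsto (fun z : ℂ => ‖℘[L] (z + m)‖) (𝓝[≠] 0) (𝓝 ‖℘[L] m‖) :=
    ((Moduli.analyticAt_P L hmL).continuousAt.tendsto.comp hc).norm
  have hfin' : Tendsto (fun z : ℂ => ‖℘[L] z‖) (𝓝[≠] 0) (𝓝 ‖℘[L] m‖) :=
    hfin.congr' (hk.mono fun z hz => congrArg norm hz)
  exact not_tendsto_nhds_of_tendsto_atTop (Moduli.tendsto_P_zero L) _ hfin'

end Fermat.Agent.Cor.ES
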