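import Fermat.Agent.Corollaries.ES.Main
import Fermat.Agent.Corollaries.NOS.Steinberg
import Fermat.Agent.Corollaries.NOS.Local
import Fermat.Agent.Corollaries.HW.StrongMultAp
import Fermat.Agent.Corollaries.HW.TateEquiv

/-!
# Rational newforms of squarefree level and semistable elliptic curves over `ℚ`

For squarefree `N` the newforms of weight two on `Γ₀(N)` with integral eigenvalues correspond to the
semistable elliptic curves over `ℚ` of conductor `N`, two curves being identified if they have the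
same `L`-function: every such curve has a newform (Wiles), every such newform a curve
(Eichler–Shimura), and the coefficients agree at **all** primes.
-/

set_option autoImplicit false

noncomputable section

open WeierstrassCurve CongruenceSubgroup ModularFormClass
open Fermat.Agent.Cor.HW (ap IsHasseWeil TateIso)

namespace Fermat.Agent.Cor.ES

variable {N : ℕ} [NeZero N]

/-- The curve of an eigenform with integral eigenvalues by an equation which is minimal at every
prime. -/
theorem exists_minimalAt (f : CuspForm (Gamma0 N) 2) (hf : f.IsNormalizedEigenform)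
    (ha : ∀ ℓ : Nat.Primes, ∃ c : ℤ, qCoeff f ℓ = c) :
    ∃ W : WeierstrassCurve ℤ, W.Δ ≠ 0 ∧ (∀ q : ℕ, q.Prime → NOS.MinimalAt W q) ∧
      ∀ r : ℕ, r.Prime → W.IsGoodPrimeFor r → ¬ r ∣ N → qCoeff f r = W.apOfModel r := by
  obtain ⟨L, a, b, -, -, -, hΔ, h⟩ := eichler_shimura f hf ha
  obtain ⟨W, hW⟩ := MinModel.exists_isDiscMinimal (⟨0, 0, 0, -a / 4, -b / 4⟩ : WeierstrassCurve ℚ)
  exact ⟨W, MinModel.Δ_ne_zero_of_model hΔ hW.1,
    fun q hq => NOS.minimalAt_of_isDiscMinimal hΔ hW hq, fun r hr hg hrN => h W hW.1 r hr hg hrN⟩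

/-- **An eigenform of squarefree level with integral eigenvalues comes from a semistable elliptic
curve**, whose conductor divides the level. -/
theorem exists_semistable (hN : Squarefree N) (f : CuspForm (Gamma0 N) 2)
    (hf : f.IsNormalizedEigenform) (ha : ∀ ℓ : Nat.Primes, ∃ c : ℤ, qCoeff f ℓ = c) :
    ∃ W : WeierstrassCurve ℤ, W.Δ ≠ 0 ∧ W.IsSemistableModel ∧ W.conductorLevel ∣ N ∧
      ∀ r : ℕ, r.Prime → ¬ r ∣ N → qCoeff f r = W.apOfModel r := by
  obtain ⟨W, hΔ, hmin, h⟩ := exists_minimalAt f hf ha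
  have hmod : W.IsModularModelOfLevel N := ⟨f, hf, fun p hp hg hpN => h p hp hg hpN⟩
  have hss := NOS.isSemistableModel_of_squarefree hN hΔ hmod hmin
  have hdvd := HW.conductorLevel_dvd hΔ hss hN.ne_zero hmod
  refine ⟨W, hΔ, hss, hdvd, fun r hr hrN => h r hr (fun h' => hrN ?_) hrN⟩
  exact ((W.prime_dvd_conductorLevel_iff hΔ hr).mpr h').trans hdvd

/-- **Eichler–Shimura for rational newforms of squarefree level**: the curve is semistable, its
conductor is the level, and `a_p(f) = a_p(W)` for **all** primes `p`. -/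
theorem exists_semistable_of_isNewform (hN : Squarefree N) (f : CuspForm (Gamma0 N) 2)
    (hf : f.IsNewform) (ha : ∀ ℓ : Nat.Primes, ∃ c : ℤ, qCoeff f ℓ = c) :
    ∃ W : WeierstrassCurve ℤ, W.Δ ≠ 0 ∧ W.IsSemistableModel ∧ W.conductorLevel = N ∧
      ∀ p : ℕ, p.Prime → qCoeff f p = ap W p := by
  obtain ⟨W, hΔ, hss, hdvd, h⟩ := exists_semistable hN f hf.1 ha
  obtain ⟨g, ⟨hg, hga⟩, -⟩ := HW.existsUnique_newform_ap hΔ hss
  have hap : ∀ ℓ : ℕ, ℓ.Prime → ¬ ℓ ∣ N → qCoeff g ℓ = qCoeff f ℓ := by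
    intro ℓ hℓ hℓN
    have h1 : ¬ (ℓ : ℤ) ∣ W.Δ := fun h' =>
      hℓN (((W.prime_dvd_conductorLevel_iff hΔ hℓ).mpr h').trans hdvd)
    rw [hga ℓ hℓ, h ℓ hℓ hℓN, ap, if_neg h1]
  have hcond : W.conductorLevel = N := by
    by_contra hne
    exact hf.2 _ hdvd hne ⟨g, hg.1, hap⟩
  refine ⟨W, hΔ, hss, hcond, fun p hp => ?_⟩
  rw [← hga p hp]
  exact HW.qCoeff_eq_of_isNewform hcond.symm hf hg N.primeFactors (fun ℓ hℓ hℓS =>
    (hap ℓ hℓ fun hd => hℓS (Nat.mem_primeFactors.mpr ⟨hℓ, hd, hN.ne_zero⟩)).symm) p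

/-- **The `L`-function of a rational newform of squarefree level is the Hasse–Weil `L`-function of
a semistable elliptic curve** of conductor the level. -/
theorem exists_isHasseWeil (hN : Squarefree N) (f : CuspForm (Gamma0 N) 2)
    (hf : f.IsNewform) (ha : ∀ ℓ : Nat.Primes, ∃ c : ℤ, qCoeff f ℓ = c) :
    ∃ W : WeierstrassCurve ℤ, W.Δ ≠ 0 ∧ W.IsSemistableModel ∧ W.conductorLevel = N ∧
      IsHasseWeil W (ModularForm.L (k := 2) two_pos f) := by
  obtain ⟨W, hΔ, hss, hcond, h⟩ := exists_semistable_of_isNewform hN f hf ha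
  refine ⟨W, hΔ, hss, hcond, ?_⟩
  subst hcond
  exact HW.isHasseWeil hΔ hf h

/-! ### The bijection -/

/-- Semistable elliptic curves over `ℚ` of conductor `N`, given by their semistable integral
equations. -/
def SsCurve (N : ℕ) : Type :=
  {W : WeierstrassCurve ℤ // W.Δ ≠ 0 ∧ W.IsSemistableModel ∧ W.conductorLevel = N}

/-- Newforms of weight two on `Γ₀(N)` with integral eigenvalues. -/
def RatNewform (N : ℕ) : Type :=
  {f : CuspForm (Gamma0 N) 2 // f.IsNewform ∧ ∀ ℓ : Nat.Primes, ∃ c : ℤ, qCoeff f ℓ = c}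

/-- Two curves are identified if they have the same traces of Frobenius at almost all primes. -/
def sameTraces (N : ℕ) : Setoid (SsCurve N) where
  r V W := ∃ S : Finset ℕ, ∀ ℓ : ℕ, ℓ.Prime → ℓ ∉ S → V.1.apOfModel ℓ = W.1.apOfModel ℓ
  iseqv :=
    { refl := fun _ => ⟨∅, fun _ _ _ => rfl⟩
      symm := fun ⟨S, h⟩ => ⟨S, fun ℓ hℓ hS => (h ℓ hℓ hS).symm⟩
      trans := fun ⟨S, h⟩ ⟨T, h'⟩ => ⟨S ∪ T, fun ℓ hℓ hS => by
        rw [Finset.mem_union, not_or] at hS
        exact (h ℓ hℓ hS.1).trans (h' ℓ hℓ hS.2)⟩ }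

omit [NeZero N] in
/-- Every semistable curve of conductor `N` has exactly one newform of level `N`. -/
theorem existsUnique_ratNewform (W : SsCurve N) :
    ∃! f : RatNewform N, ∀ p : ℕ, p.Prime → qCoeff f.1 p = ap W.1 p := by
  obtain ⟨W, hΔ, hss, rfl⟩ := W
  obtain ⟨f, ⟨hf, ha⟩, hu⟩ := HW.existsUnique_newform_ap hΔ hss
  exact ⟨⟨f, hf, fun ℓ => ⟨_, ha ℓ ℓ.2⟩⟩, ha, fun g hg => Subtype.ext (hu g.1 ⟨g.2.1, hg⟩)⟩

/-- The newform of a semistable curve. -/
def newformOf (W : SsCurve N) : RatNewform N := (existsUnique_ratNewform W).choose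

omit [NeZero N] in
theorem qCoeff_newformOf (W : SsCurve N) (p : ℕ) (hp : p.Prime) :
    qCoeff (newformOf W).1 p = ap W.1 p := (existsUnique_ratNewform W).choose_spec.1 p hp

omit [NeZero N] in
/-- The curves `V` and `W` have the same newform if and only if they have the same traces of
Frobenius at almost all primes. -/
theorem newformOf_eq_iff (V W : SsCurve N) : newformOf V = newformOf W ↔ (sameTraces N).r V W := by
  constructor
  · intro h
    refine ⟨V.1.Δ.natAbs.primeFactors ∪ W.1.Δ.natAbs.primeFactors, fun ℓ hℓ hℓS => ?_⟩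
    simp only [Finset.mem_union, not_or] at hℓS
    have h1 : ¬ (ℓ : ℤ) ∣ V.1.Δ := fun h' => hℓS.1
      (Nat.mem_primeFactors.mpr ⟨hℓ, Int.natCast_dvd.mp h', Int.natAbs_ne_zero.mpr V.2.1⟩)
    have h2 : ¬ (ℓ : ℤ) ∣ W.1.Δ := fun h' => hℓS.2
      (Nat.mem_primeFactors.mpr ⟨hℓ, Int.natCast_dvd.mp h', Int.natAbs_ne_zero.mpr W.2.1⟩)
    have h3 := qCoeff_newformOf V ℓ hℓ
    rw [h, qCoeff_newformOf W ℓ hℓ, ap, ap, if_neg h1, if_neg h2] at h3
    exact_mod_cast h3.symm
  · rintro ⟨S, hS⟩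
    refine (existsUnique_ratNewform W).unique (fun p hp => ?_) (qCoeff_newformOf W)
    rw [qCoeff_newformOf V p hp,
      (HW.ap_eq_of_almost_all V.2.1 V.2.2.1 W.2.1 W.2.2.1 S hS).2 p hp]

/-- Every rational newform of squarefree level is the newform of a semistable curve. -/
theorem newformOf_surjective (hN : Squarefree N) :
    Function.Surjective (newformOf : SsCurve N → RatNewform N) := by
  intro f
  obtain ⟨W, hΔ, hss, hcond, h⟩ := exists_semistable_of_isNewform hN f.1 f.2.1 f.2.2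
  let W' : SsCurve N := ⟨W, hΔ, hss, hcond⟩
  exact ⟨W', (existsUnique_ratNewform W').unique (qCoeff_newformOf W') h⟩

/-- **The bijection between the semistable elliptic curves over `ℚ` of conductor `N`, up to the
equality of their `L`-functions, and the newforms of level `N` with integral eigenvalues**, `N`
squarefree. -/
def newformEquiv (hN : Squarefree N) : Quotient (sameTraces N) ≃ RatNewform N :=
  Equiv.ofBijective (Quotient.lift newformOf fun V W h => (newformOf_eq_iff V W).mpr h)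
    ⟨by
      rintro ⟨V⟩ ⟨W⟩ h
      exact Quotient.sound ((newformOf_eq_iff V W).mp h),
    fun f => by
      obtain ⟨W, hW⟩ := newformOf_surjective hN f
      exact ⟨Quotient.mk _ W, hW⟩⟩

theorem newformEquiv_mk (hN : Squarefree N) (W : SsCurve N) (p : ℕ) (hp : p.Prime) :
    qCoeff (newformEquiv hN (Quotient.mk _ W)).1 p = ap W.1 p := qCoeff_newformOf W p hp

end Fermat.Agent.Cor.ES
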