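import Fermat.Agent.Corollaries.ES.Bij
import Fermat.Agent.S21.Assembly

/-!
# The number of semistable elliptic curves of given conductor

The newforms of level `N` are linearly independent, so there are at most `g(X₀(N))` of them; hence
the semistable elliptic curves over `ℚ` of conductor `N` have at most `g(X₀(N))` different
`L`-functions. Isogenous curves have the same.
-/

set_option autoImplicit false

noncomputable section

open WeierstrassCurve CongruenceSubgroup ModularFormClass
open Fermat.Agent.Cor.HW (ap IsHasseWeil TateIso)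
open FermatAgent.HeckeEigen (qCoeff_add qCoeff_smul)

namespace Fermat.Agent.Cor.ES

variable {N : ℕ} [NeZero N]

/-- **The newforms of level `N` are linearly independent.** -/
theorem linearIndependent_newform : LinearIndependent ℂ
    (fun f : {f : CuspForm (Gamma0 N) 2 // f.IsNewform} => f.1) := by
  classical
  let χ : {f : CuspForm (Gamma0 N) 2 // f.IsNewform} → (CuspForm.heckeAlgebra N 2 ∅ →* ℂ) :=
    fun f => (Fermat.Agent.S29aux.eigenChar f.2.1 ∅).toMonoidHom
  have hinj : Function.Injective χ := by
    intro f g h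
    have h1 : ∀ t, Fermat.Agent.S29aux.eigenChar f.2.1 ∅ t =
        Fermat.Agent.S29aux.eigenChar g.2.1 ∅ t := fun t => DFunLike.congr_fun h t
    refine Subtype.ext (LTF.MultOne.eq_of_isNewform f.2 g.2 N.primeFactors fun ℓ hℓ hℓS => ?_)
    have hℓN : ¬ ℓ ∣ N := fun hd => hℓS (Nat.mem_primeFactors.mpr ⟨hℓ, hd, NeZero.ne N⟩)
    have h2 := h1 (CuspForm.heckeAlgebra.T hℓ hℓN (Set.notMem_empty ℓ))
    rwa [Fermat.Agent.S29aux.eigenChar_T, Fermat.Agent.S29aux.eigenChar_T] at h2
  have hlin : LinearIndependent ℂ (fun f => ((χ f : CuspForm.heckeAlgebra N 2 ∅ →* ℂ) :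
      CuspForm.heckeAlgebra N 2 ∅ → ℂ)) :=
    (linearIndependent_monoidHom (CuspForm.heckeAlgebra N 2 ∅) ℂ).comp χ hinj
  let Φ : CuspForm (Gamma0 N) 2 →ₗ[ℂ] (CuspForm.heckeAlgebra N 2 ∅ → ℂ) :=
    { toFun := fun f t => qCoeff ⇑((t : Module.End ℂ (CuspForm (Gamma0 N) 2)) f) 1
      map_add' := fun f g => funext fun t => by
        rw [map_add, qCoeff_add]
        rfl
      map_smul' := fun c f => funext fun t => by
        rw [map_smul, qCoeff_smul]
        rfl }
  exact LinearIndependent.of_comp Φ hlin

/-- There are only finitely many newforms of level `N`. -/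
theorem finite_newform : Finite {f : CuspForm (Gamma0 N) 2 // f.IsNewform} := by
  have := Fermat.Agent.S21per.finiteDimensional_cuspForm (N := N)
  exact linearIndependent_newform.finite

/-- **At most `g(X₀(N))` newforms of level `N`.** -/
theorem card_newform_le :
    (Nat.card {f : CuspForm (Gamma0 N) 2 // f.IsNewform} : ℚ) ≤ ModularCurve.genusFormula N := by
  have := Fermat.Agent.S21per.finiteDimensional_cuspForm (N := N)
  have := finite_newform (N := N)
  have := Fintype.ofFinite {f : CuspForm (Gamma0 N) 2 // f.IsNewform}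
  rw [← S20.result N, Nat.card_eq_fintype_card]
  exact_mod_cast (linearIndependent_newform (N := N)).fintype_card_le_finrank

/-- **The semistable elliptic curves over `ℚ` of conductor `N` fall into finitely many classes.** -/
theorem finite_classes : Finite (Quotient (sameTraces N)) := by
  have := finite_newform (N := N)
  refine Finite.of_injective (β := {f : CuspForm (Gamma0 N) 2 // f.IsNewform})
    (Quotient.lift (fun W => (⟨(newformOf W).1, (newformOf W).2.1⟩ :
      {f : CuspForm (Gamma0 N) 2 // f.IsNewform})) fun V W h => ?_) ?_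
  · rw [(newformOf_eq_iff V W).mpr h]
  · rintro ⟨V⟩ ⟨W⟩ h
    exact Quotient.sound ((newformOf_eq_iff V W).mp
      (Subtype.ext (congrArg Subtype.val h :)))

/-- **At most `g(X₀(N))` classes** (`L`-functions) of semistable elliptic curves over `ℚ` of
conductor `N`. -/
theorem card_classes_le :
    (Nat.card (Quotient (sameTraces N)) : ℚ) ≤ ModularCurve.genusFormula N := by
  have := finite_newform (N := N)
  refine le_trans ?_ (card_newform_le (N := N))
  have h := Nat.card_le_card_of_injective
    (Quotient.lift (fun W => (⟨(newformOf W).1, (newformOf W).2.1⟩ :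
      {f : CuspForm (Gamma0 N) 2 // f.IsNewform})) fun V W h => by
        rw [(newformOf_eq_iff V W).mpr h]) (by
      rintro ⟨V⟩ ⟨W⟩ h
      exact Quotient.sound ((newformOf_eq_iff V W).mp
        (Subtype.ext (congrArg Subtype.val h :))) :
      Function.Injective (β := {f : CuspForm (Gamma0 N) 2 // f.IsNewform}) _)
  exact_mod_cast h

/-- **The number of the classes is the number of the newforms with integral eigenvalues**, `N`
squarefree. -/
theorem card_classes_eq (hN : Squarefree N) :
    Nat.card (Quotient (sameTraces N)) = Nat.card (RatNewform N) :=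
  Nat.card_congr (newformEquiv hN)

omit [NeZero N] in
/-- Two semistable curves of conductor `N` are in the same class if and only if they have the same
Hasse–Weil `L`-function. -/
theorem sameTraces_iff_isHasseWeil (V W : SsCurve N) : (sameTraces N).r V W ↔
    ∃ L : ℂ → ℂ, IsHasseWeil V.1 L ∧ IsHasseWeil W.1 L :=
  (HW.exists_common_L_iff V.2.1 V.2.2.1 W.2.1 W.2.2.1).symm

omit [NeZero N] in
/-- The same class means isomorphic Tate modules, for every `p = 11` or `p ≥ 17`. -/
theorem sameTraces_iff_tateIso {p : ℕ} [Fact p.Prime] (hp : p = 11 ∨ 17 ≤ p) (V W : SsCurve N) :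
    (sameTraces N).r V W ↔ TateIso V.1 W.1 p :=
  ((HW.tateIso_tfae V.2.1 V.2.2.1 W.2.1 W.2.2.1 hp).out 0 1).symm

omit [NeZero N] in
/-- Isogenous semistable curves are in the same class. -/
theorem sameTraces_of_isIsog (V W : SsCurve N) {φ : Mazur.Pt V.1 →+ Mazur.Pt W.1}
    (hφ : HW.IsIsog φ) : (sameTraces N).r V W :=
  (sameTraces_iff_isHasseWeil V W).mpr (hφ.hasseWeil V.2.1 V.2.2.1 W.2.1 W.2.2.1)

end Fermat.Agent.Cor.ES
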