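import Fermat.Agent.Corollaries.ES.BijCount
import Fermat.Agent.Corollaries.GenusZero
import Fermat.Agent.LTF.Chain.Two3

/-!
# The number of `L`-functions of semistable elliptic curves of small conductor

For `N = 11, 14, 15, 17, 19, 21` the semistable elliptic curves over `ℚ` of conductor `N` have
exactly one `L`-function, for `N = 26` and `N = 37` exactly two; there are as many newforms, all
with integral coefficients, and their number is the genus of `X₀(N)`.
-/

set_option autoImplicit false

noncomputable section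

open WeierstrassCurve CongruenceSubgroup ModularFormClass
open Fermat.Agent.Cor.HW (ap)

namespace Fermat.Agent.Cor.ES.Small

/-! ### Curves -/

/-- A semistable curve of conductor `N` from divisibilities. -/
def mk (W : WeierstrassCurve ℤ) (N k : ℕ) (hN : Squarefree N) (h1 : (N : ℤ) ∣ W.Δ)
    (h2 : W.Δ ∣ (N : ℤ) ^ k) (h3 : IsCoprime W.Δ W.c₄) : SsCurve N :=
  have hΔ : W.Δ ≠ 0 := by
    intro h
    rw [h, zero_dvd_iff] at h2
    exact hN.ne_zero (by exact_mod_cast eq_zero_of_pow_eq_zero h2)
  ⟨W, hΔ, fun p hp hd hc => by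
      have h := h3.isUnit_of_dvd' hd hc
      rw [Int.isUnit_iff_natAbs_eq, Int.natAbs_natCast] at h
      exact hp.one_lt.ne' h,
    (eq_conductorLevel hΔ hN fun q hq => ⟨fun h => (Int.natCast_dvd_natCast.mpr h).trans h1,
      fun h => by
        have h' := h.trans h2
        have h4 : q ∣ N ^ k := by exact_mod_cast h'
        exact hq.dvd_of_dvd_pow h4⟩).symm⟩

/-- the number of affine points modulo `ℓ` -/
def cnt (W : WeierstrassCurve ℤ) (ℓ : ℕ) [NeZero ℓ] : ℕ :=
  (Finset.univ.filter fun p : ZMod ℓ × ZMod ℓ =>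
    p.2 ^ 2 + (W.a₁ : ZMod ℓ) * p.1 * p.2 + (W.a₃ : ZMod ℓ) * p.2 =
      p.1 ^ 3 + (W.a₂ : ZMod ℓ) * p.1 ^ 2 + (W.a₄ : ZMod ℓ) * p.1 + (W.a₆ : ZMod ℓ)).card

theorem ap_eq (W : WeierstrassCurve ℤ) {ℓ : ℕ} [NeZero ℓ] (hℓ : ℓ.Prime)
    (hgood : ¬ (ℓ : ℤ) ∣ W.Δ) : ap W ℓ = ℓ - cnt W ℓ := by
  classical
  have : Fact ℓ.Prime := ⟨hℓ⟩
  have hV : (W.reductionMod ℓ).Δ ≠ 0 := by
    rw [reductionMod, WeierstrassCurve.map_Δ]
    intro h
    exact hgood ((ZMod.intCast_zmod_eq_zero_iff_dvd _ _).mp h)
  have h1 : (W.reductionMod ℓ).card = 1 + cnt W ℓ := by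
    unfold WeierstrassCurve.card
    rw [Nat.card_congr (LTF.Chain.pointEquiv (W.reductionMod ℓ)), Finite.card_option, add_comm]
    congr 1
    rw [Nat.card_eq_fintype_card, Fintype.card_subtype, cnt]
    congr 1
    ext p
    simp only [Finset.mem_filter, Finset.mem_univ, true_and]
    rw [← WeierstrassCurve.Affine.equation_iff_nonsingular_of_Δ_ne_zero hV,
      WeierstrassCurve.Affine.equation_iff]
    rfl
  rw [ap, if_neg hgood, apOfModel, traceOfFrobenius, h1, Nat.card_zmod]
  push_cast
  ring

def c11 : SsCurve 11 := mk ⟨0, -1, 1, 0, 0⟩ 11 1 (by decide +kernel) (by decide +kernel)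
  (by decide +kernel) (by rw [Int.isCoprime_iff_gcd_eq_one]; decide +kernel)

def c14 : SsCurve 14 := mk ⟨1, 0, 1, -1, 0⟩ 14 2 (by decide +kernel) (by decide +kernel)
  (by decide +kernel) (by rw [Int.isCoprime_iff_gcd_eq_one]; decide +kernel)

def c15 : SsCurve 15 := mk ⟨1, 1, 1, 0, 0⟩ 15 1 (by decide +kernel) (by decide +kernel)
  (by decide +kernel) (by rw [Int.isCoprime_iff_gcd_eq_one]; decide +kernel)

def c17 : SsCurve 17 := mk ⟨1, -1, 1, -1, 0⟩ 17 1 (by decide +kernel) (by decide +kernel)
  (by decide +kernel) (by rw [Int.isCoprime_iff_gcd_eq_one]; decide +kernel)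

def c19 : SsCurve 19 := mk ⟨0, 1, 1, 1, 0⟩ 19 1 (by decide +kernel) (by decide +kernel)
  (by decide +kernel) (by rw [Int.isCoprime_iff_gcd_eq_one]; decide +kernel)

def c21 : SsCurve 21 := mk ⟨1, 0, 0, 1, 0⟩ 21 2 (by decide +kernel) (by decide +kernel)
  (by decide +kernel) (by rw [Int.isCoprime_iff_gcd_eq_one]; decide +kernel)

def c26a : SsCurve 26 := mk ⟨1, 0, 1, 0, 0⟩ 26 1 (by decide +kernel) (by decide +kernel)
  (by decide +kernel) (by rw [Int.isCoprime_iff_gcd_eq_one]; decide +kernel)

def c26b : SsCurve 26 := mk ⟨1, -1, 1, -3, 3⟩ 26 7 (by decide +kernel) (by decide +kernel)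
  (by decide +kernel) (by rw [Int.isCoprime_iff_gcd_eq_one]; decide +kernel)

def c37a : SsCurve 37 := mk ⟨0, 0, 1, -1, 0⟩ 37 1 (by decide +kernel) (by decide +kernel)
  (by decide +kernel) (by rw [Int.isCoprime_iff_gcd_eq_one]; decide +kernel)

def c37b : SsCurve 37 := mk ⟨0, 1, 1, -3, 1⟩ 37 1 (by decide +kernel) (by decide +kernel)
  (by decide +kernel) (by rw [Int.isCoprime_iff_gcd_eq_one]; decide +kernel)

/-! ### Counting -/

variable {N : ℕ} [NeZero N]

theorem finite_ratNewform : Finite (RatNewform N) := by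
  have := finite_newform (N := N)
  exact Finite.of_injective (β := {f : CuspForm (Gamma0 N) 2 // f.IsNewform})
    (fun f => ⟨f.1, f.2.1⟩) fun f g h => Subtype.ext (congrArg Subtype.val h :)

theorem card_classes_le_finrank :
    Nat.card (Quotient (sameTraces N)) ≤ Module.finrank ℂ (CuspForm (Gamma0 N) 2) := by
  have h := card_classes_le (N := N)
  rw [← S20.result N] at h
  exact_mod_cast h

theorem card_eq_one (hN : N ∈ oneLevels) (W : SsCurve N) :
    Nat.card (Quotient (sameTraces N)) = 1 := by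
  have := finite_classes (N := N)
  have : Nonempty (Quotient (sameTraces N)) := ⟨Quotient.mk _ W⟩
  have h := card_classes_le_finrank (N := N)
  rw [(finrank_eq_one_iff N).mpr hN] at h
  have h2 : 0 < Nat.card (Quotient (sameTraces N)) := Nat.card_pos
  omega

/-- **Exactly one `L`-function** for the conductors `11, 14, 15, 17, 19, 21`. -/
theorem card_classes_eq_one (h : N ∈ ({11, 14, 15, 17, 19, 21} : Finset ℕ)) :
    Nat.card (Quotient (sameTraces N)) = 1 := by
  simp only [Finset.mem_insert, Finset.mem_singleton] at h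
  rcases h with rfl | rfl | rfl | rfl | rfl | rfl
  · exact card_eq_one (by decide) c11
  · exact card_eq_one (by decide) c14
  · exact card_eq_one (by decide) c15
  · exact card_eq_one (by decide) c17
  · exact card_eq_one (by decide) c19
  · exact card_eq_one (by decide) c21

theorem card_eq_two (h2 : genus12 N = 24) (V W : SsCurve N) {p : ℕ} (hp : p.Prime)
    (h : ap V.1 p ≠ ap W.1 p) : Nat.card (Quotient (sameTraces N)) = 2 := by
  have := finite_classes (N := N)
  have h1 := card_classes_le_finrank (N := N)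
  rw [(finrank_eq_iff N 2).mpr (by rw [h2]; norm_num)] at h1
  have hne : (Quotient.mk (sameTraces N) V) ≠ Quotient.mk (sameTraces N) W := by
    intro hq
    have h3 := (newformOf_eq_iff V W).mpr (Quotient.exact hq)
    have h4 := qCoeff_newformOf V p hp
    rw [h3, qCoeff_newformOf W p hp] at h4
    exact h (by exact_mod_cast h4.symm)
  have : Nontrivial (Quotient (sameTraces N)) := ⟨⟨_, _, hne⟩⟩
  have h5 := Finite.one_lt_card (α := Quotient (sameTraces N))
  omega

/-- **Exactly two `L`-functions** for the conductors `26` and `37`. -/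
theorem card_classes_eq_two (h : N = 26 ∨ N = 37) : Nat.card (Quotient (sameTraces N)) = 2 := by
  rcases h with rfl | rfl
  · refine card_eq_two (by decide +kernel) c26a c26b Nat.prime_three ?_
    rw [ap_eq c26a.1 Nat.prime_three (by change ¬ (3 : ℤ) ∣ _; decide +kernel),
      ap_eq c26b.1 Nat.prime_three (by change ¬ (3 : ℤ) ∣ _; decide +kernel)]
    decide +kernel
  · refine card_eq_two (by decide +kernel) c37a c37b Nat.prime_two ?_
    rw [ap_eq c37a.1 Nat.prime_two (by change ¬ (2 : ℤ) ∣ _; decide +kernel),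
      ap_eq c37b.1 Nat.prime_two (by change ¬ (2 : ℤ) ∣ _; decide +kernel)]
    decide +kernel

/-- **The newforms of level `N = 11, 14, 15, 17, 19, 21, 26, 37`**: as many as the genus of `X₀(N)`,
all with integral coefficients. -/
theorem card_ratNewform (h : N ∈ ({11, 14, 15, 17, 19, 21, 26, 37} : Finset ℕ)) :
    Nat.card (RatNewform N) = Module.finrank ℂ (CuspForm (Gamma0 N) 2) := by
  simp only [Finset.mem_insert, Finset.mem_singleton] at h
  have hN : Squarefree N := by
    rcases h with rfl | rfl | rfl | rfl | rfl | rfl | rfl | rfl <;> decide +kernel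
  rw [← card_classes_eq hN]
  by_cases h2 : N = 26 ∨ N = 37
  · rw [card_classes_eq_two h2]
    refine ((finrank_eq_iff N 2).mpr ?_).symm
    rcases h2 with rfl | rfl <;> decide +kernel
  · rw [card_classes_eq_one (by
      simp only [Finset.mem_insert, Finset.mem_singleton]
      tauto)]
    refine ((finrank_eq_one_iff N).mpr ?_).symm
    rcases h with rfl | rfl | rfl | rfl | rfl | rfl | h | h
    all_goals first | decide | exact absurd (Or.inl h) h2 | exact absurd (Or.inr h) h2

end Fermat.Agent.Cor.ES.Small
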