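import Fermat.Agent.Corollaries.ES.BijSmall

/-!
# Levels whose space of cusp forms is spanned by elliptic curves

For `N = 11, 14, 15, 17, 19, 21, 26, 37` the space `S₂(Γ₀(N))` has a basis of newforms with integral
coefficients, the newforms of semistable elliptic curves over `ℚ` of conductor `N`; these are all
the newforms of level `N`.
-/

set_option autoImplicit false

noncomputable section

open WeierstrassCurve CongruenceSubgroup ModularFormClass
open Fermat.Agent.Cor.HW (ap)

namespace Fermat.Agent.Cor.ES.Small

variable {N : ℕ} [NeZero N]

/-- The newforms with integral coefficients are linearly independent. -/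
theorem linearIndependent_ratNewform : LinearIndependent ℂ (fun f : RatNewform N => f.1) :=
  (linearIndependent_newform (N := N)).comp
    (fun f : RatNewform N => (⟨f.1, f.2.1⟩ : {f : CuspForm (Gamma0 N) 2 // f.IsNewform}))
    fun _ _ h => Subtype.ext (congrArg Subtype.val h :)

variable (h : N ∈ ({11, 14, 15, 17, 19, 21, 26, 37} : Finset ℕ))

include h in
/-- **`S₂(Γ₀(N))` is spanned by the newforms of elliptic curves** of conductor `N`,
`N = 11, 14, 15, 17, 19, 21, 26, 37`. -/
theorem span_ratNewform :
    Submodule.span ℂ (Set.range fun f : RatNewform N => f.1) = ⊤ := by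
  have := finite_ratNewform (N := N)
  have := Fintype.ofFinite (RatNewform N)
  have := Fermat.Agent.S21per.finiteDimensional_cuspForm (N := N)
  refine (linearIndependent_ratNewform (N := N)).span_eq_top_of_card_eq_finrank' ?_
  rw [← Nat.card_eq_fintype_card]
  exact card_ratNewform h

include h in
/-- **Every newform of these levels is the newform of a semistable elliptic curve**; its
coefficients are `a_p` of the curve, for all primes `p`. -/
theorem exists_curve_of_isNewform (f : CuspForm (Gamma0 N) 2) (hf : f.IsNewform) :
    ∃ W : SsCurve N, ∀ p : ℕ, p.Prime → qCoeff f p = ap W.1 p := by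
  have := finite_newform (N := N)
  have := finite_ratNewform (N := N)
  let i : RatNewform N → {f : CuspForm (Gamma0 N) 2 // f.IsNewform} := fun f => ⟨f.1, f.2.1⟩
  have hi : Function.Injective i := fun f g h => Subtype.ext (congrArg Subtype.val h :)
  have h1 : Nat.card {f : CuspForm (Gamma0 N) 2 // f.IsNewform} ≤ Nat.card (RatNewform N) := by
    rw [card_ratNewform h]
    have h2 := card_newform_le (N := N)
    rw [← S20.result N] at h2
    exact_mod_cast h2
  have hbij := (Nat.bijective_iff_injective_and_card i).mpr
    ⟨hi, le_antisymm (Nat.card_le_card_of_injective i hi) h1⟩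
  obtain ⟨g, hg⟩ := hbij.2 ⟨f, hf⟩
  have hg' : g.1 = f := congrArg Subtype.val hg
  have hN : Squarefree N := by
    simp only [Finset.mem_insert, Finset.mem_singleton] at h
    rcases h with rfl | rfl | rfl | rfl | rfl | rfl | rfl | rfl <;> decide +kernel
  obtain ⟨W, hW⟩ := newformOf_surjective hN g
  refine ⟨W, fun p hp => ?_⟩
  rw [← hg', ← hW]
  exact qCoeff_newformOf W p hp

end Fermat.Agent.Cor.ES.Small
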