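import Fermat.Agent.Corollaries.ES.Exp
import Fermat.Agent.GalRep.JZ4_Rel

/-!
# A modular function whose expansion satisfies the differential equation is `℘(∫ f)`
-/

set_option autoImplicit false

open UpperHalfPlane hiding I
open CongruenceSubgroup ModularFormClass Filter Topology ModularForm
open scoped MatrixGroups Manifold ModularForm PeriodPair

noncomputable section

namespace Fermat.Agent.Cor.ES

open Fermat.Agent.ModFun Fermat.Agent.X0Emb Fermat.Agent.Cor.HW.Per ModularCurve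

local notation "𝕢" => Function.Periodic.qParam
local notation "DD" => Derivative.normalizedDerivOfComplex

/-! ### Growth -/

/-- a solution of `e' = -2π c e`, `Re c ≤ -5/2`, with `‖e‖² exp(-10 π y) → 0` vanishes. -/
theorem growth_zero {e c : ℝ → ℂ} {A : ℝ}
    (he : ∀ y > A, HasDerivAt e (-2 * Real.pi * (c y * e y)) y)
    (hc : ∀ y > A, (c y).re ≤ -(5 / 2))
    (h0 : Tendsto (fun y => ‖e y‖ ^ 2 * Real.exp (-(10 * Real.pi * y))) atTop (𝓝 0))
    {y : ℝ} (hy : A < y) : e y = 0 := by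
  set h : ℝ → ℝ := fun y => ‖e y‖ ^ 2 * Real.exp (-(10 * Real.pi * y)) with hh
  have hd : ∀ y > A, HasDerivAt h
      (2 * Real.pi * ‖e y‖ ^ 2 * (-2 * (c y).re - 5) * Real.exp (-(10 * Real.pi * y))) y := by
    intro y hy
    have h1 := (he y hy).norm_sq
    have h2 : HasDerivAt (fun y : ℝ => Real.exp (-(10 * Real.pi * y)))
        (Real.exp (-(10 * Real.pi * y)) * (-(10 * Real.pi * 1))) y :=
      (((hasDerivAt_id y).const_mul (10 * Real.pi)).fun_neg).exp
    have h3 := h1.fun_mul h2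
    refine h3.congr_deriv ?_
    have h4 : inner ℝ (e y) (-2 * Real.pi * (c y * e y)) =
        -2 * Real.pi * (c y).re * ‖e y‖ ^ 2 := by
      rw [Complex.inner, ← Complex.normSq_eq_norm_sq, Complex.normSq_apply]
      simp [Complex.mul_re, Complex.mul_im]
      ring
    rw [h4]
    ring
  have hmono : MonotoneOn h (Set.Ici y) := by
    refine monotoneOn_of_deriv_nonneg (convex_Ici y) ?_ ?_ ?_
    · intro z hz
      exact (hd z (lt_of_lt_of_le hy hz)).continuousAt.continuousWithinAt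
    · intro z hz
      rw [interior_Ici] at hz
      exact (hd z (hy.trans hz)).differentiableAt.differentiableWithinAt
    · intro z hz
      rw [interior_Ici] at hz
      have hz' : A < z := hy.trans hz
      rw [(hd z hz').deriv]
      have h5 : 0 ≤ -2 * (c z).re - 5 := by
        have := hc z hz'
        linarith
      have := Real.pi_pos
      positivity
  have h6 : h y ≤ 0 := by
    refine ge_of_tendsto h0 ?_
    filter_upwards [eventually_ge_atTop y] with z hz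
    exact hmono Set.self_mem_Ici hz hz
  have h7 : 0 < Real.exp (-(10 * Real.pi * y)) := Real.exp_pos _
  have h8 : ‖e y‖ ^ 2 ≤ 0 := by
    by_contra h9
    exact absurd h6 (not_le.mpr (mul_pos (not_le.mp h9) h7))
  have h9 : ‖e y‖ = 0 := by
    have := le_antisymm h8 (sq_nonneg _)
    exact pow_eq_zero_iff (two_ne_zero) |>.mp this
  exact norm_eq_zero.mp h9

/-! ### The expansion of `Ei f` -/

variable {N : ℕ} [NeZero N] {f : CuspForm (Gamma0 N) 2}

theorem tendsto_vadd : Tendsto (fun τ : ℍ => (1 : ℝ) +ᵥ τ) atImInfty atImInfty := by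
  rw [atImInfty, tendsto_comap_iff]
  have : UpperHalfPlane.im ∘ (fun τ : ℍ => (1 : ℝ) +ᵥ τ) = UpperHalfPlane.im := by
    funext τ
    simp
  rw [this]
  exact tendsto_comap

instance : (atImInfty : Filter ℍ).NeBot := inferInstance

theorem Ei_vadd (τ : ℍ) : Ei f ((1 : ℝ) +ᵥ τ) = Ei f τ := by
  set c := om f (Additive.ofMul (GalRep.TG N)) with hc
  have h1 : ∀ τ, Ei f ((1 : ℝ) +ᵥ τ) = Ei f τ + c := by
    intro τ
    rw [← GalRep.TG_smul N τ]
    exact Ei_smul f (GalRep.TG N) τ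
  have h2 : Tendsto (fun τ : ℍ => Ei f ((1 : ℝ) +ᵥ τ)) atImInfty (𝓝 0) :=
    (tendsto_Ei f).comp tendsto_vadd
  have h3 : Tendsto (fun τ : ℍ => Ei f ((1 : ℝ) +ᵥ τ)) atImInfty (𝓝 (0 + c)) := by
    simp only [h1]
    exact (tendsto_Ei f).add_const c
  have h4 := tendsto_nhds_unique h2 h3
  rw [zero_add] at h4
  rw [h1, ← h4, add_zero]

theorem exists_lexp_Ei (h1 : qCoeff f 1 = 1) :
    ∃ e : LaurentSeries ℂ, LExp 1 (Ei f) e ∧ Lo 1 1 e := by
  have hper : Function.Periodic (Ei f ∘ ofComplex) (1 : ℝ) := by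
    intro w
    by_cases hw : 0 < w.im
    · have hw' : 0 < (w + (1 : ℝ)).im := by simpa using hw
      simp only [Function.comp_apply, ofComplex_apply_of_im_pos hw', ofComplex_apply_of_im_pos hw]
      have h1 : (⟨w + (1 : ℝ), hw'⟩ : ℍ) = (1 : ℝ) +ᵥ (⟨w, hw⟩ : ℍ) := by
        ext1
        simp [add_comm]
      rw [h1, Ei_vadd]
    · have hw' : ¬ 0 < (w + (1 : ℝ)).im := by simpa using hw
      rw [not_lt] at hw hw'
      simp only [Function.comp_apply, ofComplex_apply_of_im_nonpos hw',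
        ofComplex_apply_of_im_nonpos hw]
  have hO : (Ei f) =O[atImInfty] fun τ => Real.exp ((0 : ℕ) * τ.im) := by
    have h2 : (fun τ : ℍ => Real.exp ((0 : ℕ) * τ.im)) = fun _ => (1 : ℝ) := by
      funext τ
      simp
    rw [h2]
    exact (tendsto_Ei f).isBigO_one ℝ
  obtain ⟨e, he⟩ := GalRep.exists_lexp one_pos hper (mdiff_Ei f) hO
  have he' : Igusa.HasLExp (Ei f) e := he
  have hth : Igusa.theta e = phi f := by
    refine he'.D.unique ?_
    have h2 : Igusa.HasLExp f (phi f) := Dlog.lexp_form (f := f)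
    refine h2.congr fun τ => ?_
    have h3 := hasDerivAt_of_mdiff (mdiff_Ei f) τ
    have h4 := h3.unique (hasDerivAt_Ei f τ)
    exact (mul_left_cancel₀ Complex.two_pi_I_ne_zero h4).symm
  have hφ := lo_phi h1
  have hco : ∀ k : ℤ, (k : ℂ) * e.coeff k = (phi f).coeff k := fun k => by
    rw [← hth, Igusa.theta_coeff]
  have hneg : ∀ k : ℤ, k < 0 → e.coeff k = 0 := by
    intro k hk
    have h2 := hco k
    rw [hφ.2 k (by omega)] at h2
    exact (mul_eq_zero.mp h2).resolve_left (by exact_mod_cast hk.ne)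
  have h0 : e.coeff 0 = 0 := by
    have h2 := tendsto_of_lexp he hneg
    simp only [neg_zero, zpow_zero, one_mul] at h2
    exact tendsto_nhds_unique h2 (tendsto_Ei f)
  refine ⟨e, he, ?_, fun k hk => ?_⟩
  · have h2 := hco 1
    rw [hφ.1] at h2
    simpa using h2
  · rcases lt_or_eq_of_le (show k ≤ 0 by omega) with h | rfl
    · exact hneg k h
    · exact h0

/-! ### Limits -/

theorem tendsto_q : Tendsto (fun τ : ℍ => 𝕢 1 (τ : ℂ)) atImInfty (𝓝 0) :=
  Dlog.tendsto_qParam one_pos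

theorem lim_E (h1 : qCoeff f 1 = 1) :
    Tendsto (fun τ : ℍ => (𝕢 1 (τ : ℂ))⁻¹ * Ei f τ) atImInfty (𝓝 1) := by
  obtain ⟨e, he, hlo⟩ := exists_lexp_Ei h1
  have := tendsto_of_lexp he hlo.2
  rw [hlo.1] at this
  simpa using this

theorem lim_f (h1 : qCoeff f 1 = 1) :
    Tendsto (fun τ : ℍ => (𝕢 1 (τ : ℂ))⁻¹ * f τ) atImInfty (𝓝 1) := by
  have hlo := lo_phi h1
  have := tendsto_of_lexp (Dlog.lexp_form (f := f)) hlo.2
  rw [show (HahnSeries.ofPowerSeries ℤ ℂ (qExpansion 1 f)).coeff 1 = 1 from hlo.1] at this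
  simpa using this

theorem lim_P (L : PeriodPair) (h1 : qCoeff f 1 = 1) :
    Tendsto (fun τ : ℍ => (𝕢 1 (τ : ℂ)) ^ 2 * ℘[L] (Ei f τ)) atImInfty (𝓝 1) := by
  have h2 := ((lim_E h1).inv₀ one_ne_zero).pow 2
  have h3 : Tendsto (fun τ : ℍ => ℘[L - (0:ℂ)] (Ei f τ)) atImInfty (𝓝 (℘[L - (0:ℂ)] 0)) :=
    (Moduli.continuousAt_except_zero L).tendsto.comp (tendsto_Ei f)
  have h4 := (tendsto_q.pow 2).mul h3
  have h5 := h2.add h4
  rw [inv_one, one_pow, zero_pow two_ne_zero, zero_mul, add_zero] at h5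
  refine h5.congr fun τ => ?_
  rw [Moduli.weierstrassP_eq, mul_inv, inv_inv]
  ring

theorem lim_P' (L : PeriodPair) (h1 : qCoeff f 1 = 1) :
    Tendsto (fun τ : ℍ => (𝕢 1 (τ : ℂ)) ^ 2 * (℘'[L] (Ei f τ) * f τ)) atImInfty (𝓝 (-2)) := by
  have h2 := (((lim_E h1).inv₀ one_ne_zero).pow 3).mul (lim_f h1)
  have h3 : Tendsto (fun τ : ℍ => ℘'[L - (0:ℂ)] (Ei f τ)) atImInfty (𝓝 (℘'[L - (0:ℂ)] 0)) :=
    (Moduli.continuousAt_derivExcept_zero L).tendsto.comp (tendsto_Ei f)
  have h4 := ((tendsto_q.pow 3).mul h3).mul (lim_f h1)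
  have h5 := (h2.const_mul (-2)).add h4
  rw [inv_one, one_pow, zero_pow three_ne_zero, zero_mul, zero_mul, add_zero, mul_one,
    mul_one] at h5
  refine h5.congr fun τ => ?_
  have hq := qParam_ne 1 (τ : ℂ)
  rw [Moduli.derivWeierstrassP_eq, mul_inv, inv_inv]
  field_simp

/-! ### The functions agree near `i∞` -/

theorem agree {L : PeriodPair} {x u v : LaurentSeries ℂ} {U V : ℍ → ℂ} (h1 : qCoeff f 1 = 1)
    (hv : v ≠ 0) (hu : x * v = u) (hU : Rep N (RingHom.id ℂ) u U)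
    (hV : Rep N (RingHom.id ℂ) v V) (hode : ODE f L.g₂ L.g₃ x) (hlead : Lead x) :
    ∃ A : ℝ, 0 ≤ A ∧ ∀ τ : ℍ, A < τ.im →
      Ei f τ ∉ L.lattice ∧ U τ = ℘[L] (Ei f τ) * V τ := by
  have lU : Igusa.HasLExp U u := by
    have := hU.lexp
    rwa [coeffMap_id] at this
  have lV : Igusa.HasLExp V v := by
    have := hV.lexp
    rwa [coeffMap_id] at this
  have lf : Igusa.HasLExp f (phi f) := Dlog.lexp_form (f := f)
  have lW := (lV.mul lU.D).sub (lU.mul lV.D)
  set W : ℍ → ℂ := fun τ => V τ * DD U τ - U τ * DD V τ with hW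
  have l2 := (lf.pow 2).mul ((((lU.pow 3).mul lV).smul 4).sub
    (((lU.mul (lV.pow 3))).smul L.g₂) |>.sub ((lV.pow 4).smul L.g₃))
  have hC4 : (HahnSeries.C (4 : ℂ) : LaurentSeries ℂ) = 4 := map_ofNat HahnSeries.C 4
  have e2 : v * Igusa.theta u - u * Igusa.theta v = v * v * Igusa.theta x := by
    rw [← hu, Igusa.theta_mul]
    ring
  have e1 : (v * Igusa.theta u - u * Igusa.theta v) ^ 2 =
      phi f ^ 2 * (HahnSeries.C 4 * (u ^ 3 * v) - HahnSeries.C L.g₂ * (u * v ^ 3) -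
        HahnSeries.C L.g₃ * v ^ 4) := by
    unfold ODE at hode
    rw [e2, ← hu, hC4]
    linear_combination v ^ 4 * hode
  have hW2 : ∀ τ, W τ ^ 2 = f τ ^ 2 *
      (4 * (U τ ^ 3 * V τ) - L.g₂ * (U τ * V τ ^ 3) - L.g₃ * V τ ^ 4) := by
    have l3 := lW.pow 2
    rw [e1] at l3
    exact fun τ => (l3 τ).unique (l2 τ)
  -- limits
  set m := v.order with hm
  set c := v.coeff m with hc
  have hc0 : c ≠ 0 := fun h => hv (HahnSeries.coeff_order_eq_zero.mp h)
  have lv : Lo m c v := ⟨rfl, fun k hk => HahnSeries.coeff_eq_zero_of_lt_order hk⟩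
  have lx := hlead.lo
  have lu := lx.mul lv
  rw [hu] at lu
  have lw := (lv.mul lv).mul lx.theta
  rw [← e2] at lw
  have t1 := tendsto_of_lexp (F := U) (G := u) lU lu.2
  have t2 := tendsto_of_lexp (F := V) (G := v) lV lv.2
  have t3 := tendsto_of_lexp (F := W) lW lw.2
  rw [lu.1] at t1
  rw [lw.1] at t3
  have limF : Tendsto (fun τ : ℍ => (𝕢 1 (τ : ℂ)) ^ 2 * (U τ / V τ)) atImInfty (𝓝 1) := by
    have h := t1.div t2 hc0
    rw [one_mul, div_self hc0] at h
    refine h.congr fun τ => ?_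
    have hq := qParam_ne 1 (τ : ℂ)
    have h2 : 𝕢 1 (τ : ℂ) ^ (-(-2 + m)) = 𝕢 1 (τ : ℂ) ^ 2 * 𝕢 1 (τ : ℂ) ^ (-m) := by
      rw [← zpow_natCast, ← zpow_add₀ hq]
      congr 1
      push_cast
      ring
    rw [Pi.div_apply, h2, mul_assoc, mul_div_assoc, mul_div_mul_left _ _ (zpow_ne_zero _ hq)]
  have limDF : Tendsto (fun τ : ℍ => (𝕢 1 (τ : ℂ)) ^ 2 * (W τ / V τ ^ 2)) atImInfty
      (𝓝 (-2)) := by
    have h := t3.div (t2.pow 2) (pow_ne_zero 2 hc0)
    have h3 : c * c * (((-2 : ℤ) : ℂ) * 1) / c ^ 2 = -2 := by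
      push_cast
      field_simp
    rw [h3] at h
    refine h.congr fun τ => ?_
    have hq := qParam_ne 1 (τ : ℂ)
    have h2 : 𝕢 1 (τ : ℂ) ^ (-(m + m + -2)) =
        𝕢 1 (τ : ℂ) ^ 2 * (𝕢 1 (τ : ℂ) ^ (-m)) ^ 2 := by
      rw [← zpow_natCast, ← zpow_natCast, ← zpow_mul, ← zpow_add₀ hq]
      congr 1
      push_cast
      ring
    rw [Pi.div_apply, h2, mul_pow, mul_assoc, mul_div_assoc,
      mul_div_mul_left _ _ (pow_ne_zero 2 (zpow_ne_zero _ hq))]
  have limP := lim_P (f := f) L h1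
  have limP' := lim_P' (f := f) L h1
  have limf := lim_f h1
  set P : ℍ → ℂ := fun τ => ℘[L] (Ei f τ) with hP
  set P' : ℍ → ℂ := fun τ => ℘'[L] (Ei f τ) * f τ with hP'
  set F : ℍ → ℂ := fun τ => U τ / V τ with hF
  set S : ℍ → ℂ := fun τ => W τ / V τ ^ 2 + P' τ with hS
  set B : ℍ → ℂ := fun τ => (4 * (F τ ^ 2 + F τ * P τ + P τ ^ 2) - L.g₂) * f τ ^ 2 with hB
  have limS : Tendsto (fun τ : ℍ => (𝕢 1 (τ : ℂ)) ^ 2 * S τ) atImInfty (𝓝 (-4)) := by
    have h := limDF.add limP'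
    have h4 : (-2 : ℂ) + -2 = -4 := by norm_num
    rw [h4] at h
    refine h.congr fun τ => ?_
    rw [hS]
    ring
  have limB : Tendsto (fun τ : ℍ => (𝕢 1 (τ : ℂ)) ^ 2 * B τ) atImInfty (𝓝 12) := by
    have h := ((((limF.pow 2).add (limF.mul limP)).add (limP.pow 2)).const_mul 4).sub
      ((tendsto_q.pow 4).const_mul L.g₂) |>.mul (limf.pow 2)
    have h4 : ((4 : ℂ) * (1 ^ 2 + 1 * 1 + 1 ^ 2) - L.g₂ * 0 ^ 4) * 1 ^ 2 = 12 := by norm_num
    rw [h4] at h
    refine h.congr fun τ => ?_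
    have hq := qParam_ne 1 (τ : ℂ)
    have hq2 : (𝕢 1 (τ : ℂ)) * (𝕢 1 (τ : ℂ))⁻¹ = 1 := mul_inv_cancel₀ hq
    set q := 𝕢 1 (τ : ℂ) with hqdef
    have h6 : q ^ 4 * (q⁻¹) ^ 2 = q ^ 2 := by
      have : q ^ 4 * (q⁻¹) ^ 2 = q ^ 2 * (q * q⁻¹) ^ 2 := by ring
      rw [this, hq2, one_pow, mul_one]
    rw [hB]
    simp only
    change (4 * ((q ^ 2 * F τ) ^ 2 + q ^ 2 * F τ * (q ^ 2 * P τ) + (q ^ 2 * P τ) ^ 2) -
      L.g₂ * q ^ 4) * (q⁻¹ * f τ) ^ 2 = _
    linear_combination ((4 * (F τ ^ 2 + F τ * P τ + P τ ^ 2) - L.g₂) * f τ ^ 2) * h6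
  have limc : Tendsto (fun τ : ℍ => B τ / S τ) atImInfty (𝓝 (-3)) := by
    have h := limB.div limS (by norm_num)
    have h4 : (12 : ℂ) / -4 = -3 := by norm_num
    rw [h4] at h
    refine h.congr fun τ => ?_
    have hq := qParam_ne 1 (τ : ℂ)
    rw [Pi.div_apply, mul_div_mul_left _ _ (pow_ne_zero 2 hq)]
  have limEE : Tendsto (fun τ : ℍ => (𝕢 1 (τ : ℂ)) ^ 2 * (F τ - P τ)) atImInfty (𝓝 0) := by
    have h := limF.sub limP
    rw [sub_self] at h
    refine h.congr fun τ => ?_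
    ring
  have ev1 : ∀ᶠ τ : ℍ in atImInfty, V τ ≠ 0 := by
    filter_upwards [t2.eventually_ne hc0] with τ hτ h
    exact hτ (by rw [h, mul_zero])
  have ev2 : ∀ᶠ τ : ℍ in atImInfty, S τ ≠ 0 := by
    filter_upwards [limS.eventually_ne (by norm_num : (-4 : ℂ) ≠ 0)] with τ hτ h
    exact hτ (by rw [h, mul_zero])
  have ev3 : ∀ᶠ τ : ℍ in atImInfty, Ei f τ ∉ L.lattice := by
    have h : Tendsto (Ei f) atImInfty (𝓝[≠] 0) := by
      refine tendsto_nhdsWithin_of_tendsto_nhds_of_eventually_within _ (tendsto_Ei f) ?_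
      filter_upwards [(lim_E h1).eventually_ne one_ne_zero] with τ hτ h
      exact hτ (by rw [Set.mem_singleton_iff.mp h, mul_zero])
    exact h.eventually (Moduli.eventually_notMem_lattice L 0)
  have ev4 : ∀ᶠ τ : ℍ in atImInfty, (B τ / S τ).re ≤ -(5 / 2) := by
    have h := (Complex.continuous_re.tendsto (-3 : ℂ)).comp limc
    have h5 : (-3 : ℂ).re < -(5 / 2) := by norm_num
    filter_upwards [h.eventually (gt_mem_nhds h5)] with τ hτ
    exact le_of_lt hτ
  obtain ⟨A, hA⟩ := (atImInfty_mem _).mp (ev1.and (ev2.and (ev3.and ev4)))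
  refine ⟨max A 0, le_max_right _ _, fun τ₀ hτ₀ => ?_⟩
  have hA' : ∀ τ : ℍ, max A 0 < τ.im →
      V τ ≠ 0 ∧ S τ ≠ 0 ∧ Ei f τ ∉ L.lattice ∧ (B τ / S τ).re ≤ -(5 / 2) :=
    fun τ hτ => hA τ ((le_max_left A 0).trans hτ.le)
  obtain ⟨hV0, -, hE0, -⟩ := hA' τ₀ hτ₀
  refine ⟨hE0, ?_⟩
  set p : ℝ → ℂ := fun y => (τ₀.re : ℂ) + y * Complex.I with hp
  have hpim : ∀ y, (p y).im = y := fun y => by simp [hp]
  have hpd : ∀ y, HasDerivAt p Complex.I y := by
    intro y
    have h := ((Complex.ofRealCLM.hasDerivAt (x := y)).mul_const Complex.I).const_add (τ₀.re : ℂ)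
    simpa [hp] using h
  have key := growth_zero (e := fun y => (fun z => U (ofComplex z) / V (ofComplex z) -
      ℘[L] ((Ei f ∘ ofComplex) z)) (p y)) (c := fun y => B (ofComplex (p y)) / S (ofComplex (p y)))
      (A := max A 0) ?_ ?_ ?_ hτ₀
  · have h5 : p τ₀.im = (τ₀ : ℂ) := by
      apply Complex.ext <;> simp [hp]
    simp only [h5, Function.comp_apply, ofComplex_apply] at key
    rw [sub_eq_zero, div_eq_iff hV0] at key
    exact key
  · intro y hy
    have hy0 : 0 < y := lt_of_le_of_lt (le_max_right A 0) hy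
    set τ : ℍ := ⟨p y, by rw [hpim]; exact hy0⟩ with hτ
    have hofc : ofComplex (p y) = τ := ofComplex_apply_of_im_pos (by rw [hpim]; exact hy0)
    have hτim : τ.im = y := hpim y
    obtain ⟨k1, k2, k3, -⟩ := hA' τ (by rw [hτim]; exact hy)
    have hu' := hasDerivAt_of_mdiff hU.mdiff τ
    have hv' := hasDerivAt_of_mdiff hV.mdiff τ
    have hEτ : (Ei f ∘ ofComplex) (τ : ℂ) = Ei f τ := by simp
    have hVτ : (V ∘ ofComplex) (τ : ℂ) = V τ := by simp
    have hUτ : (U ∘ ofComplex) (τ : ℂ) = U τ := by simp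
    have d1 := hu'.div hv' (by rw [hVτ]; exact k1)
    have d2 : HasDerivAt (fun z => ℘[L] ((Ei f ∘ ofComplex) z))
        (℘'[L] (Ei f τ) * (2 * Real.pi * Complex.I * f τ)) (τ : ℂ) := by
      have h4 : HasDerivAt ℘[L] (℘'[L] (Ei f τ)) ((Ei f ∘ ofComplex) (τ : ℂ)) := by
        rw [hEτ]
        exact Moduli.hasDerivAt_P L k3
      exact HasDerivAt.comp (τ : ℂ) h4 (hasDerivAt_Ei f τ)
    have d3 := d1.sub d2
    have d4 : HasDerivAt (fun z => U (ofComplex z) / V (ofComplex z) -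
      ℘[L] ((Ei f ∘ ofComplex) z)) (2 * Real.pi * Complex.I * (W τ / V τ ^ 2 - P' τ)) (p y) := by
      refine d3.congr_deriv ?_
      rw [hVτ, hUτ, hW, hP']
      simp only
      field_simp
    have d5 := HasDerivAt.scomp y d4 (hpd y)
    refine d5.congr_deriv ?_
    simp only
    rw [hofc]
    have hid : (W τ / V τ ^ 2 - P' τ) * S τ = (F τ - P τ) * B τ := by
      have i1 := hW2 τ
      have i2 := Moduli.P'_sq L k3
      have i3 : (W τ / V τ ^ 2) ^ 2 = (4 * F τ ^ 3 - L.g₂ * F τ - L.g₃) * f τ ^ 2 := by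
        rw [hF]
        simp only
        field_simp
        rw [i1]
        ring
      have i4 : P' τ ^ 2 = (4 * P τ ^ 3 - L.g₂ * P τ - L.g₃) * f τ ^ 2 := by
        rw [hP', hP]
        simp only
        rw [mul_pow, i2]
      rw [hS, hB]
      simp only
      linear_combination i3 - i4
    have hid2 : W τ / V τ ^ 2 - P' τ = B τ / S τ * (F τ - P τ) := by
      rw [div_mul_eq_mul_div, eq_div_iff k2, hid]
      ring
    have hcomp : U τ / V τ - ℘[L] ((Ei f ∘ ofComplex) (p y)) = F τ - P τ := by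
      simp only [Function.comp_apply, hofc]
      rfl
    rw [hid2, hcomp, smul_eq_mul]
    linear_combination (2 * Real.pi * (B τ / S τ * (F τ - P τ))) * Complex.I_sq
  · intro y hy
    have hy0 : 0 < y := lt_of_le_of_lt (le_max_right A 0) hy
    have hofc : ofComplex (p y) = ⟨p y, by rw [hpim]; exact hy0⟩ :=
      ofComplex_apply_of_im_pos (by rw [hpim]; exact hy0)
    rw [hofc]
    exact (hA' _ (by
      have : UpperHalfPlane.im ⟨p y, by rw [hpim]; exact hy0⟩ = y := hpim y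
      rw [this]
      exact hy)).2.2.2
  · have hpath : Tendsto (fun y : ℝ => ofComplex (p y)) atTop atImInfty := by
      rw [atImInfty, tendsto_comap_iff]
      refine Tendsto.congr' ?_ tendsto_id
      filter_upwards [eventually_gt_atTop 0] with y hy
      simp only [Function.comp_apply, id_eq]
      rw [ofComplex_apply_of_im_pos (show 0 < (p y).im by rw [hpim]; exact hy)]
      exact (hpim y).symm
    have h5 := ((limEE.comp hpath).norm).pow 2
    rw [norm_zero, zero_pow two_ne_zero] at h5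
    refine squeeze_zero' (Eventually.of_forall fun y => by positivity) ?_ h5
    filter_upwards [eventually_gt_atTop 0] with y hy
    have hofc : ofComplex (p y) = ⟨p y, by rw [hpim]; exact hy⟩ :=
      ofComplex_apply_of_im_pos (by rw [hpim]; exact hy)
    simp only [Function.comp_apply]
    rw [hofc]
    set τ : ℍ := ⟨p y, by rw [hpim]; exact hy⟩ with hτ
    have hτim : τ.im = y := hpim y
    have hnq : ‖𝕢 1 (τ : ℂ)‖ = Real.exp (-2 * Real.pi * y) := by
      rw [GalRep.norm_qParam_eq, hτim, div_one]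
    rw [norm_mul, norm_pow, hnq, mul_pow, mul_comm]
    have h6 : Real.exp (-(10 * Real.pi * y)) ≤ (Real.exp (-2 * Real.pi * y) ^ 2) ^ 2 := by
      rw [← Real.exp_nat_mul, ← Real.exp_nat_mul]
      apply Real.exp_le_exp.mpr
      push_cast
      have := mul_pos Real.pi_pos hy
      nlinarith
    exact mul_le_mul_of_nonneg_right h6 (sq_nonneg _)

/-- **(P5)** -/
theorem convStmt : ConvStmt N := by
  intro f L x h1 hx hode hlead
  obtain ⟨u, v, U, V, hv, hu, hU, hV⟩ := exists_rep_frac N (RingHom.id ℂ) hx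
  refine ⟨u, v, U, V, hv, hu, hU, hV, ?_⟩
  obtain ⟨A, hA, hag⟩ := agree h1 hv hu hU hV hode hlead
  set H : ℂ → ℂ := fun z => (U ∘ ofComplex) z - ℘[L] ((Ei f ∘ ofComplex) z) * (V ∘ ofComplex) z
    with hH
  have hopen : IsOpen {z : ℂ | 0 < z.im} := isOpen_lt continuous_const Complex.continuous_im
  have hpre : IsPreconnected {z : ℂ | 0 < z.im} := by
    have : Convex ℝ {z : ℂ | 0 < z.im} := convex_halfSpace_im_gt 0
    exact this.isPreconnected
  have han : ∀ {G : ℍ → ℂ}, MDiff G → ∀ z ∈ {z : ℂ | 0 < z.im}, AnalyticAt ℂ (G ∘ ofComplex) z := by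
    intro G hG z hz
    exact (DifferentiableOn.analyticOnNhd (fun w hw =>
      (UpperHalfPlane.mdifferentiable_iff.mp hG) w hw) hopen) z hz
  have hmer : MeromorphicOn H {z : ℂ | 0 < z.im} := by
    intro z hz
    refine (han hU.mdiff z hz).meromorphicAt.sub (MeromorphicAt.mul ?_
      (han hV.mdiff z hz).meromorphicAt)
    exact (L.meromorphic_weierstrassP _).comp_analyticAt (analyticOnNhd_Ei f z hz)
  have htop : ∀ z ∈ {z : ℂ | 0 < z.im}, meromorphicOrderAt H z = ⊤ := by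
    intro z hz
    by_contra h
    have hz₁ : ((A + 1 : ℝ) * Complex.I) ∈ {z : ℂ | 0 < z.im} := by
      have : 0 < A + 1 := by linarith
      simp [this]
    have h2 := hmer.meromorphicOrderAt_ne_top_of_isPreconnected hpre hz hz₁ h
    apply h2
    rw [meromorphicOrderAt_eq_top_iff]
    refine Filter.Eventually.filter_mono nhdsWithin_le_nhds ?_
    have h3 : {z : ℂ | A < z.im} ∈ 𝓝 ((A + 1 : ℝ) * Complex.I) := by
      refine (isOpen_lt continuous_const Complex.continuous_im).mem_nhds ?_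
      have : A < A + 1 := by linarith
      simpa using this
    filter_upwards [h3] with w hw
    have hw0 : 0 < w.im := lt_of_le_of_lt hA hw
    rw [hH]
    simp only [Function.comp_apply, ofComplex_apply_of_im_pos hw0]
    rw [sub_eq_zero]
    exact (hag ⟨w, hw0⟩ hw).2
  intro τ hτ
  have h3 := htop (τ : ℂ) τ.im_pos
  rw [meromorphicOrderAt_eq_top_iff] at h3
  have h4 : ContinuousAt H (τ : ℂ) := by
    have hEτ : (Ei f ∘ ofComplex) (τ : ℂ) = Ei f τ := by simp
    have h5 : ContinuousAt ℘[L] ((Ei f ∘ ofComplex) (τ : ℂ)) := by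
      rw [hEτ]
      exact (Moduli.analyticAt_P L hτ).continuousAt
    refine (han hU.mdiff _ τ.im_pos).continuousAt.sub (ContinuousAt.mul ?_
      (han hV.mdiff _ τ.im_pos).continuousAt)
    exact ContinuousAt.comp (f := Ei f ∘ ofComplex) h5
      (analyticOnNhd_Ei f _ τ.im_pos).continuousAt
  have h5 : H (τ : ℂ) = 0 := by
    have h6 : Tendsto H (𝓝[≠] (τ : ℂ)) (𝓝 (H τ)) := h4.tendsto.mono_left nhdsWithin_le_nhds
    have h7 : Tendsto H (𝓝[≠] (τ : ℂ)) (𝓝 0) :=
      tendsto_const_nhds.congr' (by filter_upwards [h3] with z hz; exact hz.symm)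
    exact tendsto_nhds_unique h6 h7
  rw [hH] at h5
  simp only [Function.comp_apply, ofComplex_apply] at h5
  exact sub_eq_zero.mp h5

end Fermat.Agent.Cor.ES
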