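import Fermat.Agent.Corollaries.ES.Defs

/-!
# Eichler–Shimura, part 2: definitions
-/

set_option autoImplicit false

open UpperHalfPlane CongruenceSubgroup ModularFormClass
open scoped MatrixGroups Manifold ModularForm PeriodPair

noncomputable section

namespace Fermat.Agent.Cor.ES

open Fermat.Agent.ModFun Fermat.Agent.X0Emb Fermat.Agent.Cor.HW.Per ModularCurve
open Fermat.Agent.GalRep ModularCurve.Period Fermat.Agent.HeckePar

/-- `y² = x³ - (a/4) x - b/4` -/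
def Wc {F : Type*} [Field F] (a b : F) : WeierstrassCurve F := ⟨0, 0, 0, -a / 4, -b / 4⟩

/-- `p + q Y` has the divisor `n (P) - n (O)`, `P = (x₀, y₀)`, `y₀ ≠ 0` -/
structure DivFn {F : Type*} [Field F] (n : ℕ) (a b x₀ y₀ : F) (p q : Polynomial F) : Prop where
  norm : ∃ c : F, c ≠ 0 ∧ p ^ 2 - q ^ 2 * (Polynomial.X ^ 3 - Polynomial.C (a / 4) * Polynomial.X -
    Polynomial.C (b / 4)) = Polynomial.C c * (Polynomial.X - Polynomial.C x₀) ^ n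
  vanish : p.eval x₀ + q.eval x₀ * y₀ = 0
  nonvanish : p.eval x₀ - q.eval x₀ * y₀ ≠ 0

/-- (S3) existence of the function of a torsion point -/
def DivStmt : Prop :=
  ∀ (F : Type) [Field F] [DecidableEq F] [CharZero F] (a b : F) (n : ℕ), n ≠ 0 →
    (Wc a b).Δ ≠ 0 → ∀ (x₀ y₀ : F) (h : (Wc a b).toAffine.Nonsingular x₀ y₀), y₀ ≠ 0 →
      n • (WeierstrassCurve.Affine.Point.some x₀ y₀ h : (Wc a b).toAffine.Point) = 0 →
      ∃ p q : Polynomial F, DivFn n a b x₀ y₀ p q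

/-- a function like `σ` for the lattice `L`, with its pairing -/
structure Sig (L : PeriodPair) (S α β : ℂ → ℂ) (B : ℂ → ℂ → ℤ) : Prop where
  diff : Differentiable ℂ S
  zero : ∀ z, S z = 0 ↔ z ∈ L.lattice
  simple : ∀ z ∈ L.lattice, deriv S z ≠ 0
  quasi : ∀ l ∈ L.lattice, ∀ z, S (z + l) = Complex.exp (α l * z + β l) * S z
  pair : ∀ l ∈ L.lattice, ∀ m ∈ L.lattice, α m * l - α l * m = 2 * Real.pi * Complex.I * B m l
  add_left : ∀ l ∈ L.lattice, ∀ m ∈ L.lattice, ∀ k ∈ L.lattice, B (l + m) k = B l k + B m k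
  add_right : ∀ l ∈ L.lattice, ∀ m ∈ L.lattice, ∀ k ∈ L.lattice, B k (l + m) = B k l + B k m
  unimod : ∀ (n : ℤ) (m : ℂ), m ∈ L.lattice → (∀ l ∈ L.lattice, n ∣ B m l) →
    ∃ k ∈ L.lattice, m = n * k

/-- (S1) existence -/
def SigStmt : Prop := ∀ L : PeriodPair, ∃ S α β B, Sig L S α β B

/-- the `n`-th root of the function of `μ / n` -/
def hroot (S α : ℂ → ℂ) (n : ℕ) (μ z : ℂ) : ℂ :=
  Complex.exp (α μ * z / n) * S (z - μ / n) / S z

/-- (S2) `p(℘) + q(℘) ℘'/2` is the `n`-th power of `hroot`, up to a constant -/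
def RootStmt : Prop :=
  ∀ (L : PeriodPair) (S α β : ℂ → ℂ) (B : ℂ → ℂ → ℤ), Sig L S α β B →
    ∀ (n : ℕ), n ≠ 0 → ∀ μ ∈ L.lattice, μ / n ∉ L.lattice → ℘'[L] (μ / n) ≠ 0 →
    ∀ p q : Polynomial ℂ, DivFn n L.g₂ L.g₃ (℘[L] (μ / n)) (℘'[L] (μ / n) / 2) p q →
      ∃ c : ℂ, c ≠ 0 ∧ ∀ z, z ∉ L.lattice →
        c * hroot S α n μ z ^ n = p.eval (℘[L] z) + q.eval (℘[L] z) * (℘'[L] z / 2)

/-- (S2') the multiplier of `hroot` -/
def MultStmt : Prop :=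
  ∀ (L : PeriodPair) (S α β : ℂ → ℂ) (B : ℂ → ℂ → ℤ), Sig L S α β B →
    ∀ (n : ℕ), n ≠ 0 → ∀ μ ∈ L.lattice, ∀ l ∈ L.lattice, ∀ z, z ∉ L.lattice →
      hroot S α n μ (z + l) =
        Complex.exp (2 * Real.pi * Complex.I * B μ l / n) * hroot S α n μ z

variable {N : ℕ} [NeZero N]

/-- `y` is a modular function whose function is `℘'_L(∫ f)` -/
def IsP' (f : CuspForm (Gamma0 N) 2) (L : PeriodPair) (y : LaurentSeries ℂ) : Prop :=
  ∃ (u v : LaurentSeries ℂ) (U V : ℍ → ℂ), v ≠ 0 ∧ y * v = u ∧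
    Rep N (RingHom.id ℂ) u U ∧ Rep N (RingHom.id ℂ) v V ∧
    ∀ τ : ℍ, Ei f τ ∉ L.lattice → U τ = ℘'[L] (Ei f τ) * V τ

/-- (S0) `℘'(∫ f)` is a modular function: `y = θ x / φ` -/
def ModStmt' (N : ℕ) [NeZero N] : Prop :=
  ∀ (f : CuspForm (Gamma0 N) 2) (L : PeriodPair) (x : LaurentSeries ℂ), f ≠ 0 → IsP f L x →
    IsP' f L (Igusa.theta x / phi f)

/-- (S4) the lift to the upper half plane: the function `g = hroot(∫ f) V` has the character of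
`γ ↦ B(μ, om f γ)` and `c g ^ n` is the function `(p(x) + q(x) y/2) v ^ n` of the field of
`X₀(N)` -/
def LiftStmt (N : ℕ) [NeZero N] : Prop :=
  ∀ (f : CuspForm (Gamma0 N) 2) (L : PeriodPair) (x y : modularFunctionFieldBar N), f ≠ 0 →
    (∀ γ, om f γ ∈ L.lattice) →
    IsP f L (coeffMap X0Emb.iota (x : LaurentSeries (AlgebraicClosure ℚ))) →
    IsP' f L (coeffMap X0Emb.iota (y : LaurentSeries (AlgebraicClosure ℚ))) →
    ∀ (S α β : ℂ → ℂ) (B : ℂ → ℂ → ℤ), Sig L S α β B →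
    ∀ (n : ℕ), n ≠ 0 → ∀ μ ∈ L.lattice, μ / n ∉ L.lattice →
    ∀ p q : Polynomial (AlgebraicClosure ℚ),
      (∃ c : ℂ, c ≠ 0 ∧ ∀ z, z ∉ L.lattice → c * hroot S α n μ z ^ n =
        (p.map X0Emb.iota).eval (℘[L] z) + (q.map X0Emb.iota).eval (℘[L] z) * (℘'[L] z / 2)) →
    ∀ φ : Additive (Gamma0 N) →+ ℤ, (∀ γ, φ γ = B μ (om f γ)) →
      ∃ (s : modularFunctionFieldBar N) (g : ℍ → ℂ), s ≠ 0 ∧ HasChar N (charOf n φ) g ∧
        LExp 1 (g ^ n) (coeffMap X0Emb.iota (((Polynomial.aeval x p + Polynomial.aeval x q * (y / 2))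
          * s ^ n : modularFunctionFieldBar N) : LaurentSeries (AlgebraicClosure ℚ))) ∧
        Polynomial.aeval x p + Polynomial.aeval x q * (y / 2) ≠ 0

/-- (S8) the Hecke operators on the homomorphisms `γ ↦ B(μ, om f γ)` -/
def HeckeStmt (N : ℕ) [NeZero N] : Prop :=
  ∀ (f : CuspForm (Gamma0 N) 2), f.IsNormalizedEigenform →
    ∀ (ℓ : Nat.Primes) (a : ℤ), qCoeff f ℓ = a → ∀ (L : PeriodPair),
    (∀ γ, om f γ ∈ L.lattice) → ∀ (b : ℂ → ℤ),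
    (∀ l ∈ L.lattice, ∀ m ∈ L.lattice, b (l + m) = b l + b m) →
    ∀ φ : parabolicHoms ℤ (Gamma0 N) ℤ, (∀ γ, (φ : Additive (Gamma0 N) →+ ℤ) γ = b (om f γ)) →
      opPar N ℓ φ = a • φ

end Fermat.Agent.Cor.ES
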