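import Fermat.Agent.Corollaries.ES.Defs

/-!
# Uniqueness of the formal solution
-/

set_option autoImplicit false

open UpperHalfPlane CongruenceSubgroup ModularFormClass
open scoped MatrixGroups Manifold ModularForm PeriodPair

noncomputable section

namespace Fermat.Agent.Cor.ES

open Fermat.Agent.ModFun Fermat.Agent.X0Emb Fermat.Agent.Cor.HW.Per ModularCurve

/-- `x = c q^m + ...` -/
def Lo (m : ℤ) (c : ℂ) (x : LaurentSeries ℂ) : Prop := x.coeff m = c ∧ ∀ k < m, x.coeff k = 0

namespace Lo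

variable {m m' : ℤ} {c c' : ℂ} {x y : LaurentSeries ℂ}

theorem mul (hx : Lo m c x) (hy : Lo m' c' y) : Lo (m + m') (c * c') (x * y) := by
  have hs : ∀ k ≤ m + m', ∀ ij ∈ Finset.antidiagonal x.isPWO_support y.isPWO_support k,
      k = m + m' ∧ ij = (m, m') := by
    intro k hk ij hij
    rw [Finset.mem_antidiagonal] at hij
    obtain ⟨h1, h2, h3⟩ := hij
    have h4 : m ≤ ij.1 := by
      by_contra h
      exact h1 (hx.2 _ (not_le.mp h))
    have h5 : m' ≤ ij.2 := by
      by_contra h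
      exact h2 (hy.2 _ (not_le.mp h))
    refine ⟨by omega, Prod.ext ?_ ?_⟩ <;> simp only <;> omega
  refine ⟨?_, fun k hk => ?_⟩
  · rw [HahnSeries.coeff_mul]
    rcases eq_or_ne c 0 with rfl | hc
    · rw [zero_mul]
      refine Finset.sum_eq_zero fun ij hij => ?_
      rw [(hs _ le_rfl ij hij).2]
      simp [hx.1]
    rcases eq_or_ne c' 0 with rfl | hc'
    · rw [mul_zero]
      refine Finset.sum_eq_zero fun ij hij => ?_
      rw [(hs _ le_rfl ij hij).2]
      simp [hy.1]
    rw [Finset.sum_eq_single_of_mem (m, m')]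
    · rw [hx.1, hy.1]
    · rw [Finset.mem_antidiagonal]
      exact ⟨by rw [HahnSeries.mem_support, hx.1]; exact hc,
        by rw [HahnSeries.mem_support, hy.1]; exact hc', rfl⟩
    · intro ij hij hne
      exact absurd (hs _ le_rfl ij hij).2 hne
  · rw [HahnSeries.coeff_mul]
    refine Finset.sum_eq_zero fun ij hij => ?_
    have := (hs k hk.le ij hij).1
    omega

theorem add (hx : Lo m c x) (hy : Lo m c' y) : Lo m (c + c') (x + y) :=
  ⟨by rw [HahnSeries.coeff_add, hx.1, hy.1], fun k hk => by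
    rw [HahnSeries.coeff_add, hx.2 k hk, hy.2 k hk, add_zero]⟩

theorem sub (hx : Lo m c x) (hy : Lo m c' y) : Lo m (c - c') (x - y) :=
  ⟨by rw [HahnSeries.coeff_sub, hx.1, hy.1], fun k hk => by
    rw [HahnSeries.coeff_sub, hx.2 k hk, hy.2 k hk, sub_zero]⟩

theorem theta (hx : Lo m c x) : Lo m (m * c) (Igusa.theta x) :=
  ⟨by rw [Igusa.theta_coeff, hx.1], fun k hk => by rw [Igusa.theta_coeff, hx.2 k hk, mul_zero]⟩

theorem weaken (hx : Lo m c x) {k : ℤ} (hk : k < m) : Lo k 0 x :=
  ⟨hx.2 k hk, fun j hj => hx.2 j (hj.trans hk)⟩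

theorem C (a : ℂ) : Lo 0 a (HahnSeries.C a) := by
  refine ⟨by simp, fun k hk => ?_⟩
  rw [HahnSeries.C_apply, HahnSeries.coeff_single_of_ne hk.ne]

theorem const_mul (a : ℂ) (hx : Lo m c x) : Lo m (a * c) (HahnSeries.C a * x) := by
  have := (C a).mul hx
  rwa [zero_add] at this

theorem unique (hx : Lo m c x) (hy : Lo m c' x) : c = c' := hx.1.symm.trans hy.1

end Lo

theorem Lead.lo {x : LaurentSeries ℂ} (h : Lead x) : Lo (-2) 1 x := ⟨h.coeff, h.zero⟩

variable {N : ℕ} [NeZero N]

theorem lo_phi {f : CuspForm (Gamma0 N) 2} (h1 : qCoeff f 1 = 1) : Lo 1 1 (phi f) := by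
  have h0 : (qExpansion 1 f).coeff 0 = 0 := by
    have := FermatAgent.HeckeEigen.qCoeff_at_zero (f := f)
    exact this
  refine ⟨?_, fun k hk => ?_⟩
  · have := HahnSeries.ofPowerSeries_apply_coeff (Γ := ℤ) (qExpansion 1 f) 1
    rw [phi]
    rw [Nat.cast_one] at this
    rw [this]
    exact h1
  · rw [phi]
    rcases lt_or_ge k 0 with hk0 | hk0
    · rw [HahnSeries.ofPowerSeries_apply]
      exact HahnSeries.embDomain_of_notMem_range (by
        rintro ⟨n, hn⟩
        simp at hn
        omega)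
    · have hk' : k = ((0 : ℕ) : ℤ) := by omega
      rw [hk', HahnSeries.ofPowerSeries_apply_coeff]
      exact h0

theorem uniqStmt : UniqStmt N := by
  intro f a b x x' h1 hx hx' hl hl'
  by_contra hne
  have hd : x - x' ≠ 0 := sub_ne_zero.mpr hne
  set d := x - x' with hdd
  set n := d.order with hn
  have hdn : d.coeff n ≠ 0 := fun h => hd (HahnSeries.coeff_order_eq_zero.mp h)
  have hlo : Lo n (d.coeff n) d := ⟨rfl, fun k hk => HahnSeries.coeff_eq_zero_of_lt_order hk⟩
  have hφ := lo_phi h1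
  have e : Igusa.theta d * (Igusa.theta x + Igusa.theta x') =
      d * ((HahnSeries.C 4 * (x * x + x * x' + x' * x') - HahnSeries.C a) *
        (phi f * phi f)) := by
    have h4 : (HahnSeries.C (4 : ℂ) : LaurentSeries ℂ) = 4 := map_ofNat HahnSeries.C 4
    unfold ODE at hx hx'
    rw [h4, hdd, Igusa.theta_sub]
    linear_combination hx - hx'
  have l1 := hlo.theta.mul (hl.lo.theta.add hl'.lo.theta)
  have l2 : Lo (-4) (4 * (1 * 1 + 1 * 1 + 1 * 1) - 0)
      (HahnSeries.C 4 * (x * x + x * x' + x' * x') - HahnSeries.C a) := by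
    have h2 := hl.lo.mul hl.lo
    have h3 := hl.lo.mul hl'.lo
    have h4 := hl'.lo.mul hl'.lo
    exact (((h2.add h3).add h4).const_mul 4).sub ((Lo.C a).weaken (by norm_num))
  have l3 := hlo.mul (l2.mul (hφ.mul hφ))
  rw [e] at l1
  have l4 : Lo (n + -2) (d.coeff n * ((4 * (1 * 1 + 1 * 1 + 1 * 1) - 0) * (1 * 1)))
      (d * ((HahnSeries.C 4 * (x * x + x * x' + x' * x') - HahnSeries.C a) *
        (phi f * phi f))) := by
    have : n + (-4 + (1 + 1)) = n + -2 := by ring
    rw [← this]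
    exact l3
  have h5 := l1.unique l4
  have h6 : d.coeff n * ((n : ℂ) * (-4) - 12) = 0 := by
    push_cast at h5
    linear_combination h5
  have h7 := (mul_eq_zero.mp h6).resolve_left hdn
  have h8 : (n : ℂ) = ((-3 : ℤ) : ℂ) := by
    push_cast
    linear_combination -h7 / 4
  have h9 : n = -3 := by exact_mod_cast h8
  apply hdn
  rw [h9, hdd, HahnSeries.coeff_sub, hl.zero _ (by norm_num), hl'.zero _ (by norm_num), sub_zero]

end Fermat.Agent.Cor.ES
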