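import Fermat.Agent.Corollaries.ES.Basic
import Fermat.Agent.Corollaries.ES.Uniq
import Fermat.Agent.Dlog.ModU

/-!
# The expansion of `℘(∫ f)` satisfies the differential equation
-/

set_option autoImplicit false

open UpperHalfPlane hiding I
open CongruenceSubgroup ModularFormClass Filter Topology ModularForm
open scoped MatrixGroups Manifold ModularForm PeriodPair

noncomputable section

namespace Fermat.Agent.Cor.ES

open Fermat.Agent.ModFun Fermat.Agent.X0Emb Fermat.Agent.Cor.HW.Per ModularCurve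

local notation "𝕢" => Function.Periodic.qParam
local notation "DD" => Derivative.normalizedDerivOfComplex

/-- the leading coefficient as a limit -/
theorem tendsto_of_lexp {F : ℍ → ℂ} {G : LaurentSeries ℂ} (hf : LExp 1 F G) {m : ℤ}
    (hm : ∀ n < m, G.coeff n = 0) :
    Tendsto (fun τ : ℍ => 𝕢 1 (τ : ℂ) ^ (-m) * F τ) atImInfty (𝓝 (G.coeff m)) := by
  have hh : (0 : ℝ) < 1 := one_pos
  have hsum : Summable fun k : ℕ => ‖G.coeff (m + k) • 𝕢 1 (UpperHalfPlane.I : ℍ) ^ k‖ :=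
    (hf.hasSum_nat hm UpperHalfPlane.I).summable.norm
  have h1 : Tendsto (fun τ : ℍ => ∑' k : ℕ, G.coeff (m + k) • 𝕢 1 (τ : ℂ) ^ k) atImInfty
      (𝓝 (∑' k : ℕ, G.coeff (m + k) • (0 : ℂ) ^ k)) := by
    refine tendsto_tsum_of_dominated_convergence hsum (fun k => ?_) ?_
    · exact ((Dlog.tendsto_qParam hh).pow k).const_smul _
    · filter_upwards [(atImInfty_mem _).mpr ⟨1, fun τ hτ => hτ⟩] with τ hτ k
      have hτ' : (1 : ℝ) ≤ τ.im := hτ
      rw [norm_smul, norm_smul, norm_pow, norm_pow]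
      refine mul_le_mul_of_nonneg_left ?_ (norm_nonneg _)
      exact pow_le_pow_left₀ (norm_nonneg _) (X0Deg.norm_q_anti hh (by simpa using hτ')) k
  have h2 : (∑' k : ℕ, G.coeff (m + k) • (0 : ℂ) ^ k) = G.coeff m := by
    rw [tsum_eq_single 0]
    · simp
    · intro k hk
      rw [zero_pow hk, smul_zero]
  have h3 : (fun τ : ℍ => ∑' k : ℕ, G.coeff (m + k) • 𝕢 1 (τ : ℂ) ^ k) =
      fun τ : ℍ => 𝕢 1 (τ : ℂ) ^ (-m) * F τ := by
    funext τ
    exact (hf.hasSum_nat hm τ).tsum_eq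
  rwa [h2, h3] at h1

theorem hasDerivAt_of_mdiff {F : ℍ → ℂ} (hF : MDiff F) (τ : ℍ) :
    HasDerivAt (F ∘ ofComplex) (2 * Real.pi * Complex.I * DD F τ) (τ : ℂ) := by
  have h1 : DifferentiableAt ℂ (F ∘ ofComplex) (τ : ℂ) := by
    have := (UpperHalfPlane.mdifferentiable_iff.mp hF) (τ : ℂ) τ.im_pos
    exact this.differentiableAt
      ((isOpen_lt continuous_const Complex.continuous_im).mem_nhds τ.im_pos)
  have h2 := h1.hasDerivAt
  have h3 : (2 * Real.pi * Complex.I : ℂ) ≠ 0 := Complex.two_pi_I_ne_zero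
  have h4 : (2 * Real.pi * Complex.I : ℂ) * DD F τ = deriv (F ∘ ofComplex) (τ : ℂ) := by
    rw [Derivative.normalizedDerivOfComplex, mul_inv_cancel_left₀ h3]
  rwa [h4]

variable {N : ℕ} [NeZero N] {f : CuspForm (Gamma0 N) 2}

/-- the derivative of the relation `U = ℘(Ei f) V` -/
theorem wronskian {L : PeriodPair} {U V : ℍ → ℂ} (hU : MDiff U) (hV : MDiff V)
    (hUV : ∀ τ : ℍ, Ei f τ ∉ L.lattice → U τ = ℘[L] (Ei f τ) * V τ) {τ : ℍ}
    (hτ : Ei f τ ∉ L.lattice) :
    V τ * DD U τ - U τ * DD V τ = ℘'[L] (Ei f τ) * f τ * V τ ^ 2 := by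
  have h3 : (2 * Real.pi * Complex.I : ℂ) ≠ 0 := Complex.two_pi_I_ne_zero
  have hE := hasDerivAt_Ei f τ
  have hu := hasDerivAt_of_mdiff hU τ
  have hv := hasDerivAt_of_mdiff hV τ
  have hEτ : (Ei f ∘ ofComplex) (τ : ℂ) = Ei f τ := by simp
  have hVτ : (V ∘ ofComplex) (τ : ℂ) = V τ := by simp
  have hP : HasDerivAt (fun z => ℘[L] ((Ei f ∘ ofComplex) z))
      (℘'[L] (Ei f τ) * (2 * Real.pi * Complex.I * f τ)) (τ : ℂ) := by
    have h4 : HasDerivAt ℘[L] (℘'[L] (Ei f τ)) ((Ei f ∘ ofComplex) (τ : ℂ)) := by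
      rw [hEτ]
      exact Moduli.hasDerivAt_P L hτ
    exact HasDerivAt.comp (τ : ℂ) h4 hE
  have hprod := hP.mul hv
  have heq : (U ∘ ofComplex) =ᶠ[𝓝 (τ : ℂ)]
      fun z => ℘[L] ((Ei f ∘ ofComplex) z) * (V ∘ ofComplex) z := by
    have h5 : ∀ᶠ z in 𝓝 (τ : ℂ), (Ei f ∘ ofComplex) z ∉ L.lattice := by
      have h6 := hE.continuousAt
      have h7 : ∀ᶠ w in 𝓝 ((Ei f ∘ ofComplex) (τ : ℂ)), w ∉ L.lattice := by
        rw [hEτ]
        exact Moduli.eventually_notMem_lattice' L hτ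
      exact h6.tendsto.eventually h7
    filter_upwards [h5] with z hz
    exact hUV _ hz
  have h8 := hu.unique (hprod.congr_of_eventuallyEq heq)
  rw [hEτ, hVτ] at h8
  have h9 := hUV τ hτ
  apply mul_left_cancel₀ h3
  rw [h9]
  linear_combination V τ * h8

theorem ode_functions {L : PeriodPair} {U V : ℍ → ℂ} (hf : f ≠ 0) (hU : MDiff U) (hV : MDiff V)
    (hUV : ∀ τ : ℍ, Ei f τ ∉ L.lattice → U τ = ℘[L] (Ei f τ) * V τ) (τ : ℍ) :
    (V τ * DD U τ - U τ * DD V τ) ^ 2 =
      f τ ^ 2 * (4 * U τ ^ 3 * V τ - L.g₂ * (U τ * V τ ^ 3) - L.g₃ * V τ ^ 4) := by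
  have hD := dense_Ei hf (Moduli.countable_lattice L)
  have hDU := (Derivative.normalizedDerivOfComplex_mdifferentiable hU).continuous
  have hDV := (Derivative.normalizedDerivOfComplex_mdifferentiable hV).continuous
  have hUc := hU.continuous
  have hVc := hV.continuous
  have hfc : Continuous (f : ℍ → ℂ) := f.holo'.continuous
  have h1 : Set.EqOn (fun τ => (V τ * DD U τ - U τ * DD V τ) ^ 2)
      (fun τ => f τ ^ 2 * (4 * U τ ^ 3 * V τ - L.g₂ * (U τ * V τ ^ 3) - L.g₃ * V τ ^ 4))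
      {τ : ℍ | Ei f τ ∉ (L.lattice : Set ℂ)} := by
    intro τ hτ
    have h2 := wronskian hU hV hUV hτ
    have h3 := hUV τ hτ
    have h4 := Moduli.P'_sq L hτ
    simp only
    rw [h2, h3]
    linear_combination f τ ^ 2 * V τ ^ 4 * h4
  have h5 := Continuous.ext_on hD (by fun_prop) (by fun_prop) h1
  exact congrFun h5 τ

/-- **(P4)** -/
theorem expStmt : ExpStmt N := by
  intro f L x h1 hx
  have hf : f ≠ 0 := by
    rintro rfl
    have : qCoeff (0 : CuspForm (Gamma0 N) 2) 1 = 0 := by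
      have h2 := (FermatAgent.HeckeEigen.qCoeff_smul (0 : ℂ) (0 : CuspForm (Gamma0 N) 2) 1)
      rw [zero_smul, zero_mul] at h2
      exact h2
    rw [this] at h1
    exact zero_ne_one h1
  obtain ⟨u, v, U, V, hv, hu, hU, hV, hUV⟩ := hx
  have lU : Igusa.HasLExp U u := by
    have := hU.lexp
    rwa [coeffMap_id] at this
  have lV : Igusa.HasLExp V v := by
    have := hV.lexp
    rwa [coeffMap_id] at this
  have lf : Igusa.HasLExp f (phi f) := Dlog.lexp_form (f := f)
  have l1 := ((lV.mul lU.D).sub (lU.mul lV.D)).pow 2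
  have l2 := (lf.pow 2).mul ((((lU.pow 3).mul lV).smul 4).sub
    (((lU.mul (lV.pow 3))).smul L.g₂) |>.sub ((lV.pow 4).smul L.g₃))
  have hC4 : (HahnSeries.C (4 : ℂ) : LaurentSeries ℂ) = 4 := map_ofNat HahnSeries.C 4
  have e1 : (v * Igusa.theta u - u * Igusa.theta v) ^ 2 =
      phi f ^ 2 * (HahnSeries.C 4 * (u ^ 3 * v) - HahnSeries.C L.g₂ * (u * v ^ 3) -
        HahnSeries.C L.g₃ * v ^ 4) := by
    refine l1.unique (l2.congr fun τ => ?_)
    rw [ode_functions hf hU.mdiff hV.mdiff hUV τ]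
    ring
  have hode : ODE f L.g₂ L.g₃ x := by
    have e2 : v * Igusa.theta u - u * Igusa.theta v = v ^ 2 * Igusa.theta x := by
      rw [← hu, Igusa.theta_mul]
      ring
    rw [e2, ← hu, hC4] at e1
    have e3 : v ^ 4 * (Igusa.theta x ^ 2) =
        v ^ 4 * ((4 * x ^ 3 - HahnSeries.C L.g₂ * x - HahnSeries.C L.g₃) * phi f ^ 2) := by
      linear_combination e1
    exact mul_left_cancel₀ (pow_ne_zero 4 hv) e3
  refine ⟨hode, ?_⟩
  -- the pole
  have hpole : ¬ ∀ k < (0 : ℤ), x.coeff k = 0 := by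
    intro h0
    have lx : Lo 0 (x.coeff 0) x := ⟨rfl, h0⟩
    have lv : Lo v.order (v.coeff v.order) v :=
      ⟨rfl, fun k hk => HahnSeries.coeff_eq_zero_of_lt_order hk⟩
    have hcv : v.coeff v.order ≠ 0 := fun h => hv (HahnSeries.coeff_order_eq_zero.mp h)
    have lu := lx.mul lv
    rw [zero_add, hu] at lu
    have t1 := tendsto_of_lexp (F := U) (G := u) lU lu.2
    have t2 := tendsto_of_lexp (F := V) (G := v) lV lv.2
    rw [lu.1] at t1
    have t3 := t1.div t2 hcv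
    rw [mul_div_cancel_right₀ _ hcv] at t3
    have t4 : ∀ᶠ τ : ℍ in atImInfty, 𝕢 1 (τ : ℂ) ^ (-v.order) * V τ ≠ 0 :=
      t2.eventually_ne hcv
    set F : Filter ℍ := atImInfty ⊓ 𝓟 {τ : ℍ | Ei f τ ∉ (L.lattice : Set ℂ)} with hF
    have hne : F.NeBot := by
      rw [hF, Filter.inf_principal_neBot_iff]
      intro W hW
      obtain ⟨A, hA⟩ := (atImInfty_mem W).mp hW
      have hWo : IsOpen {τ : ℍ | A < τ.im} :=
        isOpen_lt continuous_const UpperHalfPlane.continuous_im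
      have hWn : {τ : ℍ | A < τ.im}.Nonempty := by
        refine ⟨⟨(max A 0 + 1 : ℝ) * Complex.I, ?_⟩, ?_⟩
        · have : 0 < max A 0 + 1 := by positivity
          simpa using this
        · have : A < max A 0 + 1 := lt_of_le_of_lt (le_max_left A 0) (lt_add_one _)
          simpa using this
      obtain ⟨τ, h1, h2⟩ := (dense_Ei hf (Moduli.countable_lattice L)).inter_open_nonempty _ hWo hWn
      exact ⟨τ, hA τ (le_of_lt h1), h2⟩
    have s1 : Tendsto (fun τ : ℍ => ‖℘[L] (Ei f τ)‖) F atTop := by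
      refine (Moduli.tendsto_P_zero L).comp ?_
      refine tendsto_nhdsWithin_of_tendsto_nhds_of_eventually_within _
        ((tendsto_Ei f).mono_left inf_le_left) ?_
      have : ∀ᶠ τ : ℍ in F, Ei f τ ∉ (L.lattice : Set ℂ) :=
        Filter.mem_inf_of_right (Filter.mem_principal_self _)
      filter_upwards [this] with τ hτ h
      apply hτ
      rw [Set.mem_singleton_iff.mp h]
      exact L.lattice.zero_mem
    have s2 : Tendsto (fun τ : ℍ => ‖℘[L] (Ei f τ)‖) F (𝓝 ‖x.coeff 0‖) := by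
      refine (t3.norm.mono_left (inf_le_left : F ≤ atImInfty)).congr' ?_
      have : ∀ᶠ τ : ℍ in F, Ei f τ ∉ (L.lattice : Set ℂ) :=
        Filter.mem_inf_of_right (Filter.mem_principal_self _)
      filter_upwards [this, t4.filter_mono inf_le_left] with τ hτ h2
      have hq := qParam_ne 1 (τ : ℂ)
      have hV2 : V τ ≠ 0 := fun h => h2 (by rw [h, mul_zero])
      rw [Pi.div_apply, hUV τ hτ, mul_div_mul_left _ _ (zpow_ne_zero _ hq),
        mul_div_cancel_right₀ _ hV2]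
    exact not_tendsto_nhds_of_tendsto_atTop s1 _ s2
  have hx0 : x ≠ 0 := by
    rintro rfl
    exact hpole fun k _ => rfl
  set n := x.order with hn
  have hc : x.coeff n ≠ 0 := fun h => hx0 (HahnSeries.coeff_order_eq_zero.mp h)
  have lx : Lo n (x.coeff n) x := ⟨rfl, fun k hk => HahnSeries.coeff_eq_zero_of_lt_order hk⟩
  have hn0 : n < 0 := by
    by_contra h
    exact hpole fun k hk => lx.2 k (lt_of_lt_of_le hk (not_lt.mp h))
  have hφ := lo_phi h1
  have e4 : Igusa.theta x * Igusa.theta x =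
      (HahnSeries.C 4 * (x * (x * x)) - HahnSeries.C L.g₂ * x - HahnSeries.C L.g₃) *
        (phi f * phi f) := by
    unfold ODE at hode
    rw [hC4]
    linear_combination hode
  have l3 := lx.theta.mul lx.theta
  have l4 : Lo (n + (n + n)) (4 * (x.coeff n * (x.coeff n * x.coeff n)) - 0 - 0)
      (HahnSeries.C 4 * (x * (x * x)) - HahnSeries.C L.g₂ * x - HahnSeries.C L.g₃) :=
    (((lx.mul (lx.mul lx)).const_mul 4).sub ((lx.const_mul L.g₂).weaken (by omega))).sub
      ((Lo.C L.g₃).weaken (by omega))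
  have l5 := l4.mul (hφ.mul hφ)
  rw [e4] at l3
  have hnn : (n : ℂ) ≠ 0 := by exact_mod_cast hn0.ne
  have hn2 : n = -2 := by
    rcases lt_trichotomy (n + n) (n + (n + n) + (1 + 1)) with h | h | h
    · exfalso
      have := l3.1.symm.trans (l5.2 _ h)
      exact mul_ne_zero (mul_ne_zero hnn hc) (mul_ne_zero hnn hc) this
    · omega
    · exfalso
      have := l5.1.symm.trans (l3.2 _ h)
      rw [sub_zero, sub_zero, mul_one, mul_one] at this
      exact mul_ne_zero (by norm_num : (4 : ℂ) ≠ 0) (mul_ne_zero hc (mul_ne_zero hc hc)) this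
  have h6 := l3.1
  have h7 : ((HahnSeries.C 4 * (x * (x * x)) - HahnSeries.C L.g₂ * x - HahnSeries.C L.g₃) *
        (phi f * phi f)).coeff (n + n) = 4 * (x.coeff n * (x.coeff n * x.coeff n)) := by
    have h8 := l5.1
    have h9 : n + n = n + (n + n) + (1 + 1) := by omega
    rw [h9, h8]
    ring
  rw [h7] at h6
  have h10 : x.coeff n ^ 2 * (x.coeff n - 1) = 0 := by
    rw [hn2] at h6 ⊢
    push_cast at h6
    linear_combination h6 / 4
  have h11 : x.coeff n = 1 := by
    have := (mul_eq_zero.mp h10).resolve_left (pow_ne_zero 2 hc)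
    linear_combination this
  refine ⟨?_, fun k hk => ?_⟩
  · rw [← hn2]
    exact h11
  · exact lx.2 k (by rw [hn2]; exact hk)

end Fermat.Agent.Cor.ES
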