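import Fermat.Agent.Corollaries.ES.Mod
import Fermat.Agent.Corollaries.ES.Exp
import Fermat.Agent.Corollaries.ES.Defs2

/-!
# `℘'(∫ f)` is a modular function with expansion `θ x / φ`
-/

set_option autoImplicit false

open UpperHalfPlane CongruenceSubgroup ModularFormClass Filter Topology Function
open scoped MatrixGroups Manifold ModularForm PeriodPair

noncomputable section

namespace Fermat.Agent.Cor.ES

open Fermat.Agent.ModFun Fermat.Agent.X0Emb Fermat.Agent.Cor.HW.Per ModularCurve

local notation "DD" => Derivative.normalizedDerivOfComplex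

variable {N : ℕ} [NeZero N]

omit [NeZero N] in
theorem phi_ne_zero {f : CuspForm (Gamma0 N) 2} (hf : f ≠ 0) : phi f ≠ 0 := by
  intro h0
  have lf : Igusa.HasLExp f (phi f) := Dlog.lexp_form (f := f)
  rw [h0] at lf
  apply hf
  have h1 := LExp.funext (h := 1) lf (LExp.zero 1)
  ext τ
  exact congrFun h1 τ

/-- **(S0)** -/
theorem modStmt' (N : ℕ) [NeZero N] : ModStmt' N := by
  intro f L x hf hx
  have hL := periodStmt f L x hf hx
  obtain ⟨u, v, U, V, hv, hu, hU, hV, hUV⟩ := hx
  have hper : ∀ (γ : Additive (Gamma0 N)) (z : ℂ), ℘'[L] (z + om f γ) = ℘'[L] z := fun γ z =>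
    L.derivWeierstrassP_add_coe z ⟨om f γ, hL γ⟩
  obtain ⟨u', v', U', V', hv', hU', hV', h⟩ := Mero.exists_rep
    (isMero_comp (fun z => L.meromorphic_derivWeierstrassP z) hper)
  have h' : ∀ τ : ℍ, Ei f τ ∉ L.lattice → U' τ = ℘'[L] (Ei f τ) * V' τ := by
    intro τ hτ
    refine h τ (AnalyticAt.comp_of_eq (f := Ei f ∘ ofComplex) (g := ℘'[L])
      (L.analyticOnNhd_derivWeierstrassP (Ei f τ) hτ)
      (Mero.analyticAt_of_mdiff (mdiff_Ei f) τ) ?_)
    simp
  refine ⟨u', v', U', V', hv', ?_, hU', hV', h'⟩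
  have lU : Igusa.HasLExp U u := by
    have := hU.lexp
    rwa [coeffMap_id] at this
  have lV : Igusa.HasLExp V v := by
    have := hV.lexp
    rwa [coeffMap_id] at this
  have lU' : Igusa.HasLExp U' u' := by
    have := hU'.lexp
    rwa [coeffMap_id] at this
  have lV' : Igusa.HasLExp V' v' := by
    have := hV'.lexp
    rwa [coeffMap_id] at this
  have lf : Igusa.HasLExp f (phi f) := Dlog.lexp_form (f := f)
  have l1 := (lU'.mul lf).mul (lV.pow 2)
  have l2 := lV'.mul ((lV.mul lU.D).sub (lU.mul lV.D))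
  have hfun : ∀ τ : ℍ, U' τ * f τ * V τ ^ 2 = V' τ * (V τ * DD U τ - U τ * DD V τ) := by
    have hD := dense_Ei hf (Moduli.countable_lattice L)
    have hDU := (Derivative.normalizedDerivOfComplex_mdifferentiable hU.mdiff).continuous
    have hDV := (Derivative.normalizedDerivOfComplex_mdifferentiable hV.mdiff).continuous
    have hUc := hU.mdiff.continuous
    have hVc := hV.mdiff.continuous
    have hUc' := hU'.mdiff.continuous
    have hVc' := hV'.mdiff.continuous
    have hfc : Continuous (f : ℍ → ℂ) := f.holo'.continuous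
    have h1 : Set.EqOn (fun τ => U' τ * f τ * V τ ^ 2)
        (fun τ => V' τ * (V τ * DD U τ - U τ * DD V τ))
        {τ : ℍ | Ei f τ ∉ (L.lattice : Set ℂ)} := by
      intro τ hτ
      have h2 := wronskian hU.mdiff hV.mdiff hUV hτ
      have h3 := h' τ hτ
      simp only
      rw [h2, h3]
      ring
    exact fun τ => congrFun (Continuous.ext_on hD (by fun_prop) (by fun_prop) h1) τ
  have e1 : u' * phi f * v ^ 2 = v' * (v * Igusa.theta u - u * Igusa.theta v) := by
    refine l1.unique (l2.congr fun τ => ?_)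
    exact (hfun τ).symm
  have e2 : v * Igusa.theta u - u * Igusa.theta v = v ^ 2 * Igusa.theta x := by
    rw [← hu, Igusa.theta_mul]
    ring
  have hφ := phi_ne_zero hf
  rw [e2] at e1
  rw [div_mul_eq_mul_div, div_eq_iff hφ]
  apply mul_left_cancel₀ (pow_ne_zero 2 hv)
  linear_combination -e1

end Fermat.Agent.Cor.ES
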