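import Fermat.Agent.Corollaries.ES.Defs

/-!
# The periods of an eigenform with integral eigenvalues form a lattice

`om f = Ω₁ φ₁ + i Ω₂ φ₂` with `φ₁, φ₂` onto `ℤ`, and the set of the values is stable under complex
conjugation; so it is `ℤ Ω₁ + ℤ i Ω₂` or `ℤ (Ω₁ + i Ω₂) + ℤ 2 i Ω₂`.
-/

set_option autoImplicit false

open UpperHalfPlane CongruenceSubgroup ModularFormClass
open scoped MatrixGroups Manifold ModularForm PeriodPair ComplexConjugate

noncomputable section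

namespace Fermat.Agent.Cor.ES

open Fermat.Agent.ModFun Fermat.Agent.X0Emb Fermat.Agent.Cor.HW.Per ModularCurve ModularCurve.Period
  Fermat.Agent.HeckePar

/-- two complex numbers with independent coordinates -/
theorem indep_pair {a b c d : ℝ} (h : a * d - b * c ≠ 0) :
    LinearIndependent ℝ ![((a : ℂ) + b * Complex.I), ((c : ℂ) + d * Complex.I)] := by
  rw [LinearIndependent.pair_iff]
  intro s t hst
  have h1 := congrArg Complex.re hst
  have h2 := congrArg Complex.im hst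
  simp at h1 h2
  constructor
  · have h3 : s * (a * d - b * c) = 0 := by linear_combination d * h1 - c * h2
    exact (mul_eq_zero.mp h3).resolve_right h
  · have h3 : t * (a * d - b * c) = 0 := by linear_combination a * h2 - b * h1
    exact (mul_eq_zero.mp h3).resolve_right h

/-- the algebra: a group of values with both coordinates onto `ℤ` and stable under conjugation -/
theorem exists_pair {G : Type*} [AddGroup G] (ω : G →+ ℂ) {Ω₁ Ω₂ : ℝ} (h₁ : 0 < Ω₁) (h₂ : 0 < Ω₂)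
    {φ₁ φ₂ : G →+ ℤ} (s₁ : Function.Surjective φ₁) (s₂ : Function.Surjective φ₂)
    (hω : ∀ g, ω g = (Ω₁ * φ₁ g : ℝ) + (Ω₂ * φ₂ g : ℝ) * Complex.I)
    (hconj : ∀ g, ∃ g', φ₁ g' = φ₁ g ∧ φ₂ g' = -φ₂ g) :
    ∃ L : PeriodPair, ∀ z, z ∈ L.lattice ↔ ∃ g, ω g = z := by
  -- multiples of two
  have hA : ∃ g, φ₁ g = 2 ∧ φ₂ g = 0 := by
    obtain ⟨g, hg⟩ := s₁ 1
    obtain ⟨g', hg', hg''⟩ := hconj g
    refine ⟨g + g', ?_, ?_⟩
    · rw [map_add, hg', hg]; norm_num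
    · rw [map_add, hg'', add_neg_cancel]
  have hB : ∃ g, φ₁ g = 0 ∧ φ₂ g = 2 := by
    obtain ⟨g, hg⟩ := s₂ 1
    obtain ⟨g', hg', hg''⟩ := hconj g
    refine ⟨g - g', ?_, ?_⟩
    · rw [map_sub, hg', sub_self]
    · rw [map_sub, hg'', hg]; norm_num
  obtain ⟨u, hu₁, hu₂⟩ := hA
  obtain ⟨v, hv₁, hv₂⟩ := hB
  by_cases hc : ∃ g, φ₁ g = 1 ∧ φ₂ g = 0
  · obtain ⟨p, hp₁, hp₂⟩ := hc
    obtain ⟨r, hr⟩ := s₂ 1
    refine ⟨⟨(Ω₁ : ℂ) + (0 : ℝ) * Complex.I, ((0 : ℝ) : ℂ) + Ω₂ * Complex.I,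
      indep_pair (by simp [h₁.ne', h₂.ne'])⟩, fun z => ?_⟩
    rw [PeriodPair.mem_lattice]
    constructor
    · rintro ⟨m, n, rfl⟩
      refine ⟨(m - n * φ₁ r) • p + n • r, ?_⟩
      rw [hω, map_add, map_add, map_zsmul, map_zsmul, map_zsmul, map_zsmul, hp₁, hp₂, hr]
      simp
      ring
    · rintro ⟨g, rfl⟩
      refine ⟨φ₁ g, φ₂ g, ?_⟩
      rw [hω]
      simp
      ring
  · -- the diagonal
    have hodd : ∃ g, φ₁ g = 1 ∧ φ₂ g = 1 := by
      obtain ⟨g, hg⟩ := s₁ 1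
      rcases Int.even_or_odd' (φ₂ g) with ⟨c, hcc | hcc⟩
      · exact absurd ⟨g - c • v, by rw [map_sub, map_zsmul, hv₁, hg]; simp, by
          rw [map_sub, map_zsmul, hv₂, hcc, smul_eq_mul]; ring⟩ hc
      · exact ⟨g - c • v, by rw [map_sub, map_zsmul, hv₁, hg]; simp, by
          rw [map_sub, map_zsmul, hv₂, hcc, smul_eq_mul]; ring⟩
    obtain ⟨p, hp₁, hp₂⟩ := hodd
    have hpar : ∀ g, ∃ c : ℤ, φ₂ g = φ₁ g + 2 * c := by
      intro g
      rcases Int.even_or_odd' (φ₁ g - φ₂ g) with ⟨c, hcc | hcc⟩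
      · exact ⟨-c, by linarith⟩
      · refine absurd ⟨g - φ₂ g • p - c • u, ?_, ?_⟩ hc
        · rw [map_sub, map_sub, map_zsmul, map_zsmul, hp₁, hu₁, smul_eq_mul, smul_eq_mul]
          linarith
        · rw [map_sub, map_sub, map_zsmul, map_zsmul, hp₂, hu₂, smul_eq_mul, smul_eq_mul]
          ring
    refine ⟨⟨(Ω₁ : ℂ) + Ω₂ * Complex.I, ((0 : ℝ) : ℂ) + (2 * Ω₂ : ℝ) * Complex.I,
      indep_pair (by simp [h₁.ne', h₂.ne'])⟩, fun z => ?_⟩
    rw [PeriodPair.mem_lattice]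
    constructor
    · rintro ⟨m, n, rfl⟩
      refine ⟨m • p + n • v, ?_⟩
      rw [hω, map_add, map_add, map_zsmul, map_zsmul, map_zsmul, map_zsmul, hp₁, hp₂, hv₁, hv₂]
      simp
      ring
    · rintro ⟨g, rfl⟩
      obtain ⟨c, hcc⟩ := hpar g
      refine ⟨φ₁ g, c, ?_⟩
      rw [hω, hcc]
      push_cast
      ring

/-- (P1) -/
theorem latStmt (N : ℕ) [NeZero N] : LatStmt N := by
  intro f hf ha
  have hr := exists_int_qCoeff hf ha
  obtain ⟨Ω₁, Ω₂, h₁, h₂, φ₁, φ₂, s₁, s₂, hre, him⟩ := exists_periods hf ha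
  refine exists_pair (om f) h₁ h₂ s₁ s₂ (fun g => ?_) fun g => ?_
  · apply Complex.ext
    · rw [hre]
      simp
    · rw [him]
      simp
  · obtain ⟨γ, rfl⟩ := Additive.ofMul.surjective g
    have h := om_conj hr γ
    refine ⟨Additive.ofMul (jConjGamma0 N γ), ?_, ?_⟩
    · have h3 := congrArg Complex.re h
      rw [Complex.conj_re, hre, hre] at h3
      exact_mod_cast mul_left_cancel₀ h₁.ne' h3
    · have h3 := congrArg Complex.im h
      rw [Complex.conj_im, him, him, ← mul_neg] at h3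
      exact_mod_cast mul_left_cancel₀ h₂.ne' h3

end Fermat.Agent.Cor.ES

end
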