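import Fermat.Agent.Corollaries.ES.Mero
import Fermat.Agent.Corollaries.ES.Basic

/-!
# Elliptic functions of `∫ f` are modular functions

If all periods of the cusp form `f` of weight two lie in the lattice `L` and `g` is a meromorphic
function with period lattice `L`, then `g(∫ f)` is a meromorphic modular function for `Γ₀(N)`;
in particular `℘_L(∫ f)` is one.
-/

set_option autoImplicit false

open UpperHalfPlane CongruenceSubgroup ModularFormClass Filter Topology Function Asymptotics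
open scoped MatrixGroups Manifold ModularForm PeriodPair

noncomputable section

namespace Fermat.Agent.Cor.ES

open Fermat.Agent.ModFun Fermat.Agent.X0Emb Fermat.Agent.Cor.HW.Per ModularCurve
open Fermat.Agent.S21per Fermat.Agent.HeckePar

local notation "𝕢" => Function.Periodic.qParam

variable {N : ℕ} [NeZero N] (f : CuspForm (Gamma0 N) 2)

theorem qParam_add {h : ℝ} (hh : h ≠ 0) (z : ℂ) : 𝕢 h (z + h) = 𝕢 h z := by
  have h1 : (2 : ℂ) * Real.pi * Complex.I * h / h = 2 * Real.pi * Complex.I := by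
    have : (h : ℂ) ≠ 0 := by exact_mod_cast hh
    field_simp
  rw [Function.Periodic.qParam, Function.Periodic.qParam, mul_add, add_div, Complex.exp_add, h1,
    Complex.exp_two_pi_mul_I, mul_one]

/-- the expansion of `Ei f` at a cusp -/
theorem exists_cusp (σ : SL(2, ℤ)) : ∃ (h : ℝ) (φ : ℂ → ℂ), 0 < h ∧ AnalyticAt ℂ φ 0 ∧
    ∀ τ : ℍ, Ei f (σ • τ) = φ (𝕢 h τ) := by
  have hh := GenES.perN_pos (Gamma0 N)
  obtain ⟨G, hG, hG0, hGq⟩ := exists_prim_of_periodic hh (GenES.cusp_slash_periodic f σ)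
    (GenES.cusp_slash_mdiff f σ) (GenES.cusp_slash_zero f σ)
  have h := ((GenES.prm_spec f).prim.smul σ).sub_eq_sub hG
  have hper : Periodic (G ∘ ofComplex) (GenES.perN (Gamma0 N) : ℝ) := by
    refine periodic_comp_ofComplex_of_vadd fun τ => hGq _ _ ?_
    have h1 : (((GenES.perN (Gamma0 N) : ℝ) +ᵥ τ : ℍ) : ℂ) =
        (τ : ℂ) + (GenES.perN (Gamma0 N) : ℝ) := by
      rw [UpperHalfPlane.coe_vadd, add_comm]
    rw [h1]
    exact qParam_add hh.ne' _
  have hbd : IsBoundedAtImInfty G := (show IsZeroAtImInfty G from hG0).isBoundedAtImInfty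
  have hanal := UpperHalfPlane.analyticAt_cuspFunction_zero hh hper hG.mdifferentiable hbd
  refine ⟨_, fun q => 2 * Real.pi * Complex.I * (cuspFunction (GenES.perN (Gamma0 N)) G q +
    (GenES.prm f (σ • UpperHalfPlane.I) - G UpperHalfPlane.I)), hh,
    analyticAt_const.mul (hanal.add analyticAt_const), fun τ => ?_⟩
  beta_reduce
  rw [UpperHalfPlane.eq_cuspFunction τ hh.ne' hper, Ei]
  congr 1
  linear_combination h τ UpperHalfPlane.I

variable {f}

theorem norm_qParam_pow {h : ℝ} (τ : ℍ) (n : ℕ) :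
    ‖𝕢 h (τ : ℂ) ^ n‖ = Real.exp (-(2 * Real.pi * n / h) * τ.im) := by
  rw [norm_pow, Function.Periodic.norm_qParam, ← Real.exp_nat_mul]
  congr 1
  rw [UpperHalfPlane.coe_im]
  ring

theorem exists_cusp_comp {g : ℂ → ℂ} (hg : ∀ z, MeromorphicAt g z) (σ : SL(2, ℤ)) :
    ∃ (h : ℝ) (Φ : ℂ → ℂ), 0 < h ∧ MeromorphicAt Φ 0 ∧
      ∀ τ : ℍ, g (Ei f (σ • τ)) = Φ (𝕢 h τ) := by
  obtain ⟨h, φ, hh, hφ, he⟩ := exists_cusp f σ
  exact ⟨h, g ∘ φ, hh, (hg _).comp_analyticAt hφ, fun τ => by rw [he]; rfl⟩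

theorem mero_comp {g : ℂ → ℂ} (hg : ∀ z, MeromorphicAt g z) (τ : ℍ) :
    MeromorphicAt ((fun τ => g (Ei f τ)) ∘ ofComplex) (τ : ℂ) :=
  MeromorphicAt.comp_analyticAt (f := g) (g := Ei f ∘ ofComplex) (hg _)
    (Mero.analyticAt_of_mdiff (mdiff_Ei f) τ)

/-- `g(∫ f)` is holomorphic near the cusps. -/
theorem cusp_comp {g : ℂ → ℂ} (hg : ∀ z, MeromorphicAt g z) (σ : SL(2, ℤ)) :
    ∃ T : ℝ, ∀ τ : ℍ, T < τ.im → Mero.An (fun τ => g (Ei f τ)) (σ • τ) := by
  obtain ⟨h, Φ, hh, hΦ, he⟩ := exists_cusp_comp (f := f) hg σ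
  have h1 : ∀ᶠ τ : ℍ in atImInfty, AnalyticAt ℂ Φ (𝕢 h τ) := by
    have h2 : Tendsto (fun τ : ℍ => 𝕢 h (τ : ℂ)) atImInfty (𝓝[≠] 0) :=
      tendsto_nhdsWithin_iff.mpr ⟨qParam_tendsto_atImInfty hh,
        Eventually.of_forall fun τ => Function.Periodic.qParam_ne_zero _⟩
    exact h2.eventually hΦ.eventually_analyticAt
  rw [atImInfty, eventually_comap] at h1
  obtain ⟨T, hT⟩ := (eventually_atTop.mp h1)
  refine ⟨T, fun τ hτ => Mero.An.of_comp_smul ?_⟩
  have h3 : AnalyticAt ℂ Φ (𝕢 h τ) := hT _ hτ.le τ rfl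
  have h4 : AnalyticAt ℂ (𝕢 h) (τ : ℂ) := by
    unfold Function.Periodic.qParam
    fun_prop
  refine (h3.comp_of_eq h4 rfl).congr ?_
  filter_upwards [isOpen_upperHalfPlaneSet.mem_nhds τ.im_pos] with z hz
  simp only [comp_apply]
  rw [he]
  simp [ofComplex_apply_of_im_pos hz]

/-- `g(∫ f)` is of moderate growth. -/
theorem growth_comp {g : ℂ → ℂ} (hg : ∀ z, MeromorphicAt g z) :
    ModGrowth (fun τ => g (Ei f τ)) := by
  intro σ
  obtain ⟨h, Φ, hh, hΦ, he⟩ := exists_cusp_comp (f := f) hg σ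
  obtain ⟨n, hn⟩ := hΦ
  obtain ⟨m, hm⟩ := exists_nat_ge (2 * Real.pi * n / h)
  refine ⟨m, ?_⟩
  have hc : ∃ C : ℝ, ∀ᶠ q in 𝓝 (0 : ℂ), ‖(q - 0) ^ n • Φ q‖ ≤ C := by
    refine ⟨‖((0 : ℂ) - 0) ^ n • Φ 0‖ + 1, ?_⟩
    have h1 := hn.continuousAt.norm.eventually (gt_mem_nhds (lt_add_one _))
    exact h1.mono fun w hw => hw.le
  obtain ⟨C, hC⟩ := hc
  refine IsBigO.of_bound C ?_
  have h2 := (qParam_tendsto_atImInfty hh).eventually hC
  filter_upwards [h2] with τ hτ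
  rw [he]
  rw [sub_zero, norm_smul, norm_qParam_pow] at hτ
  rw [Real.norm_of_nonneg (Real.exp_pos _).le]
  have h3 : ‖Φ (𝕢 h τ)‖ ≤ C * Real.exp ((2 * Real.pi * n / h) * τ.im) := by
    rw [neg_mul, Real.exp_neg, inv_mul_le_iff₀ (Real.exp_pos _)] at hτ
    linarith
  refine h3.trans (mul_le_mul_of_nonneg_left ?_ ?_)
  · exact Real.exp_le_exp.mpr (mul_le_mul_of_nonneg_right hm τ.im_pos.le)
  · exact (mul_nonneg (Real.exp_pos _).le (norm_nonneg _)).trans hτ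

/-- **Elliptic functions of `∫ f` are meromorphic modular functions.** -/
theorem isMero_comp {g : ℂ → ℂ} (hg : ∀ z, MeromorphicAt g z)
    (hper : ∀ (γ : Additive (Gamma0 N)) (z : ℂ), g (z + om f γ) = g z) :
    Mero.IsMero N (fun τ => g (Ei f τ)) := by
  refine ⟨mero_comp hg, fun γ hγ τ => ?_, cusp_comp hg, growth_comp hg⟩
  have h1 := Ei_smul f ⟨γ, hγ⟩ τ
  change g (Ei f (γ • τ)) = _
  rw [h1]
  exact hper _ _

/-- **`℘_L(∫ f)` is a modular function.** -/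
theorem modStmt (N : ℕ) [NeZero N] : ModStmt N := by
  intro f L _ hL
  have hper : ∀ (γ : Additive (Gamma0 N)) (z : ℂ), ℘[L] (z + om f γ) = ℘[L] z := fun γ z =>
    L.weierstrassP_add_coe z ⟨om f γ, hL γ⟩
  obtain ⟨u, v, U, V, hv, hU, hV, h⟩ := Mero.exists_rep
    (isMero_comp (fun z => L.meromorphic_weierstrassP z) hper)
  refine ⟨u / v, u, v, U, V, hv, div_mul_cancel₀ _ hv, hU, hV, fun τ hτ => h τ ?_⟩
  refine AnalyticAt.comp_of_eq (f := Ei f ∘ ofComplex) (g := ℘[L])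
    (L.analyticOnNhd_weierstrassP (Ei f τ) hτ) (Mero.analyticAt_of_mdiff (mdiff_Ei f) τ) ?_
  simp

end Fermat.Agent.Cor.ES
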