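import Fermat.Agent.Corollaries.ES.Root

/-!
# Eichler–Shimura, (P6): `℘` of a larger lattice is a rational function of `℘`

An even elliptic function without poles outside the lattice is a polynomial in `℘` (`even_poly`).
-/

set_option autoImplicit false

open Filter Topology Complex
open scoped PeriodPair

noncomputable section

namespace Fermat.Agent.Cor.ES

namespace SubF

open RootF

variable (L : PeriodPair)

/-- `1 + z² (℘(z) - z⁻²)` -/
def U (z : ℂ) : ℂ := 1 + z ^ 2 * ℘[L - (0 : ℂ)] z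

theorem analyticAt_U : AnalyticAt ℂ (U L) 0 :=
  analyticAt_const.add ((analyticAt_id.pow 2).mul (L.analyticAt_weierstrassPExcept 0))

theorem U_zero : U L 0 = 1 := by simp [U]

theorem P_eq {z : ℂ} (hz : z ≠ 0) : ℘[L] z = U L z / z ^ 2 := by
  rw [Moduli.weierstrassP_eq, U]
  field_simp

/-- a polynomial in `℘` near `0` -/
theorem poly_at_zero (p : Polynomial ℂ) {d : ℕ} (hd : p.natDegree ≤ d) :
    ∃ A : ℂ → ℂ, AnalyticAt ℂ A 0 ∧ ∀ z, z ≠ 0 → p.eval (℘[L] z) = A z / z ^ (2 * d) := by
  refine ⟨fun z => ∑ i ∈ Finset.range (d + 1), p.coeff i * (U L z ^ i * z ^ (2 * (d - i))),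
    ?_, ?_⟩
  · refine Finset.analyticAt_fun_sum _ fun i _ => ?_
    exact analyticAt_const.mul (((analyticAt_U L).pow i).mul (analyticAt_id.pow _))
  · intro z hz
    rw [Polynomial.eval_eq_sum_range' (Nat.lt_succ_of_le hd), Finset.sum_div]
    refine Finset.sum_congr rfl fun i hi => ?_
    have hi' : i ≤ d := Nat.lt_succ_iff.mp (Finset.mem_range.mp hi)
    rw [P_eq L hz, div_pow, ← pow_mul]
    have h1 : z ^ (2 * d) = z ^ (2 * i) * z ^ (2 * (d - i)) := by
      rw [← pow_add]
      congr 1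
      omega
    rw [h1]
    have h2 : z ^ (2 * i) ≠ 0 := pow_ne_zero _ hz
    have h3 : z ^ (2 * (d - i)) ≠ 0 := pow_ne_zero _ hz
    field_simp

theorem order_nonneg_sub {f g : ℂ → ℂ} {z : ℂ} (hf : MeromorphicAt f z) (hg : MeromorphicAt g z)
    (h1 : 0 ≤ meromorphicOrderAt f z) (h2 : 0 ≤ meromorphicOrderAt g z) :
    0 ≤ meromorphicOrderAt (f - g) z := by
  rw [sub_eq_add_neg]
  refine le_trans (le_min h1 ?_) (meromorphicOrderAt_add hf hg.neg)
  rwa [← meromorphicOrderAt_neg]

/-- even elliptic functions with poles in `L` only are polynomials in `℘` -/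
theorem even_poly : ∀ (m : ℕ) (G : ℂ → ℂ), (∀ z, MeromorphicAt G z) →
    (∀ z, z ∉ L.lattice → 0 ≤ meromorphicOrderAt G z) →
    (∀ l ∈ L.lattice, ∀ z, G (z + l) = G z) → (∀ z, G (-z) = G z) →
    (∃ A : ℂ → ℂ, AnalyticAt ℂ A 0 ∧ ∀ᶠ z in 𝓝[≠] (0 : ℂ), G z = A z / z ^ (2 * m)) →
    ∃ P : Polynomial ℂ, ∀ z₀, G =ᶠ[𝓝[≠] z₀] fun z => P.eval (℘[L] z) := by
  intro m
  induction m with
  | zero =>
    intro G hm h0 hper _ hA
    obtain ⟨A, hA, hGA⟩ := hA
    have hord : ∀ z, 0 ≤ meromorphicOrderAt G z := by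
      intro z
      by_cases hz : z ∈ L.lattice
      · have h1 : G ∘ (fun w => w + (-z)) = G := by
          funext w
          exact hper _ (neg_mem hz) w
        rw [← h1, meromorphicOrderAt_comp_add_const_eq_meromorphicOrderAt, add_neg_cancel]
        have h2 : G =ᶠ[𝓝[≠] (0 : ℂ)] A := by
          filter_upwards [hGA] with w hw
          rw [hw, mul_zero, pow_zero, div_one]
        rw [meromorphicOrderAt_congr h2]
        exact hA.meromorphicOrderAt_nonneg
      · exact h0 z hz
    obtain ⟨k, hk⟩ := ell_const (L := L) hm hord hper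
    refine ⟨Polynomial.C k, fun z₀ => ?_⟩
    simp only [Polynomial.eval_C]
    exact hk z₀
  | succ m ih =>
    intro G hm h0 hper heven hA
    obtain ⟨A, hA, hGA⟩ := hA
    set c : ℂ := A 0 with hc
    set G' : ℂ → ℂ := G - fun z => c * ℘[L] z ^ (m + 1) with hG'
    have hPm : ∀ z, MeromorphicAt (fun z => c * ℘[L] z ^ (m + 1)) z := fun z =>
      (MeromorphicAt.const c z).mul ((L.meromorphic_weierstrassP z).pow (m + 1))
    -- the expansion of `G'` at `0`
    set D : ℂ → ℂ := fun z => A z - c * U L z ^ (m + 1) with hD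
    have hDan : AnalyticAt ℂ D 0 := hA.sub (analyticAt_const.mul ((analyticAt_U L).pow _))
    have hDG : ∀ᶠ z in 𝓝[≠] (0 : ℂ), G' z = D z / z ^ (2 * (m + 1)) := by
      filter_upwards [hGA, self_mem_nhdsWithin] with z hz hz0
      have hz0 : z ≠ 0 := hz0
      rw [hG', Pi.sub_apply, hz, P_eq L hz0, div_pow, ← pow_mul, hD]
      ring
    have hneg : Tendsto (fun z : ℂ => -z) (𝓝[≠] 0) (𝓝[≠] 0) := by
      refine tendsto_nhdsWithin_of_tendsto_nhds_of_eventually_within _ ?_ ?_
      · exact (continuous_neg.tendsto' 0 0 neg_zero).mono_left nhdsWithin_le_nhds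
      · filter_upwards [self_mem_nhdsWithin] with w hw
        simpa using hw
    have hG'even : ∀ z, G' (-z) = G' z := by
      intro z
      rw [hG', Pi.sub_apply, Pi.sub_apply, heven, L.weierstrassP_neg]
    have hDeven : ∀ᶠ z in 𝓝 (0 : ℂ), D (-z) = D z := by
      have h1 : ∀ᶠ z in 𝓝[≠] (0 : ℂ), D (-z) = D z := by
        filter_upwards [hDG, hneg.eventually hDG, self_mem_nhdsWithin] with z h1 h2 hz0
        have hz0 : z ≠ 0 := hz0
        rw [hG'even, h1, (even_two_mul (m + 1)).neg_pow] at h2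
        have h3 : z ^ (2 * (m + 1)) ≠ 0 := pow_ne_zero _ hz0
        field_simp at h2
        exact h2.symm
      rw [eventually_nhdsWithin_iff] at h1
      filter_upwards [h1] with z hz
      by_cases hz0 : z = 0
      · rw [hz0, neg_zero]
      · exact hz hz0
    have hD0 : D 0 = 0 := by
      rw [hD]
      simp only [U_zero, one_pow, mul_one]
      rw [← hc, sub_self]
    obtain ⟨B, hB, hDB⟩ := Moduli.even_analytic hDan hDeven
    have hord : ∀ z, z ∉ L.lattice → 0 ≤ meromorphicOrderAt G' z := by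
      intro z hz
      refine order_nonneg_sub (hm z) (hPm z) (h0 z hz) ?_
      exact (analyticAt_const.mul ((Moduli.analyticAt_P L hz).pow _)).meromorphicOrderAt_nonneg
    have hper' : ∀ l ∈ L.lattice, ∀ z, G' (z + l) = G' z := by
      intro l hl z
      rw [hG', Pi.sub_apply, Pi.sub_apply, hper l hl, L.weierstrassP_add_coe z ⟨l, hl⟩]
    have hexp : ∀ᶠ z in 𝓝[≠] (0 : ℂ), G' z = B z / z ^ (2 * m) := by
      filter_upwards [hDG, hDB.filter_mono nhdsWithin_le_nhds, self_mem_nhdsWithin]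
        with z h1 h2 hz0
      have hz0 : z ≠ 0 := hz0
      rw [h1, h2, hD0, zero_add, show 2 * (m + 1) = 2 * m + 2 by ring, pow_add]
      have h3 : z ^ (2 * m) ≠ 0 := pow_ne_zero _ hz0
      field_simp
    obtain ⟨P, hP⟩ := ih G' (fun z => (hm z).sub (hPm z)) hord hper' hG'even ⟨B, hB, hexp⟩
    refine ⟨P + Polynomial.C c * Polynomial.X ^ (m + 1), fun z₀ => ?_⟩
    filter_upwards [hP z₀] with z hz
    rw [hG', Pi.sub_apply] at hz
    simp only [Polynomial.eval_add, Polynomial.eval_mul, Polynomial.eval_C,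
      Polynomial.eval_pow, Polynomial.eval_X]
    linear_combination hz

end SubF

open RootF SubF

theorem subStmt : SubStmt := by
  classical
  intro L L' hLL'
  -- finitely many classes
  set N : Submodule ℤ L'.lattice := L.lattice.comap L'.lattice.subtype with hN
  have hfin : Finite (L'.lattice ⧸ N) := by
    refine Submodule.finiteQuotientOfFreeOfRankEq N ?_
    rw [(Submodule.comapSubtypeEquivOfLe hLL').finrank_eq, PeriodPair.finrank_lattice,
      PeriodPair.finrank_lattice]
  have hfi := Fintype.ofFinite (L'.lattice ⧸ N)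
  set rep : (L'.lattice ⧸ N) → ℂ := fun c => ((Quotient.out c : L'.lattice) : ℂ) with hrep
  have hrepL' : ∀ c, rep c ∈ L'.lattice := fun c => (Quotient.out c).2
  have hexists : ∀ z ∈ L'.lattice, ∃ c, rep c - z ∈ L.lattice := by
    intro z hz
    refine ⟨Submodule.Quotient.mk ⟨z, hz⟩, ?_⟩
    have h1 : (Submodule.Quotient.mk (Quotient.out
        (Submodule.Quotient.mk ⟨z, hz⟩ : L'.lattice ⧸ N)) : L'.lattice ⧸ N) =
        Submodule.Quotient.mk ⟨z, hz⟩ := Quotient.out_eq _
    have h2 := (Submodule.Quotient.eq N).mp h1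
    exact h2
  set B : Polynomial ℂ := ∏ c ∈ Finset.univ.filter (fun c => rep c ∉ L.lattice),
    (Polynomial.X - Polynomial.C (℘[L] (rep c))) ^ 2 with hB
  have hB0 : B ≠ 0 := Finset.prod_ne_zero_iff.mpr fun c _ =>
    pow_ne_zero _ (Polynomial.X_sub_C_ne_zero _)
  set G : ℂ → ℂ := (fun z => B.eval (℘[L] z)) * ℘[L'] with hG
  have hGm : ∀ z, MeromorphicAt G z := fun z =>
    (meromorphicAt_poly B (L.meromorphic_weierstrassP z)).mul (L'.meromorphic_weierstrassP z)
  have hG0 : ∀ z, z ∉ L.lattice → 0 ≤ meromorphicOrderAt G z := by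
    intro z hz
    by_cases hz' : z ∈ L'.lattice
    · obtain ⟨c, hc⟩ := hexists z hz'
      have hcL : rep c ∉ L.lattice := by
        intro h1
        have h2 := sub_mem h1 hc
        rw [sub_sub_cancel] at h2
        exact hz h2
      have hval : ℘[L] (rep c) = ℘[L] z := by
        have := L.weierstrassP_add_coe z ⟨_, hc⟩
        simpa using this
      obtain ⟨Q, hQ⟩ : (Polynomial.X - Polynomial.C (℘[L] z)) ^ 2 ∣ B := by
        rw [← hval, hB]
        exact Finset.dvd_prod_of_mem _ (Finset.mem_filter.mpr ⟨Finset.mem_univ c, hcL⟩)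
      have h1 : G = (fun w => ℘[L] w - ℘[L] z) ^ 2 * (fun w => Q.eval (℘[L] w)) * ℘[L'] := by
        funext w
        rw [hG]
        simp only [Pi.mul_apply, Pi.pow_apply]
        rw [hQ, Polynomial.eval_mul, Polynomial.eval_pow, Polynomial.eval_sub,
          Polynomial.eval_X, Polynomial.eval_C]
      have hPan : AnalyticAt ℂ (fun w => ℘[L] w - ℘[L] z) z :=
        (Moduli.analyticAt_P L hz).sub analyticAt_const
      have hQan : AnalyticAt ℂ (fun w => Q.eval (℘[L] w)) z :=
        analyticAt_poly Q (Moduli.analyticAt_P L hz)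
      rw [h1, meromorphicOrderAt_mul ((hPan.pow 2).mul hQan).meromorphicAt
        (L'.meromorphic_weierstrassP z), meromorphicOrderAt_mul (hPan.pow 2).meromorphicAt
        hQan.meromorphicAt, meromorphicOrderAt_pow hPan.meromorphicAt,
        L'.order_weierstrassP z hz']
      have h2 : 0 < meromorphicOrderAt (fun w => ℘[L] w - ℘[L] z) z := by
        rw [← tendsto_zero_iff_meromorphicOrderAt_pos hPan.meromorphicAt]
        have h6 := hPan.continuousAt.tendsto.mono_left (nhdsWithin_le_nhds (s := {z}ᶜ))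
        rwa [sub_self] at h6
      have h3 := hQan.meromorphicOrderAt_nonneg
      have h7 : (-2 : WithTop ℤ) = ((-2 : ℤ) : WithTop ℤ) := rfl
      rw [h7]
      have h77 : ((2 : ℕ) : WithTop ℤ) = ((2 : ℤ) : WithTop ℤ) := rfl
      rw [h77]
      by_cases ht1 : meromorphicOrderAt (fun w => ℘[L] w - ℘[L] z) z = ⊤
      · rw [ht1, WithTop.mul_top (fun h => two_ne_zero (WithTop.coe_eq_zero.mp h)), WithTop.top_add, WithTop.top_add]
        exact le_top
      by_cases ht2 : meromorphicOrderAt (fun w => Q.eval (℘[L] w)) z = ⊤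
      · rw [ht2, WithTop.add_top, WithTop.top_add]
        exact le_top
      obtain ⟨r, hr⟩ := WithTop.ne_top_iff_exists.mp ht1
      obtain ⟨s, hs⟩ := WithTop.ne_top_iff_exists.mp ht2
      rw [← hr] at h2 ⊢
      rw [← hs] at h3 ⊢
      have h8 : 0 < r := by exact_mod_cast h2
      have h9 : 0 ≤ s := by exact_mod_cast h3
      have h10 : (0 : ℤ) ≤ 2 * r + s + (-2) := by linarith
      rw [← WithTop.coe_mul, ← WithTop.coe_add, ← WithTop.coe_add, ← WithTop.coe_zero,
        WithTop.coe_le_coe]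
      exact h10
    · exact ((analyticAt_poly B (Moduli.analyticAt_P L hz)).mul
        (Moduli.analyticAt_P L' hz')).meromorphicOrderAt_nonneg
  obtain ⟨A₁, hA₁, hBA⟩ := poly_at_zero L B le_rfl
  obtain ⟨A, hA⟩ := even_poly L (B.natDegree + 1) G hGm hG0 (fun l hl z => by
      rw [hG, Pi.mul_apply, Pi.mul_apply, L.weierstrassP_add_coe z ⟨l, hl⟩,
        L'.weierstrassP_add_coe z ⟨l, hLL' hl⟩])
    (fun z => by
      rw [hG, Pi.mul_apply, Pi.mul_apply, L.weierstrassP_neg, L'.weierstrassP_neg])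
    ⟨fun z => A₁ z * U L' z, hA₁.mul (analyticAt_U L'), by
      filter_upwards [self_mem_nhdsWithin] with z hz0
      have hz0 : z ≠ 0 := hz0
      rw [hG, Pi.mul_apply, hBA z hz0, P_eq L' hz0, mul_add, mul_one, pow_add]
      have h3 : z ^ (2 * B.natDegree) ≠ 0 := pow_ne_zero _ hz0
      field_simp⟩
  refine ⟨A, B, hB0, fun z hz => ?_⟩
  have hzL : z ∉ L.lattice := fun h => hz (hLL' h)
  have h3 : Tendsto G (𝓝[≠] z) (𝓝 (G z)) :=
    ((analyticAt_poly B (Moduli.analyticAt_P L hzL)).mul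
      (Moduli.analyticAt_P L' hz)).continuousAt.tendsto.mono_left nhdsWithin_le_nhds
  have h4 : Tendsto (fun w => A.eval (℘[L] w)) (𝓝[≠] z) (𝓝 (A.eval (℘[L] z))) :=
    (analyticAt_poly A (Moduli.analyticAt_P L hzL)).continuousAt.tendsto.mono_left
      nhdsWithin_le_nhds
  exact tendsto_nhds_unique h3 (h4.congr' (hA z).symm)

end Fermat.Agent.Cor.ES
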