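import Fermat.Agent.Corollaries.ES.Basic

/-!
# Relations between `℘_L` and `℘_L'` and relations between their expansions
-/

set_option autoImplicit false

open UpperHalfPlane CongruenceSubgroup ModularFormClass Filter Topology ModularForm
open scoped MatrixGroups Manifold ModularForm PeriodPair

noncomputable section

namespace Fermat.Agent.Cor.ES

open Fermat.Agent.ModFun Fermat.Agent.X0Emb Fermat.Agent.Cor.HW.Per ModularCurve

/-- homogenization of a polynomial -/
def homog {R : Type*} [CommRing R] (P : ℕ → R) (d : ℕ) (u v : R) : R :=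
  ∑ k ∈ Finset.range (d + 1), P k * (u ^ k * v ^ (d - k))

theorem homog_eq {F : Type*} [Field F] (P : Polynomial F) {d : ℕ} (hd : P.natDegree ≤ d)
    (x v : F) : homog P.coeff d (x * v) v = P.eval x * v ^ d := by
  rw [homog, Polynomial.eval_eq_sum_range' (Nat.lt_succ_of_le hd), Finset.sum_mul]
  refine Finset.sum_congr rfl fun k hk => ?_
  have hk' : k ≤ d := Nat.lt_succ_iff.mp (Finset.mem_range.mp hk)
  rw [mul_pow, mul_assoc (x ^ k), ← pow_add, Nat.add_sub_cancel' hk', mul_assoc]

theorem homog_aeval {x v : LaurentSeries ℂ} (P : Polynomial ℂ) {d : ℕ} (hd : P.natDegree ≤ d) :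
    homog (fun k => algebraMap ℂ (LaurentSeries ℂ) (P.coeff k)) d (x * v) v =
      Polynomial.aeval x P * v ^ d := by
  rw [Polynomial.aeval_def, Polynomial.eval₂_eq_eval_map,
    ← homog_eq (P.map (algebraMap ℂ (LaurentSeries ℂ)))
      ((Polynomial.natDegree_map_le).trans hd)]
  have : (P.map (algebraMap ℂ (LaurentSeries ℂ))).coeff =
      fun k => algebraMap ℂ (LaurentSeries ℂ) (P.coeff k) :=
    funext fun k => Polynomial.coeff_map _ _
  rw [this]

variable {N : ℕ} [NeZero N]

theorem rep_sum {ι : Type*} (s : Finset ι) {g : ι → LaurentSeries ℂ} {G : ι → ℍ → ℂ}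
    (h : ∀ i ∈ s, Rep N (RingHom.id ℂ) (g i) (G i)) :
    Rep N (RingHom.id ℂ) (∑ i ∈ s, g i) (∑ i ∈ s, G i) := by
  classical
  induction s using Finset.induction_on with
  | empty =>
    rw [Finset.sum_empty, Finset.sum_empty]
    have := Rep.const (N := N) (ι := RingHom.id ℂ) 0
    rw [map_zero] at this
    convert! this using 1
  | insert a s ha ih =>
    rw [Finset.sum_insert ha, Finset.sum_insert ha]
    exact (h a (Finset.mem_insert_self a s)).add
      (ih fun i hi => h i (Finset.mem_insert_of_mem hi))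

theorem rep_homog {u v : LaurentSeries ℂ} {U V : ℍ → ℂ} (hU : Rep N (RingHom.id ℂ) u U)
    (hV : Rep N (RingHom.id ℂ) v V) (P : Polynomial ℂ) (d : ℕ) :
    Rep N (RingHom.id ℂ)
      (homog (fun k => algebraMap ℂ (LaurentSeries ℂ) (P.coeff k)) d u v)
      (homog (fun k => (fun _ => P.coeff k : ℍ → ℂ)) d U V) :=
  rep_sum _ fun _ _ => (Rep.const _).mul ((hU.pow _).mul (hV.pow _))

theorem homog_apply (P : Polynomial ℂ) (d : ℕ) (U V : ℍ → ℂ) (τ : ℍ) :
    homog (fun k => (fun _ => P.coeff k : ℍ → ℂ)) d U V τ = homog P.coeff d (U τ) (V τ) := by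
  simp [homog]

theorem sub_rep {u v : LaurentSeries ℂ} {U V : ℍ → ℂ} (hU : Rep N (RingHom.id ℂ) u U)
    (hV : Rep N (RingHom.id ℂ) v V) : Rep N (RingHom.id ℂ) (u - v) (U - V) := by
  have h := hU.add ((Rep.const (N := N) (ι := RingHom.id ℂ) (-1)).mul hV)
  have e1 : u + algebraMap ℂ (LaurentSeries ℂ) (-1) * v = u - v := by
    rw [map_neg, map_one]
    ring
  have e2 : (U + (fun _ => (RingHom.id ℂ) (-1)) * V : ℍ → ℂ) = U - V := by
    funext τ
    simp [sub_eq_add_neg]
  rwa [e1, e2] at h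

/-- **(P7)** -/
theorem transStmt : TransStmt N := by
  intro f L L' x x' A B hf hx hx'
  obtain ⟨u, v, U, V, hv, hu, hU, hV, hUV⟩ := hx
  obtain ⟨u', v', U', V', hv', hu', hU', hV', hUV'⟩ := hx'
  set d := max A.natDegree B.natDegree with hd
  have hA : A.natDegree ≤ d := le_max_left _ _
  have hB : B.natDegree ≤ d := le_max_right _ _
  set C : Set ℂ := (L.lattice : Set ℂ) ∪ (L'.lattice : Set ℂ) with hCdef
  have hC : C.Countable := (Moduli.countable_lattice L).union (Moduli.countable_lattice L')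
  have hCm : ∀ z, z ∉ C ↔ z ∉ L.lattice ∧ z ∉ L'.lattice := fun z => by
    rw [hCdef, Set.mem_union, not_or, SetLike.mem_coe, SetLike.mem_coe]
  have hΦ : AnalyticOnNhd ℂ (fun z => B.eval (℘[L] z) * ℘[L'] z - A.eval (℘[L] z)) Cᶜ := by
    intro z hz
    obtain ⟨h1, h2⟩ := (hCm z).mp hz
    have h3 := Moduli.analyticAt_P L h1
    have h4 := Moduli.analyticAt_P L' h2
    have hp : ∀ P : Polynomial ℂ, AnalyticAt ℂ (fun z => P.eval (℘[L] z)) z := fun P =>
      AnalyticAt.fun_comp (g := fun w => P.eval w) (f := ℘[L])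
        (P.differentiable.analyticAt _) h3
    exact ((hp B).mul h4).sub (hp A)
  -- the represented series
  have hH := sub_rep ((rep_homog hU hV B d).mul hU') ((rep_homog hU hV A d).mul hV')
  have e1 : homog (fun k => algebraMap ℂ (LaurentSeries ℂ) (B.coeff k)) d u v * u' -
      homog (fun k => algebraMap ℂ (LaurentSeries ℂ) (A.coeff k)) d u v * v' =
      (Polynomial.aeval x B * x' - Polynomial.aeval x A) * (v ^ d * v') := by
    rw [← hu, ← hu', homog_aeval B hB, homog_aeval A hA]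
    ring
  rw [e1] at hH
  set H : ℍ → ℂ := homog (fun k => (fun _ => B.coeff k : ℍ → ℂ)) d U V * U' -
      homog (fun k => (fun _ => A.coeff k : ℍ → ℂ)) d U V * V' with hHdef
  have hval : ∀ τ, Ei f τ ∉ C → H τ =
      (B.eval (℘[L] (Ei f τ)) * ℘[L'] (Ei f τ) - A.eval (℘[L] (Ei f τ))) *
        (V τ ^ d * V' τ) := by
    intro τ hτ
    obtain ⟨h1, h2⟩ := (hCm _).mp hτ
    rw [hHdef, Pi.sub_apply, Pi.mul_apply, Pi.mul_apply, homog_apply, homog_apply, hUV τ h1,
      hUV' τ h2, homog_eq B hB, homog_eq A hA]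
    ring
  have hiff : Polynomial.aeval x B * x' = Polynomial.aeval x A ↔ H = 0 := by
    rw [← sub_eq_zero, ← hH.eq_zero_iff, mul_eq_zero]
    constructor
    · exact fun h => Or.inl h
    · rintro (h | h)
      · exact h
      · exact absurd h (mul_ne_zero (pow_ne_zero _ hv) hv')
  rw [hiff]
  constructor
  · intro h0 z hz hz'
    have hW0 : V ^ d * V' ≠ 0 := by
      intro h
      have h1 := ((hV.pow d).mul hV').eq_zero_iff.mpr h
      exact mul_ne_zero (pow_ne_zero _ hv) hv' h1
    obtain ⟨hWo, hWne⟩ := nonempty_ne_zero ((hV.pow d).mul hV').mdiff.continuous hW0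
    have := eq_zero_of_Ei hf hC hΦ hWo hWne (fun τ hτ hτC => by
      have h1 := hval τ hτC
      rw [h0, Pi.zero_apply] at h1
      exact (mul_eq_zero.mp h1.symm).resolve_right hτ) ((hCm z).mpr ⟨hz, hz'⟩)
    exact sub_eq_zero.mp this
  · intro h
    have h1 : Set.EqOn H 0 {τ : ℍ | Ei f τ ∉ C} := by
      intro τ hτ
      obtain ⟨h2, h3⟩ := (hCm _).mp hτ
      rw [hval τ hτ, h _ h2 h3, sub_self, zero_mul, Pi.zero_apply]
    exact Continuous.ext_on (dense_Ei hf hC) hH.mdiff.continuous continuous_const h1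

end Fermat.Agent.Cor.ES
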