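import Fermat.Agent.Corollaries.ES.Rat
import Fermat.Agent.Corollaries.ES.Conv
import Fermat.Agent.Corollaries.ES.Trans
import Fermat.Agent.Corollaries.ES.Lat
import Fermat.Agent.Corollaries.ES.Mod
import Fermat.Agent.Corollaries.ES.Sub

/-!
# The invariants of the period lattice are rational (Shimura)
-/

set_option autoImplicit false

open UpperHalfPlane CongruenceSubgroup ModularFormClass
open scoped MatrixGroups Manifold ModularForm PeriodPair

noncomputable section

namespace Fermat.Agent.Cor.ES

open Fermat.Agent.ModFun Fermat.Agent.X0Emb Fermat.Agent.Cor.HW.Per ModularCurve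

/-- **Shimura's theorem**: the periods of a normalized eigenform of weight two on `Γ₀(N)` with
integral eigenvalues are a lattice whose invariants `g₂`, `g₃` are rational. -/
theorem ratStmt (N : ℕ) [NeZero N] : RatStmt N :=
  ratStmt_of (latStmt N) (modStmt N) expStmt convStmt periodStmt subStmt transStmt

end Fermat.Agent.Cor.ES
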