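import Fermat.Agent.Corollaries.ES.Defs2

/-!
# Eichler - Shimura, (S1): a function like `σ` for every lattice

`S(z) = (1 - u) ∏_{n ≥ 1} (1 - qⁿ u) (1 - qⁿ / u)`, `u = exp (2 π i z / w₁)`, `q = exp (2 π i w₂ / w₁)`
for an oriented basis `w₁, w₂` of the lattice: `S(z + w₁) = S(z)`, `S(z + w₂) = -u⁻¹ S(z)`.
-/

set_option autoImplicit false

open scoped PeriodPair

noncomputable section

namespace Fermat.Agent.Cor.ES

/-! ### The product `∏ (1 - q ^ (n + 1) w)` -/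

namespace SigAux

/-- `∏_{n ≥ 1} (1 - q ^ n w)` -/
def P (q w : ℂ) : ℂ := ∏' n : ℕ, (1 + -(q ^ (n + 1) * w))

variable {q : ℂ}

theorem summable_term (hq : ‖q‖ < 1) (w : ℂ) : Summable fun n : ℕ => ‖-(q ^ (n + 1) * w)‖ := by
  have h : Summable fun n : ℕ => ‖q‖ ^ (n + 1) * ‖w‖ :=
    ((summable_nat_add_iff 1).mpr (summable_geometric_of_lt_one (norm_nonneg q) hq)).mul_right _
  simpa [norm_mul, norm_pow] using h

theorem P_ne_zero (hq : ‖q‖ < 1) {w : ℂ} (h : ∀ n : ℕ, q ^ (n + 1) * w ≠ 1) : P q w ≠ 0 := by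
  refine tprod_one_add_ne_zero_of_summable (fun n => ?_) (summable_term hq w)
  rw [← sub_eq_add_neg, sub_ne_zero]
  exact (h n).symm

theorem P_step (hq : ‖q‖ < 1) (w : ℂ) : P q w = (1 - q * w) * P q (q * w) := by
  have e : ∀ n : ℕ, 1 + -(q ^ (n + 1 + 1) * w) = 1 + -(q ^ (n + 1) * (q * w)) := fun n => by
    rw [pow_succ q (n + 1), mul_assoc]
  have h1 : Multipliable fun n : ℕ => 1 + -(q ^ (n + 1) * (q * w)) :=
    multipliable_one_add_of_summable (summable_term hq (q * w))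
  have hm : Multipliable fun n : ℕ => 1 + -(q ^ (n + 1 + 1) * w) := by
    simp only [e]
    exact h1
  have h2 := tprod_eq_zero_mul' (f := fun n : ℕ => 1 + -(q ^ (n + 1) * w)) hm
  simp only [e] at h2
  rw [P, h2, P, zero_add, pow_one, sub_eq_add_neg]

theorem P_differentiable (hq : ‖q‖ < 1) : Differentiable ℂ (P q) := by
  intro w₀
  have hball : IsOpen (Metric.ball (0 : ℂ) (‖w₀‖ + 1)) := Metric.isOpen_ball
  have hs : Summable fun n : ℕ => ‖q‖ ^ (n + 1) * (‖w₀‖ + 1) :=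
    ((summable_nat_add_iff 1).mpr (summable_geometric_of_lt_one (norm_nonneg q) hq)).mul_right _
  have h := hs.hasProdLocallyUniformlyOn_nat_one_add (f := fun (n : ℕ) (w : ℂ) => -(q ^ (n + 1) * w))
    hball (Filter.Eventually.of_forall fun n w hw => by
      rw [norm_neg, norm_mul, norm_pow]
      have : ‖w‖ ≤ ‖w₀‖ + 1 := by
        have := Metric.mem_ball.mp hw
        rw [dist_zero_right] at this
        exact this.le
      gcongr) (fun n => by fun_prop)
  have hd := h.differentiableOn (Filter.Eventually.of_forall fun s => by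
    simpa [Finset.prod_fn] using DifferentiableOn.finsetProd (fun _ _ ↦ by fun_prop)) hball
  exact hd.differentiableAt (hball.mem_nhds (by
    rw [Metric.mem_ball, dist_zero_right]
    linarith))

/-! ### The function `S` -/

/-- `exp (2 π i z / w₁)` -/
def uu (w₁ z : ℂ) : ℂ := Complex.exp (2 * Real.pi * Complex.I * z / w₁)

/-- `(1 - u) ∏ (1 - qⁿ u) (1 - qⁿ / u)` -/
def SS (w₁ w₂ z : ℂ) : ℂ :=
  (1 - uu w₁ z) * P (uu w₁ w₂) (uu w₁ z) * P (uu w₁ w₂) (uu w₁ (-z))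

theorem uu_add (w₁ z z' : ℂ) : uu w₁ (z + z') = uu w₁ z * uu w₁ z' := by
  rw [uu, uu, uu, ← Complex.exp_add]
  congr 1
  ring

theorem uu_ne_zero (w₁ z : ℂ) : uu w₁ z ≠ 0 := Complex.exp_ne_zero _

theorem uu_neg (w₁ z : ℂ) : uu w₁ (-z) = (uu w₁ z)⁻¹ := by
  rw [uu, uu, ← Complex.exp_neg]
  congr 1
  ring

theorem uu_zero (w₁ : ℂ) : uu w₁ 0 = 1 := by simp [uu]

variable {w₁ w₂ : ℂ}

theorem uu_eq_one_iff (h1 : w₁ ≠ 0) {z : ℂ} : uu w₁ z = 1 ↔ ∃ a : ℤ, z = a * w₁ := by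
  rw [uu, Complex.exp_eq_one_iff]
  have hpi : (2 * Real.pi * Complex.I : ℂ) ≠ 0 := Complex.two_pi_I_ne_zero
  constructor
  · rintro ⟨n, hn⟩
    refine ⟨n, ?_⟩
    rw [div_eq_iff h1] at hn
    have h2 : (2 * Real.pi * Complex.I : ℂ) * (z - n * w₁) = 0 := by linear_combination hn
    rcases mul_eq_zero.mp h2 with h3 | h3
    · exact absurd h3 hpi
    · exact sub_eq_zero.mp h3
  · rintro ⟨n, hn⟩
    refine ⟨n, ?_⟩
    rw [hn]
    field_simp

theorem norm_uu_lt_one (him : 0 < (w₂ / w₁).im) : ‖uu w₁ w₂‖ < 1 := by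
  rw [uu, Complex.norm_exp, Real.exp_lt_one_iff]
  have e : (2 * Real.pi * Complex.I * w₂ / w₁ : ℂ) = (2 * Real.pi : ℝ) * (Complex.I * (w₂ / w₁)) := by
    push_cast
    ring
  rw [e, Complex.re_ofReal_mul, Complex.I_mul_re]
  nlinarith [Real.pi_pos]

theorem uu_pow (w₁ z : ℂ) (n : ℕ) : uu w₁ z ^ n = uu w₁ (n * z) := by
  rw [uu, uu, ← Complex.exp_nat_mul]
  congr 1
  ring

theorem SS_differentiable (him : 0 < (w₂ / w₁).im) : Differentiable ℂ (SS w₁ w₂) := by
  have hP := P_differentiable (norm_uu_lt_one him)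
  have hu : Differentiable ℂ (uu w₁) := by
    unfold uu
    fun_prop
  have hu' : Differentiable ℂ fun z => uu w₁ (-z) := hu.comp differentiable_neg
  exact ((differentiable_const 1).sub hu).mul (hP.comp hu) |>.mul (hP.comp hu')

theorem SS_add_left (h1 : w₁ ≠ 0) (z : ℂ) : SS w₁ w₂ (z + w₁) = SS w₁ w₂ z := by
  have h2 : uu w₁ w₁ = 1 := (uu_eq_one_iff h1).mpr ⟨1, by simp⟩
  rw [SS, SS, uu_add, h2, mul_one, neg_add, uu_add, uu_neg w₁ w₁, h2, inv_one, mul_one]

theorem SS_add_right (him : 0 < (w₂ / w₁).im) (z : ℂ) :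
    SS w₁ w₂ (z + w₂) = -(uu w₁ z)⁻¹ * SS w₁ w₂ z := by
  have hq := norm_uu_lt_one him
  have hu := uu_ne_zero w₁ z
  have hq0 := uu_ne_zero w₁ w₂
  have e1 := P_step hq (uu w₁ z)
  have e2 := P_step hq (uu w₁ (-(z + w₂)))
  have e3 : uu w₁ w₂ * uu w₁ (-(z + w₂)) = uu w₁ (-z) := by
    rw [← uu_add]
    congr 1
    ring
  rw [e3] at e2
  rw [SS, SS, e2, uu_add, e1, uu_neg w₁ z, mul_comm (uu w₁ z) (uu w₁ w₂)]
  field_simp
  ring

theorem SS_zero : SS w₁ w₂ 0 = 0 := by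
  rw [SS, uu_zero, sub_self, zero_mul, zero_mul]

theorem P_one_ne_zero (him : 0 < (w₂ / w₁).im) : P (uu w₁ w₂) 1 ≠ 0 := by
  refine P_ne_zero (norm_uu_lt_one him) fun n h => ?_
  have h2 : ‖uu w₁ w₂‖ ^ (n + 1) < 1 := pow_lt_one₀ (norm_nonneg _) (norm_uu_lt_one him) (by omega)
  rw [mul_one] at h
  rw [← norm_pow, h, norm_one] at h2
  exact lt_irrefl _ h2

theorem deriv_SS_zero (h1 : w₁ ≠ 0) (him : 0 < (w₂ / w₁).im) : deriv (SS w₁ w₂) 0 ≠ 0 := by
  have hP := P_differentiable (norm_uu_lt_one him)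
  have hu : Differentiable ℂ (uu w₁) := by
    unfold uu
    fun_prop
  have hg : Differentiable ℂ fun z => P (uu w₁ w₂) (uu w₁ z) * P (uu w₁ w₂) (uu w₁ (-z)) :=
    (hP.comp hu).mul (hP.comp (hu.comp differentiable_neg))
  have hu' : HasDerivAt (uu w₁) (2 * Real.pi * Complex.I / w₁) 0 := by
    have h2 : HasDerivAt (fun z : ℂ => 2 * Real.pi * Complex.I * z / w₁)
        (2 * Real.pi * Complex.I / w₁) 0 := by
      simpa using ((hasDerivAt_id (0 : ℂ)).const_mul (2 * Real.pi * Complex.I)).div_const w₁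
    have h5 := h2.cexp
    rw [mul_zero, zero_div, Complex.exp_zero, one_mul] at h5
    exact h5
  have h3 : HasDerivAt (SS w₁ w₂) (-(2 * Real.pi * Complex.I / w₁) *
      (P (uu w₁ w₂) (uu w₁ 0) * P (uu w₁ w₂) (uu w₁ (-0))) + (1 - uu w₁ 0) *
      deriv (fun z => P (uu w₁ w₂) (uu w₁ z) * P (uu w₁ w₂) (uu w₁ (-z))) 0) 0 := by
    have h4 := (hu'.const_sub 1).mul (hg 0).hasDerivAt
    refine h4.congr_of_eventuallyEq (Filter.Eventually.of_forall fun z => ?_)
    show SS w₁ w₂ z = (1 - uu w₁ z) * (P (uu w₁ w₂) (uu w₁ z) * P (uu w₁ w₂) (uu w₁ (-z)))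
    rw [SS, mul_assoc]
  rw [h3.deriv, neg_zero, uu_zero, sub_self, zero_mul, add_zero]
  have hP1 := P_one_ne_zero him
  exact mul_ne_zero (neg_ne_zero.mpr (div_ne_zero Complex.two_pi_I_ne_zero h1)) (mul_ne_zero hP1 hP1)

/-- the zeros -/
theorem exists_of_SS_eq_zero (h1 : w₁ ≠ 0) (him : 0 < (w₂ / w₁).im) {z : ℂ}
    (h : SS w₁ w₂ z = 0) : ∃ a b : ℤ, a * w₁ + b * w₂ = z := by
  have hq := norm_uu_lt_one him
  have key : ∀ {x : ℂ}, P (uu w₁ w₂) (uu w₁ x) = 0 → ∃ a b : ℤ, a * w₁ + b * w₂ = x := by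
    intro x hx
    by_contra hcon
    refine P_ne_zero hq (fun n hn => hcon ?_) hx
    rw [uu_pow, ← uu_add, uu_eq_one_iff h1] at hn
    obtain ⟨a, ha⟩ := hn
    refine ⟨a, -((n : ℤ) + 1), ?_⟩
    push_cast at ha ⊢
    linear_combination -ha
  rw [SS, mul_eq_zero, mul_eq_zero] at h
  rcases h with (h | h) | h
  · rw [sub_eq_zero] at h
    obtain ⟨a, ha⟩ := (uu_eq_one_iff h1).mp h.symm
    exact ⟨a, 0, by rw [ha]; push_cast; ring⟩
  · exact key h
  · obtain ⟨a, b, hab⟩ := key h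
    exact ⟨-a, -b, by push_cast; linear_combination -hab⟩

theorem SS_add_int (h1 : w₁ ≠ 0) (him : 0 < (w₂ / w₁).im) (a b : ℤ) :
    ∃ β : ℂ, ∀ z, SS w₁ w₂ (z + (a * w₁ + b * w₂)) =
      Complex.exp (-(2 * Real.pi * Complex.I * b / w₁) * z + β) * SS w₁ w₂ z := by
  have hper : ∀ z, SS w₁ w₂ (z + a * w₁) = SS w₁ w₂ z := fun z => by
    have h : Function.Periodic (SS w₁ w₂) w₁ := SS_add_left h1
    exact h.int_mul a z
  -- the generator
  have hgen : ∀ z, SS w₁ w₂ (z + w₂) =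
      Complex.exp (-(2 * Real.pi * Complex.I / w₁) * z + Real.pi * Complex.I) * SS w₁ w₂ z := by
    intro z
    rw [SS_add_right him, Complex.exp_add, Complex.exp_pi_mul_I, uu, ← Complex.exp_neg]
    rw [show -(2 * Real.pi * Complex.I / w₁) * z = -(2 * Real.pi * Complex.I * z / w₁) by ring]
    ring
  have hb : ∀ b : ℤ, ∃ β : ℂ, ∀ z, SS w₁ w₂ (z + b * w₂) =
      Complex.exp (-(2 * Real.pi * Complex.I * b / w₁) * z + β) * SS w₁ w₂ z := by
    intro b
    induction b using Int.induction_on with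
    | zero => exact ⟨0, fun z => by simp⟩
    | succ n ih =>
      obtain ⟨β, hβ⟩ := ih
      refine ⟨β + (-(2 * Real.pi * Complex.I / w₁) * (n * w₂) + Real.pi * Complex.I), fun z => ?_⟩
      have e : z + ((n + 1 : ℤ) : ℂ) * w₂ = (z + (n : ℤ) * w₂) + w₂ := by
        push_cast
        ring
      rw [e, hgen, hβ, ← mul_assoc, ← Complex.exp_add]
      congr 2
      push_cast
      ring
    | pred n ih =>
      obtain ⟨β, hβ⟩ := ih
      refine ⟨β - (-(2 * Real.pi * Complex.I / w₁) * ((-n - 1) * w₂) + Real.pi * Complex.I),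
        fun z => ?_⟩
      have e : z + ((-n : ℤ) : ℂ) * w₂ = (z + ((-n - 1 : ℤ) : ℂ) * w₂) + w₂ := by
        push_cast
        ring
      have h2 := hβ z
      rw [e, hgen] at h2
      have h3 : SS w₁ w₂ (z + ((-n - 1 : ℤ) : ℂ) * w₂) =
          Complex.exp (-(-(2 * Real.pi * Complex.I / w₁) * (z + ((-n - 1 : ℤ) : ℂ) * w₂) +
            Real.pi * Complex.I)) *
          (Complex.exp (-(2 * Real.pi * Complex.I * ((-n : ℤ) : ℂ) / w₁) * z + β) *
            SS w₁ w₂ z) := by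
        rw [← h2, ← mul_assoc, ← Complex.exp_add, neg_add_cancel, Complex.exp_zero, one_mul]
      rw [h3, ← mul_assoc, ← Complex.exp_add]
      congr 2
      push_cast
      ring
  obtain ⟨β, hβ⟩ := hb b
  refine ⟨β, fun z => ?_⟩
  rw [← hβ z, ← hper (z + b * w₂)]
  congr 1
  ring

end SigAux

open SigAux in
/-- The function for an oriented basis of the lattice. -/
theorem sig_of {L : PeriodPair} {w₁ w₂ : ℂ} (him : 0 < (w₂ / w₁).im)
    (hL : ∀ z, z ∈ L.lattice ↔ ∃ a b : ℤ, a * w₁ + b * w₂ = z) : ∃ S α β B, Sig L S α β B := by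
  have h1 : w₁ ≠ 0 := by
    rintro rfl
    simp at him
  have hcoord : ∀ z : ℂ, ∃ ab : ℤ × ℤ, z ∈ L.lattice → ab.1 * w₁ + ab.2 * w₂ = z := by
    intro z
    by_cases hz : z ∈ L.lattice
    · obtain ⟨a, b, h⟩ := (hL z).mp hz
      exact ⟨(a, b), fun _ => h⟩
    · exact ⟨(0, 0), fun h => absurd h hz⟩
  choose c hc using hcoord
  have huniq : ∀ a b a' b' : ℤ, (a : ℂ) * w₁ + b * w₂ = a' * w₁ + b' * w₂ → a = a' ∧ b = b' := by
    intro a b a' b' h
    have h2 : ((b : ℂ) - b') * (w₂ / w₁) = (a' : ℂ) - a := by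
      field_simp
      linear_combination h
    have h3 := congrArg Complex.im h2
    have e1 : ((b : ℂ) - b') = ((b - b' : ℝ) : ℂ) := by push_cast; ring
    have e2 : ((a' : ℂ) - a) = ((a' - a : ℝ) : ℂ) := by push_cast; ring
    rw [e1, e2, Complex.im_ofReal_mul, Complex.ofReal_im] at h3
    have h4 : ((b : ℝ) - b') = 0 := by
      rcases mul_eq_zero.mp h3 with h | h
      · exact h
      · exact absurd h him.ne'
    have hb : b = b' := by exact_mod_cast sub_eq_zero.mp h4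
    subst hb
    rw [sub_self, zero_mul] at h2
    have h5 : (a : ℂ) = a' := (sub_eq_zero.mp h2.symm).symm
    exact ⟨by exact_mod_cast h5, rfl⟩
  have hadd : ∀ l ∈ L.lattice, ∀ m ∈ L.lattice, (c (l + m)).1 = (c l).1 + (c m).1 ∧
      (c (l + m)).2 = (c l).2 + (c m).2 := by
    intro l hl m hm
    refine huniq _ _ _ _ ?_
    rw [hc _ (add_mem hl hm)]
    push_cast
    linear_combination -(hc l hl) - hc m hm
  choose β hβ using fun a b => SS_add_int (w₁ := w₁) (w₂ := w₂) h1 him a b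
  have hquasi : ∀ l ∈ L.lattice, ∀ z, SS w₁ w₂ (z + l) =
      Complex.exp (-(2 * Real.pi * Complex.I * (c l).2 / w₁) * z + β (c l).1 (c l).2) *
        SS w₁ w₂ z := by
    intro l hl z
    have h2 := hβ (c l).1 (c l).2 z
    rwa [hc l hl] at h2
  refine ⟨SS w₁ w₂, fun l => -(2 * Real.pi * Complex.I * (c l).2 / w₁),
    fun l => β (c l).1 (c l).2, fun m l => (c l).2 * (c m).1 - (c m).2 * (c l).1,
    SS_differentiable him, fun z => ⟨fun h => (hL z).mpr (exists_of_SS_eq_zero h1 him h),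
      fun h => ?_⟩, fun l hl => ?_, hquasi, fun l hl m hm => ?_, fun l hl m hm k hk => ?_,
    fun l hl m hm k hk => ?_, fun n m hm hn => ?_⟩
  · have h2 := hquasi z h 0
    rw [zero_add, SS_zero, mul_zero] at h2
    exact h2
  · -- simple zeros
    have h2 : HasDerivAt (fun z => SS w₁ w₂ (z + l)) (deriv (SS w₁ w₂) l) 0 := by
      have h3 : HasDerivAt (SS w₁ w₂) (deriv (SS w₁ w₂) l) (0 + l) := by
        rw [zero_add]
        exact (SS_differentiable him l).hasDerivAt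
      exact h3.comp_add_const 0 l
    have h4 : HasDerivAt (fun z => SS w₁ w₂ (z + l))
        (deriv (fun z => Complex.exp (-(2 * Real.pi * Complex.I * (c l).2 / w₁) * z +
          β (c l).1 (c l).2)) 0 * SS w₁ w₂ 0 +
          Complex.exp (-(2 * Real.pi * Complex.I * (c l).2 / w₁) * 0 + β (c l).1 (c l).2) *
            deriv (SS w₁ w₂) 0) 0 := by
      have hd : DifferentiableAt ℂ (fun z => Complex.exp (-(2 * Real.pi * Complex.I * (c l).2 / w₁) *
          z + β (c l).1 (c l).2)) 0 := by fun_prop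
      refine (hd.hasDerivAt.mul (SS_differentiable him 0).hasDerivAt).congr_of_eventuallyEq
        (Filter.Eventually.of_forall fun z => hquasi l hl z)
    rw [h2.unique h4, SS_zero, mul_zero, zero_add]
    exact mul_ne_zero (Complex.exp_ne_zero _) (deriv_SS_zero h1 him)
  · show -(2 * Real.pi * Complex.I * (c m).2 / w₁) * l - -(2 * Real.pi * Complex.I * (c l).2 / w₁) * m
      = 2 * Real.pi * Complex.I * (((c l).2 * (c m).1 - (c m).2 * (c l).1 : ℤ) : ℂ)
    have e1 := hc l hl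
    have e2 := hc m hm
    generalize (c l).1 = a at *
    generalize (c l).2 = b at *
    generalize (c m).1 = a' at *
    generalize (c m).2 = b' at *
    rw [← e1, ← e2]
    push_cast
    field_simp
    ring
  · simp only [(hadd l hl m hm).1, (hadd l hl m hm).2]
    ring
  · simp only [(hadd l hl m hm).1, (hadd l hl m hm).2]
    ring
  · have hw1 : w₁ ∈ L.lattice := (hL _).mpr ⟨1, 0, by push_cast; ring⟩
    have hw2 : w₂ ∈ L.lattice := (hL _).mpr ⟨0, 1, by push_cast; ring⟩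
    have c1 : (c w₁).1 = 1 ∧ (c w₁).2 = 0 := huniq _ _ _ _ (by rw [hc _ hw1]; push_cast; ring)
    have c2 : (c w₂).1 = 0 ∧ (c w₂).2 = 1 := huniq _ _ _ _ (by rw [hc _ hw2]; push_cast; ring)
    have h2 := hn w₁ hw1
    have h3 := hn w₂ hw2
    simp only [c1.1, c1.2, c2.1, c2.2, zero_mul, one_mul, mul_one, mul_zero, zero_sub, sub_zero,
      dvd_neg] at h2 h3
    obtain ⟨b, hb⟩ := h2
    obtain ⟨a, ha⟩ := h3
    refine ⟨a * w₁ + b * w₂, (hL _).mpr ⟨a, b, rfl⟩, ?_⟩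
    rw [← hc m hm, ha, hb]
    push_cast
    ring

/-- **(S1)** -/
theorem sigStmt : SigStmt := by
  intro L
  have hne : (L.ω₂ / L.ω₁).im ≠ 0 := by
    intro h
    have h1 : L.ω₁ ≠ 0 := L.indep.ne_zero 0
    have h2 : (L.ω₂ / L.ω₁ : ℂ) = ((L.ω₂ / L.ω₁).re : ℝ) := Complex.ext (by simp) (by simp [h])
    have h3 := LinearIndependent.pair_iff.mp L.indep (-(L.ω₂ / L.ω₁).re) 1 (by
      rw [div_eq_iff h1] at h2
      simp only [Complex.real_smul, one_mul, Complex.ofReal_neg, Complex.ofReal_one]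
      linear_combination h2)
    exact one_ne_zero h3.2
  rcases lt_or_gt_of_ne hne with h | h
  · refine sig_of (L := L) (w₁ := L.ω₁) (w₂ := -L.ω₂) (by rw [neg_div, Complex.neg_im]; linarith)
      fun z => ?_
    rw [PeriodPair.mem_lattice]
    constructor
    · rintro ⟨m, n, rfl⟩
      exact ⟨m, -n, by push_cast; ring⟩
    · rintro ⟨m, n, rfl⟩
      exact ⟨m, -n, by push_cast; ring⟩
  · exact sig_of (L := L) (w₁ := L.ω₁) (w₂ := L.ω₂) h fun z => PeriodPair.mem_lattice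

end Fermat.Agent.Cor.ES
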