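import Fermat.Agent.Corollaries.ES.Defs3
import Fermat.Agent.Corollaries.ES.Shimura
import Fermat.Agent.Corollaries.ES.ModY
import Fermat.Agent.Corollaries.ES.Sig

/-!
# Eichler - Shimura, (D): the data of an eigenform with integral eigenvalues

The expansions `x` of `℘(∫ f)` and `y = θ x / φ` of `℘'(∫ f)` are fixed by every automorphism of `ℂ` (the
solution of the differential equation is unique), so they have rational coefficients and belong to the
field of modular functions over the algebraic numbers.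
-/

set_option autoImplicit false

open UpperHalfPlane CongruenceSubgroup ModularFormClass Filter Topology ModularForm
open scoped MatrixGroups Manifold ModularForm PeriodPair

noncomputable section

namespace Fermat.Agent.Cor.ES

open Fermat.Agent.ModFun Fermat.Agent.X0Emb Fermat.Agent.Cor.HW.Per ModularCurve

local notation "𝕂" => AlgebraicClosure ℚ

namespace DatAux

theorem image_divisorExpansionsC (N : ℕ) {K L : Type*} [Field K] [Field L] (ι : K →+* L) :
    coeffMap ι '' divisorExpansionsC K N = divisorExpansionsC L N := by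
  ext x
  constructor
  · rintro ⟨_, ⟨d, hne, hd, rfl⟩, rfl⟩
    exact ⟨d, hne, hd, by rw [coeffMap_qExpand, coeffMap_jqModC]⟩
  · rintro ⟨d, hne, hd, rfl⟩
    exact ⟨_, ⟨d, hne, hd, rfl⟩, by rw [coeffMap_qExpand, coeffMap_jqModC]⟩

/-- Descent: an expansion over `K` which is modular over `L` is modular over `K`. -/
theorem mem_fullC_of_coeffMap (N : ℕ) [NeZero N] {K L : Type*} [Field K] [Field L] (ι : K →+* L)
    {y : LaurentSeries K} (h : coeffMap ι y ∈ modularFunctionFieldFullC L N) :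
    y ∈ modularFunctionFieldFullC K N := by
  rw [modularFunctionFieldFullC, IntermediateField.mem_adjoin_iff_div] at h
  obtain ⟨r, hr, s, hs, hrs⟩ := h
  rw [← image_divisorExpansionsC N ι] at hr hs
  by_cases hs0 : s = 0
  · rw [hs0, div_zero] at hrs
    have h0 : y = 0 := by
      have h1 : Function.Injective (coeffMap ι) := (coeffMap ι).injective
      exact h1 (by rw [hrs, map_zero])
    rw [h0]
    exact zero_mem _
  · exact mem_adjoin_of_relation' ι _ y hr hs hs0 (by rw [hrs, div_mul_cancel₀ _ hs0])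

/-- A Laurent series over `ℂ` which is fixed by all automorphisms has rational coefficients. -/
theorem exists_descent {x : LaurentSeries ℂ}
    (hfix : ∀ σ : ℂ ≃+* ℂ, coeffMap (σ : ℂ →+* ℂ) x = x) :
    ∃ X : LaurentSeries 𝕂, coeffMap X0Emb.iota X = x ∧
      ∀ σ : 𝕂 →+* 𝕂, coeffMap σ X = X := by
  have hrat : ∀ k : ℤ, ∃ r : ℚ, (r : ℂ) = x.coeff k := fun k =>
    IntStruct.exists_rat_of_forall_ringEquiv_fixed _ fun σ => by
      have h := congrArg (fun z : LaurentSeries ℂ => z.coeff k) (hfix σ)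
      simpa [coeffMap_coeff] using h
  choose r hr using hrat
  let X : LaurentSeries 𝕂 :=
    { coeff := fun k => (r k : 𝕂)
      isPWO_support' := x.isPWO_support.mono fun k hk => by
        rw [HahnSeries.mem_support, ← hr k]
        intro h0
        apply hk
        have : r k = 0 := by exact_mod_cast h0
        show (r k : 𝕂) = 0
        rw [this, Rat.cast_zero] }
  have hX : ∀ k, X.coeff k = (r k : 𝕂) := fun k => rfl
  refine ⟨X, ?_, fun σ => ?_⟩
  · ext k
    rw [coeffMap_coeff, hX, map_ratCast, hr]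
  · ext k
    rw [coeffMap_coeff, hX, map_ratCast]

theorem exists_bar (N : ℕ) [NeZero N] {x : LaurentSeries ℂ}
    (hx : x ∈ modularFunctionFieldFullC ℂ N)
    (hfix : ∀ σ : ℂ ≃+* ℂ, coeffMap (σ : ℂ →+* ℂ) x = x) :
    ∃ X : modularFunctionFieldBar N, coeffMap X0Emb.iota (X : LaurentSeries 𝕂) = x ∧
      ∀ σ : 𝕂 ≃ₐ[ℚ] 𝕂, arithmeticGalois (modularFunctionFieldFull N) σ • X = X := by
  obtain ⟨X, hX, hσ⟩ := exists_descent hfix
  have hmem : X ∈ modularFunctionFieldBar N := by
    rw [modularFunctionFieldBar, laurentBaseChange_eq]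
    exact mem_fullC_of_coeffMap N X0Emb.iota (by rw [hX]; exact hx)
  exact ⟨⟨X, hmem⟩, hX, fun σ => Subtype.ext (hσ (σ : 𝕂 →+* 𝕂))⟩

end DatAux

variable {N : ℕ} [NeZero N]

theorem IsP'.mem {f : CuspForm (Gamma0 N) 2} {L : PeriodPair} {y : LaurentSeries ℂ}
    (h : IsP' f L y) : y ∈ modularFunctionFieldFullC ℂ N := by
  obtain ⟨u, v, U, V, hv, hx, hU, hV, -⟩ := h
  have : y = u / v := by rw [← hx, mul_div_cancel_right₀ _ hv]
  rw [this]
  exact div_mem hU.mem_fullC hV.mem_fullC

/-- **(D)** -/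
theorem datStmt_of (hRat : RatStmt N) (hMod : ModStmt N) (hExp : ExpStmt N) (hUniq : UniqStmt N)
    (hMod' : ModStmt' N) (hSig : SigStmt) : DatStmt N := by
  intro f hf ha
  have hr := exists_int_qCoeff hf ha
  have h1 : qCoeff f 1 = 1 := hf.qCoeff_one
  have hf0 : f ≠ 0 := by
    rintro rfl
    have : qCoeff (0 : CuspForm (Gamma0 N) 2) 1 = 0 := by
      have h2 := (FermatAgent.HeckeEigen.qCoeff_smul (0 : ℂ) (0 : CuspForm (Gamma0 N) 2) 1)
      rw [zero_smul, zero_mul] at h2
      exact h2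
    rw [this] at h1
    exact zero_ne_one h1
  obtain ⟨L, a, b, hL, hg₂, hg₃⟩ := hRat f hf ha
  have hper : ∀ γ, om f γ ∈ L.lattice := fun γ => (hL _).mpr ⟨γ, rfl⟩
  obtain ⟨x, hx⟩ := hMod f L hf0 hper
  obtain ⟨hode, hlead⟩ := hExp f L x h1 hx
  have hy := hMod' f L x hf0 hx
  have hfix : ∀ σ : ℂ ≃+* ℂ, coeffMap (σ : ℂ →+* ℂ) x = x := by
    intro σ
    have h2 := hode.coeffMap hr (σ : ℂ →+* ℂ)
    have e2 : (σ : ℂ →+* ℂ) L.g₂ = L.g₂ := by rw [hg₂, map_ratCast]
    have e3 : (σ : ℂ →+* ℂ) L.g₃ = L.g₃ := by rw [hg₃, map_ratCast]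
    rw [e2, e3] at h2
    exact hUniq f _ _ _ _ h1 h2 hode (hlead.coeffMap _) hlead
  have hfix' : ∀ σ : ℂ ≃+* ℂ, coeffMap (σ : ℂ →+* ℂ) (Igusa.theta x / phi f) =
      Igusa.theta x / phi f := by
    intro σ
    rw [map_div₀, coeffMap_phi hr, Igusa.coeffMap_theta, hfix]
  obtain ⟨X, hX, hXσ⟩ := DatAux.exists_bar N hx.mem hfix
  obtain ⟨Y, hY, hYσ⟩ := DatAux.exists_bar N hy.mem hfix'
  obtain ⟨S, α, β, B, hS⟩ := hSig L
  refine ⟨L, a, b, X, Y, S, α, β, B, hf, ha, hL, hg₂, hg₃, ?_, ?_, ?_, hXσ, hYσ, hS⟩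
  · have hΔ : (Wc a b : WeierstrassCurve ℚ).Δ = a ^ 3 - 27 * b ^ 2 := by
      simp only [Wc, WeierstrassCurve.Δ, WeierstrassCurve.b₂, WeierstrassCurve.b₄,
        WeierstrassCurve.b₆, WeierstrassCurve.b₈]
      ring
    rw [hΔ]
    have hd := disc_ne L
    rw [hg₂, hg₃] at hd
    exact_mod_cast hd
  · rw [hX]
    exact hx
  · rw [hY]
    exact hy

/-- **(D)**: the data of a normalized eigenform with integral eigenvalues exist. -/
theorem datStmt (N : ℕ) [NeZero N] : DatStmt N :=
  datStmt_of (ratStmt N) (modStmt N) expStmt uniqStmt (modStmt' N) sigStmt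

end Fermat.Agent.Cor.ES
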