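import Fermat.Agent.Corollaries.HW.PeriodRat
import Fermat.Agent.GenES.Main
import Fermat.Agent.ModFun.Rep
import Fermat.Agent.Moduli.Main
import Fermat.Agent.IntStruct.AutC
import Fermat.Agent.Igusa.Theta
import Fermat.Agent.GalRep.JZ9_Map

/-!
# The elliptic curve of a form with integral eigenvalues (Eichler, Shimura): definitions
-/

set_option autoImplicit false

open UpperHalfPlane CongruenceSubgroup ModularFormClass
open scoped MatrixGroups Manifold ModularForm PeriodPair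

noncomputable section

namespace Fermat.Agent.Cor.ES

open Fermat.Agent.ModFun Fermat.Agent.X0Emb Fermat.Agent.Cor.HW.Per ModularCurve

variable {N : ℕ} [NeZero N] (f : CuspForm (Gamma0 N) 2)

/-- the primitive of `2 π i f` which vanishes at `i∞` -/
def Ei (τ : ℍ) : ℂ := 2 * Real.pi * Complex.I * GenES.prm f τ

/-- the Fourier expansion of `f` as a Laurent series -/
def phi : LaurentSeries ℂ := HahnSeries.ofPowerSeries ℤ ℂ (qExpansion 1 f)

/-- the differential equation of `℘(∫ f)` -/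
def ODE (a b : ℂ) (x : LaurentSeries ℂ) : Prop :=
  Igusa.theta x ^ 2 = (4 * x ^ 3 - HahnSeries.C a * x - HahnSeries.C b) * phi f ^ 2

/-- `x = q⁻² + ...` -/
structure Lead (x : LaurentSeries ℂ) : Prop where
  coeff : x.coeff (-2) = 1
  zero : ∀ n < (-2 : ℤ), x.coeff n = 0

/-- `x` is a modular function whose function on the upper half plane is `℘_L(∫ f)` -/
def IsP (L : PeriodPair) (x : LaurentSeries ℂ) : Prop :=
  ∃ (u v : LaurentSeries ℂ) (U V : ℍ → ℂ), v ≠ 0 ∧ x * v = u ∧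
    Rep N (RingHom.id ℂ) u U ∧ Rep N (RingHom.id ℂ) v V ∧
    ∀ τ : ℍ, Ei f τ ∉ L.lattice → U τ = ℘[L] (Ei f τ) * V τ

/-- (P1) the periods form a lattice -/
def LatStmt (N : ℕ) [NeZero N] : Prop :=
  ∀ f : CuspForm (Gamma0 N) 2, f.IsNormalizedEigenform →
    (∀ ℓ : Nat.Primes, ∃ a : ℤ, qCoeff f ℓ = a) →
    ∃ L : PeriodPair, ∀ z, z ∈ L.lattice ↔ ∃ γ, om f γ = z

/-- (P2) uniqueness of the formal solution -/
def UniqStmt (N : ℕ) [NeZero N] : Prop :=
  ∀ (f : CuspForm (Gamma0 N) 2) (a b : ℂ) (x x' : LaurentSeries ℂ), qCoeff f 1 = 1 →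
    ODE f a b x → ODE f a b x' → Lead x → Lead x' → x = x'

/-- (P3) `℘(∫ f)` is a modular function -/
def ModStmt (N : ℕ) [NeZero N] : Prop :=
  ∀ (f : CuspForm (Gamma0 N) 2) (L : PeriodPair), f ≠ 0 → (∀ γ, om f γ ∈ L.lattice) →
    ∃ x, IsP f L x

/-- (P4) its expansion satisfies the differential equation -/
def ExpStmt (N : ℕ) [NeZero N] : Prop :=
  ∀ (f : CuspForm (Gamma0 N) 2) (L : PeriodPair) (x : LaurentSeries ℂ), qCoeff f 1 = 1 →
    IsP f L x → ODE f L.g₂ L.g₃ x ∧ Lead x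

/-- (P5) a modular function whose expansion satisfies the differential equation is `℘(∫ f)` -/
def ConvStmt (N : ℕ) [NeZero N] : Prop :=
  ∀ (f : CuspForm (Gamma0 N) 2) (L : PeriodPair) (x : LaurentSeries ℂ), qCoeff f 1 = 1 →
    x ∈ modularFunctionFieldFullC ℂ N → ODE f L.g₂ L.g₃ x → Lead x → IsP f L x

/-- (P5') the periods of `f` are in `L` if `℘_L(∫ f)` is modular -/
def PeriodStmt (N : ℕ) [NeZero N] : Prop :=
  ∀ (f : CuspForm (Gamma0 N) 2) (L : PeriodPair) (x : LaurentSeries ℂ), f ≠ 0 →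
    IsP f L x → ∀ γ, om f γ ∈ L.lattice

/-- (P6) even elliptic functions: `℘` of a larger lattice is a rational function of `℘` -/
def SubStmt : Prop :=
  ∀ L L' : PeriodPair, L.lattice ≤ L'.lattice → ∃ A B : Polynomial ℂ, B ≠ 0 ∧
    ∀ z, z ∉ L'.lattice → B.eval (℘[L] z) * ℘[L'] z = A.eval (℘[L] z)

/-- (P7) the converse of (P6) through expansions -/
def TransStmt (N : ℕ) [NeZero N] : Prop :=
  ∀ (f : CuspForm (Gamma0 N) 2) (L L' : PeriodPair) (x x' : LaurentSeries ℂ)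
    (A B : Polynomial ℂ), f ≠ 0 → IsP f L x → IsP f L' x' →
    (Polynomial.aeval x B * x' = Polynomial.aeval x A ↔
      ∀ z, z ∉ L.lattice → z ∉ L'.lattice → B.eval (℘[L] z) * ℘[L'] z = A.eval (℘[L] z))

/-- (T1) **Shimura**: the invariants of the period lattice are rational -/
def RatStmt (N : ℕ) [NeZero N] : Prop :=
  ∀ f : CuspForm (Gamma0 N) 2, f.IsNormalizedEigenform →
    (∀ ℓ : Nat.Primes, ∃ a : ℤ, qCoeff f ℓ = a) →
    ∃ (L : PeriodPair) (a b : ℚ), (∀ z, z ∈ L.lattice ↔ ∃ γ, om f γ = z) ∧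
      L.g₂ = a ∧ L.g₃ = b

end Fermat.Agent.Cor.ES
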