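import Fermat.Agent.Corollaries.ES.Defs2
import Fermat.Agent.LTF.BLR2
import Fermat.Agent.Ribet.Models

/-!
# Eichler–Shimura, part 3: definitions
-/

set_option autoImplicit false

open UpperHalfPlane CongruenceSubgroup ModularFormClass
open scoped MatrixGroups Manifold ModularForm PeriodPair WeierstrassCurve.Affine

noncomputable section

namespace Fermat.Agent.Cor.ES

open Fermat.Agent.ModFun Fermat.Agent.X0Emb Fermat.Agent.Cor.HW.Per ModularCurve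
open Fermat.Agent.GalRep ModularCurve.Period Fermat.Agent.HeckePar AlgebraicCurve

local notation "𝕂" => AlgebraicClosure ℚ

/-- the points of `y² = x³ - (a/4) x - b/4` over the algebraic closure of `ℚ` -/
abbrev Pts (a b : ℚ) : Type := ((Wc a b : WeierstrassCurve ℚ)⁄(AlgebraicClosure ℚ)).Point

variable {N : ℕ} [NeZero N]

/-- the data of an eigenform with integral eigenvalues -/
structure Dat (f : CuspForm (Gamma0 N) 2) (L : PeriodPair) (a b : ℚ)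
    (x y : modularFunctionFieldBar N) (S α β : ℂ → ℂ) (B : ℂ → ℂ → ℤ) : Prop where
  hf : f.IsNormalizedEigenform
  int : ∀ ℓ : Nat.Primes, ∃ c : ℤ, qCoeff f ℓ = c
  lat : ∀ z, z ∈ L.lattice ↔ ∃ γ, om f γ = z
  g₂ : L.g₂ = a
  g₃ : L.g₃ = b
  disc : (Wc a b : WeierstrassCurve ℚ).Δ ≠ 0
  isP : IsP f L (coeffMap X0Emb.iota (x : LaurentSeries 𝕂))
  isP' : IsP' f L (coeffMap X0Emb.iota (y : LaurentSeries 𝕂))
  xrat : ∀ σ : 𝕂 ≃ₐ[ℚ] 𝕂, arithmeticGalois (modularFunctionFieldFull N) σ • x = x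
  yrat : ∀ σ : 𝕂 ≃ₐ[ℚ] 𝕂, arithmeticGalois (modularFunctionFieldFull N) σ • y = y
  sig : Sig L S α β B

/-- (D) the data exist -/
def DatStmt (N : ℕ) [NeZero N] : Prop :=
  ∀ f : CuspForm (Gamma0 N) 2, f.IsNormalizedEigenform →
    (∀ ℓ : Nat.Primes, ∃ c : ℤ, qCoeff f ℓ = c) →
    ∃ (L : PeriodPair) (a b : ℚ) (x y : modularFunctionFieldBar N) (S α β : ℂ → ℂ)
      (B : ℂ → ℂ → ℤ), Dat f L a b x y S α β B

/-- (Tor) the torsion points of `y² = x³ - (a/4) x - b/4` over the algebraic closure of `ℚ` -/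
def TorStmt : Prop :=
  ∀ (L : PeriodPair) (a b : ℚ), L.g₂ = a → L.g₃ = b → (Wc a b : WeierstrassCurve ℚ).Δ ≠ 0 →
    ∀ n : ℕ, n ≠ 0 → ∃ Θ : L.lattice →+ Pts a b,
      (∀ μ, n • Θ μ = 0) ∧ (∀ P : Pts a b, n • P = 0 → ∃ μ, Θ μ = P) ∧
      (∀ μ : L.lattice, Θ μ = 0 ↔ (μ : ℂ) / n ∈ L.lattice) ∧
      ∀ μ : L.lattice, (μ : ℂ) / n ∉ L.lattice → ∃ (x₀ y₀ : 𝕂) (h : _), Θ μ = .some x₀ y₀ h ∧
        X0Emb.iota x₀ = ℘[L] ((μ : ℂ) / n) ∧ X0Emb.iota y₀ = ℘'[L] ((μ : ℂ) / n) / 2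

/-- (Kum) the Kummer function of `jMap φ_μ` -/
def KumStmt (N : ℕ) [NeZero N] : Prop :=
  ∀ (f : CuspForm (Gamma0 N) 2) (L : PeriodPair) (a b : ℚ) (x y : modularFunctionFieldBar N)
    (S α β : ℂ → ℂ) (B : ℂ → ℂ → ℤ), Dat f L a b x y S α β B →
    ∀ (n : ℕ) (hn : n ≠ 0) (μ : ℂ), μ ∈ L.lattice → μ / n ∉ L.lattice → ∀ (x₀ y₀ : 𝕂), y₀ ≠ 0 →
    X0Emb.iota x₀ = ℘[L] (μ / n) → X0Emb.iota y₀ = ℘'[L] (μ / n) / 2 →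
    ∀ p q : Polynomial 𝕂, DivFn n (a : 𝕂) (b : 𝕂) x₀ y₀ p q →
    ∀ φ : parabolicHoms ℤ (Gamma0 N) ℤ,
      (∀ γ, (φ : Additive (Gamma0 N) →+ ℤ) γ = B μ (om f γ)) →
      IsKummer n (jMap N n hn φ) (Polynomial.aeval x p + Polynomial.aeval x q * (y / 2))

/-- (Gal) the Galois action on `jMap φ_μ` -/
def GalStmt (N : ℕ) [NeZero N] : Prop :=
  ∀ (f : CuspForm (Gamma0 N) 2) (L : PeriodPair) (a b : ℚ) (x y : modularFunctionFieldBar N)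
    (S α β : ℂ → ℂ) (B : ℂ → ℂ → ℤ), Dat f L a b x y S α β B →
    ∀ (n : ℕ) (hn : n ≠ 0) (μ μ' : ℂ), μ ∈ L.lattice → μ' ∈ L.lattice → μ / n ∉ L.lattice →
    μ' / n ∉ L.lattice → ∀ (x₀ y₀ : 𝕂)
    (h : (Wc (a : 𝕂) (b : 𝕂)).toAffine.Nonsingular x₀ y₀), y₀ ≠ 0 →
    n • (WeierstrassCurve.Affine.Point.some x₀ y₀ h : (Wc (a : 𝕂) (b : 𝕂)).toAffine.Point) = 0 →
    X0Emb.iota x₀ = ℘[L] (μ / n) → X0Emb.iota y₀ = ℘'[L] (μ / n) / 2 →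
    ∀ σ : 𝕂 ≃ₐ[ℚ] 𝕂,
    X0Emb.iota (σ x₀) = ℘[L] (μ' / n) → X0Emb.iota (σ y₀) = ℘'[L] (μ' / n) / 2 →
    ∀ φ φ' : parabolicHoms ℤ (Gamma0 N) ℤ,
      (∀ γ, (φ : Additive (Gamma0 N) →+ ℤ) γ = B μ (om f γ)) →
      (∀ γ, (φ' : Additive (Gamma0 N) →+ ℤ) γ = B μ' (om f γ)) →
      σ • jMap N n hn φ = jMap N n hn φ'

/-- (Psi) the curve in `J₀(N)` -/
def PsiStmt (N : ℕ) [NeZero N] : Prop :=
  ∀ (f : CuspForm (Gamma0 N) 2) (L : PeriodPair) (a b : ℚ) (x y : modularFunctionFieldBar N)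
    (S α β : ℂ → ℂ) (B : ℂ → ℂ → ℤ), Dat f L a b x y S α β B → ∀ n : ℕ, Odd n →
    ∃ Ψ : {P : Pts a b // n • P = 0} → JZero N,
      (∀ P, n • Ψ P = 0) ∧
      (∀ (P : Pts a b) (hP : n • P = 0), Ψ ⟨P, hP⟩ = 0 → P = 0) ∧
      (∀ (P Q : Pts a b) (hP : n • P = 0) (hQ : n • Q = 0) (hPQ : n • (P + Q) = 0),
        Ψ ⟨P + Q, hPQ⟩ = Ψ ⟨P, hP⟩ + Ψ ⟨Q, hQ⟩) ∧
      (∀ (σ : 𝕂 ≃ₐ[ℚ] 𝕂) (P : Pts a b) (hP : n • P = 0) (hσ : n • (σ • P) = 0),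
        Ψ ⟨σ • P, hσ⟩ = σ • Ψ ⟨P, hP⟩) ∧
      ∀ (ℓ : Nat.Primes) (c : ℤ), ¬ (ℓ : ℕ) ∣ N → qCoeff f ℓ = c → ∀ P,
        heckeOperatorBar N ℓ (Ψ P) = c • Ψ P

/-- (Quad) the Frobenius on `E[p]` -/
def QuadStmt : Prop :=
  ∀ (E : WeierstrassCurve ℚ), E.Δ ≠ 0 → ∀ W : WeierstrassCurve ℤ, W.Δ ≠ 0 →
    W.IsIntegralModelOf E → ∀ p r : ℕ, p.Prime → r.Prime → r ≠ p → W.IsGoodPrimeFor r →
    ∀ A : ValuationSubring 𝕂, A.LiesOverPrime r → ∀ σ : 𝕂 ≃ₐ[ℚ] 𝕂, A.IsFrobeniusAt σ r →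
    ∀ P : (E⁄𝕂).Point, p • P = 0 →
      σ • (σ • P) - (W.apOfModel r) • (σ • P) + (r : ℤ) • P = 0

/-- (Model) integral models exist -/
def ModelStmt : Prop :=
  ∀ (E : WeierstrassCurve ℚ), E.Δ ≠ 0 → ∃ W : WeierstrassCurve ℤ, W.Δ ≠ 0 ∧
    W.IsIntegralModelOf E

/-- (F) **Eichler–Shimura**: a normalized eigenform of weight two with integral eigenvalues is the
form of an elliptic curve over `ℚ` -/
def FinalStmt (N : ℕ) [NeZero N] : Prop :=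
  ∀ f : CuspForm (Gamma0 N) 2, f.IsNormalizedEigenform →
    (∀ ℓ : Nat.Primes, ∃ c : ℤ, qCoeff f ℓ = c) →
    ∃ W : WeierstrassCurve ℤ, W.Δ ≠ 0 ∧ ∀ r : ℕ, r.Prime → W.IsGoodPrimeFor r → ¬ r ∣ N →
      qCoeff f r = W.apOfModel r

/-- (F') -/
def AssemblyStmt (N : ℕ) [NeZero N] : Prop :=
  DatStmt N → PsiStmt N → QuadStmt → ModelStmt → FinalStmt N

end Fermat.Agent.Cor.ES
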