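import Fermat.Agent.Corollaries.ES.Defs2

/-!
# Eichler–Shimura, (S3): the function with divisor `n (P) - n (O)` of a torsion point `P`

`n P = 0` makes the ideal `I ^ n`, `I = (X - x₀, Y - y₀)`, of the affine coordinate ring principal,
`= (p + q Y)`; the involution `Y ↦ -Y` and `I I' = (X - x₀)` give the norm of `p + q Y`.
-/

set_option autoImplicit false

noncomputable section

namespace Fermat.Agent.Cor.ES

namespace DivF

open WeierstrassCurve.Affine Polynomial
open WeierstrassCurve.Affine.CoordinateRing (XYIdeal XIdeal XClass YClass)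

variable {F : Type} [Field F] (a b : F)

/-- the affine coordinate ring -/
abbrev A : Type := (Wc a b).toAffine.CoordinateRing

theorem cubic_eq : (X ^ 3 + C (-a / 4) * X + C (-b / 4) : F[X]) =
    X ^ 3 - C (a / 4) * X - C (b / 4) := by
  rw [neg_div, neg_div, C_neg, C_neg]
  ring

theorem eval₂_poly {S : Type*} [CommRing S] (i : F[X] →+* S) (y : S) :
    (Wc a b).toAffine.polynomial.eval₂ i y =
      y ^ 2 - i (X ^ 3 - C (a / 4) * X - C (b / 4)) := by
  rw [← cubic_eq]
  simp only [WeierstrassCurve.Affine.polynomial, WeierstrassCurve.toAffine, Wc]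
  simp [eval₂_add, eval₂_sub, eval₂_mul, eval₂_pow]

/-- `p + q Y` -/
def el (p q : F[X]) : A a b := p • (1 : A a b) + q • CoordinateRing.mk (Wc a b).toAffine X

/-- the inclusion of `F[X]` -/
def of : F[X] →+* A a b := AdjoinRoot.of (Wc a b).toAffine.polynomial

/-- `Y` -/
def rt : A a b := AdjoinRoot.root (Wc a b).toAffine.polynomial

theorem el_eq (p q : F[X]) : el a b p q = of a b p + of a b q * rt a b := by
  rw [el, CoordinateRing.smul, CoordinateRing.smul, mul_one]
  rfl

theorem rt_sq : rt a b ^ 2 = of a b (X ^ 3 - C (a / 4) * X - C (b / 4)) := by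
  have h := AdjoinRoot.eval₂_root (Wc a b).toAffine.polynomial
  rw [eval₂_poly] at h
  exact sub_eq_zero.mp h

/-- `Y ↦ -Y` -/
def inv : A a b →+* A a b :=
  AdjoinRoot.lift (of a b) (-rt a b) (by
    rw [eval₂_poly, neg_sq, rt_sq, sub_self])

theorem inv_of (p : F[X]) : inv a b (of a b p) = of a b p := AdjoinRoot.lift_of _

theorem inv_rt : inv a b (rt a b) = -rt a b := AdjoinRoot.lift_root _

theorem inv_el (p q : F[X]) : inv a b (el a b p q) = el a b p (-q) := by
  rw [el_eq, el_eq, map_add, map_mul, inv_of, inv_of, inv_rt, map_neg]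
  ring

theorem el_mul_inv (p q : F[X]) : el a b p q * inv a b (el a b p q) =
    of a b (p ^ 2 - q ^ 2 * (X ^ 3 - C (a / 4) * X - C (b / 4))) := by
  rw [inv_el, el_eq, el_eq, map_sub, map_mul, map_pow, map_pow, ← rt_sq, map_neg]
  ring

/-- evaluation at a point -/
def ev {x y : F} (h : (Wc a b).toAffine.Equation x y) : A a b →+* F :=
  AdjoinRoot.lift (evalRingHom x) y (by
    rw [eval₂_poly]
    have h1 := (WeierstrassCurve.Affine.equation_iff _ _).mp h
    simp only [WeierstrassCurve.toAffine, Wc] at h1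
    simp only [coe_evalRingHom, eval_sub, eval_pow, eval_X, eval_mul, eval_C]
    linear_combination h1)

theorem ev_of {x y : F} (h : (Wc a b).toAffine.Equation x y) (p : F[X]) :
    ev a b h (of a b p) = p.eval x := AdjoinRoot.lift_of _

theorem ev_rt {x y : F} (h : (Wc a b).toAffine.Equation x y) :
    ev a b h (rt a b) = y := AdjoinRoot.lift_root _

theorem ev_el {x y : F} (h : (Wc a b).toAffine.Equation x y) (p q : F[X]) :
    ev a b h (el a b p q) = p.eval x + q.eval x * y := by
  rw [el_eq, map_add, map_mul, ev_of, ev_of, ev_rt]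

theorem XClass_eq (x : F) : XClass (Wc a b).toAffine x = of a b (X - C x) := rfl

theorem YClass_eq (y : F) : YClass (Wc a b).toAffine (C y) = rt a b - of a b (C y) := by
  rw [YClass, map_sub]
  rfl

/-- divisibility in `F[X]` -/
theorem dvd_of_of_dvd {M N : F[X]} (h : of a b N ∣ of a b M) : N ∣ M := by
  obtain ⟨g, hg⟩ := h
  obtain ⟨u, v, huv⟩ := CoordinateRing.exists_smul_basis_eq g
  have h1 : (M - N * u) • (1 : A a b) + (-(N * v)) • CoordinateRing.mk (Wc a b).toAffine X = 0 := by
    change el a b (M - N * u) (-(N * v)) = 0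
    have h2 : g = el a b u v := huv.symm
    rw [h2, el_eq] at hg
    rw [el_eq, map_sub, map_mul, map_neg, map_mul]
    linear_combination hg
  obtain ⟨h2, -⟩ := CoordinateRing.smul_basis_eq_zero h1
  exact ⟨u, by linear_combination h2⟩

end DivF

open DivF Polynomial WeierstrassCurve.Affine in
open WeierstrassCurve.Affine.CoordinateRing (XYIdeal XIdeal XClass YClass) in
theorem divStmt : DivStmt := by
  intro F _ _ _ a b n hn hΔ x₀ y₀ h hy0 hP
  -- `I ^ n` is principal
  obtain ⟨f, hf0, hf⟩ : ∃ f : A a b, f ≠ 0 ∧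
      XYIdeal (Wc a b).toAffine x₀ (C y₀) ^ n = Ideal.span {f} := by
    have h1 := congrArg (Point.toClass (W := (Wc a b).toAffine)) hP
    rw [map_nsmul, map_zero, Point.toClass_some] at h1
    have h2 : ClassGroup.mk (Wc a b).toAffine.FunctionField
        ((CoordinateRing.XYIdeal' (W := (Wc a b).toAffine) h) ^ n) = 1 := by
      rw [map_pow]
      exact h1
    refine (ClassGroup.mk_eq_one_of_coe_ideal ?_).mp h2
    rw [Units.val_pow_eq_pow_val, CoordinateRing.XYIdeal'_eq, FractionalIdeal.coeIdeal_pow]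
  obtain ⟨p, q, hpq⟩ := CoordinateRing.exists_smul_basis_eq f
  have hfe : f = el a b p q := hpq.symm
  have hneg : (Wc a b).toAffine.Equation x₀ (-y₀) := by
    have h1 := (WeierstrassCurve.Affine.equation_iff _ _).mp h.left
    refine (WeierstrassCurve.Affine.equation_iff _ _).mpr ?_
    simp only [WeierstrassCurve.toAffine, Wc] at h1 ⊢
    linear_combination h1
  -- the conjugate ideal
  have hmap : (XYIdeal (Wc a b).toAffine x₀ (C y₀)).map (inv a b) =
      XYIdeal (Wc a b).toAffine x₀ (C ((Wc a b).toAffine.negY x₀ y₀)) := by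
    have h1 : (Wc a b).toAffine.negY x₀ y₀ = -y₀ := by
      simp [WeierstrassCurve.Affine.negY, WeierstrassCurve.toAffine, Wc]
    rw [h1, XYIdeal, XYIdeal, Ideal.map_span, Set.image_pair, XClass_eq, YClass_eq, YClass_eq,
      inv_of, map_sub (inv a b), inv_rt, inv_of]
    have h2 : -rt a b - of a b (C y₀) = -(rt a b - of a b (C (-y₀))) := by
      rw [C_neg, map_neg]
      ring
    rw [h2, Ideal.span_insert, Ideal.span_insert, Ideal.span_singleton_neg]
  have hprod : Ideal.span {of a b (p ^ 2 - q ^ 2 * (X ^ 3 - C (a / 4) * X - C (b / 4)))} =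
      Ideal.span {of a b ((X - C x₀) ^ n)} := by
    rw [← el_mul_inv, ← hfe, ← Ideal.span_singleton_mul_span_singleton, ← hf,
      ← Set.image_singleton, ← Ideal.map_span, ← hf, Ideal.map_pow, hmap, ← mul_pow, mul_comm,
      CoordinateRing.XYIdeal_neg_mul h, XIdeal, Ideal.span_singleton_pow, XClass_eq, map_pow]
  rw [Ideal.span_singleton_eq_span_singleton] at hprod
  have hass : Associated ((X - C x₀) ^ n)
      (p ^ 2 - q ^ 2 * (X ^ 3 - C (a / 4) * X - C (b / 4))) :=
    associated_of_dvd_dvd (dvd_of_of_dvd a b hprod.dvd') (dvd_of_of_dvd a b hprod.dvd)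
  refine ⟨p, q, ?_, ?_, ?_⟩
  · obtain ⟨u, hu⟩ := hass
    obtain ⟨c, hc, hcu⟩ := Polynomial.isUnit_iff.mp u.isUnit
    exact ⟨c, hc.ne_zero, by rw [← hu, ← hcu, mul_comm]⟩
  · -- `f` vanishes at the point
    have h1 : f ∈ XYIdeal (Wc a b).toAffine x₀ (C y₀) :=
      Ideal.pow_le_self hn (hf ▸ Ideal.mem_span_singleton_self f)
    have h2 : XYIdeal (Wc a b).toAffine x₀ (C y₀) ≤ RingHom.ker (ev a b h.left) := by
      rw [XYIdeal, Ideal.span_le]
      rintro z (rfl | rfl)
      · rw [SetLike.mem_coe, RingHom.mem_ker, XClass_eq, ev_of]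
        simp
      · rw [SetLike.mem_coe, RingHom.mem_ker, YClass_eq, map_sub, ev_rt, ev_of]
        simp
    have h3 := (RingHom.mem_ker).mp (h2 h1)
    rwa [hfe, ev_el] at h3
  · intro h1
    have h2 : ev a b hneg f = 0 := by
      rw [hfe, ev_el]
      linear_combination h1
    have h3 : (rt a b - of a b (C y₀)) ^ n ∈ Ideal.span {f} := by
      rw [← hf]
      refine Ideal.pow_mem_pow ?_ n
      rw [← YClass_eq]
      exact Ideal.subset_span (Set.mem_insert_of_mem _ rfl)
    obtain ⟨g, hg⟩ := Ideal.mem_span_singleton.mp h3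
    have h4 := congrArg (ev a b hneg) hg
    rw [map_mul, h2, zero_mul, map_pow, map_sub, ev_rt, ev_of, eval_C] at h4
    have h5 := pow_eq_zero_iff hn |>.mp h4
    have h6 : (2 : F) * y₀ = 0 := by linear_combination -h5
    rcases mul_eq_zero.mp h6 with h7 | h7
    · exact two_ne_zero h7
    · exact hy0 h7

end Fermat.Agent.Cor.ES
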