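import Fermat.Agent.Corollaries.ES.Defs2

/-!
# Eichler–Shimura, (S8): the Hecke operators on additive functions of the periods
-/

set_option autoImplicit false

open UpperHalfPlane CongruenceSubgroup ModularFormClass
open scoped MatrixGroups Manifold ModularForm PeriodPair

noncomputable section

namespace Fermat.Agent.Cor.ES

open Fermat.Agent.ModFun Fermat.Agent.X0Emb Fermat.Agent.Cor.HW.Per ModularCurve
open Fermat.Agent.GalRep ModularCurve.Period Fermat.Agent.HeckePar
open Fermat.Agent.S41aux (heckeC)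

theorem heckeStmt (N : ℕ) [NeZero N] : HeckeStmt N := by
  intro f hf ℓ a ha L hL b hb φ hφ
  have : Fact (ℓ : ℕ).Prime := ⟨ℓ.2⟩
  -- `b` on the lattice and `om f` with values in the lattice
  let bL : L.lattice →+ ℤ := AddMonoidHom.mk' (fun l => b l) fun l m => hb l l.2 m m.2
  let omL : Additive (Gamma0 N) →+ L.lattice :=
    (om f).codRestrict L.lattice.toAddSubgroup hL
  have h1 : (φ : Additive (Gamma0 N) →+ ℤ) = bL.comp omL := AddMonoidHom.ext fun γ => hφ γ
  have h2 : (heckeSys N (ℓ : ℕ)).addTransfer omL = a • omL := by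
    have h3 : L.lattice.toAddSubgroup.subtype.comp ((heckeSys N (ℓ : ℕ)).addTransfer omL) =
        L.lattice.toAddSubgroup.subtype.comp (a • omL) := by
      have h4 : (heckeSys N (ℓ : ℕ)).addTransfer (L.lattice.toAddSubgroup.subtype.comp omL) =
          L.lattice.toAddSubgroup.subtype.comp ((heckeSys N (ℓ : ℕ)).addTransfer omL) :=
        (heckeSys N (ℓ : ℕ)).addTransfer_comp _ omL
      have h5 : L.lattice.toAddSubgroup.subtype.comp omL = om f := AddMonoidHom.ext fun _ => rfl
      have h6 : heckeC N ℓ (om f) = qCoeff f ℓ • om f := by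
        rw [om, map_smul, heckeC_periodLin hf, smul_comm]
      have h7 : (heckeSys N (ℓ : ℕ)).addTransfer (om f) = qCoeff f ℓ • om f := h6
      rw [← h4, h5, h7, ha]
      refine AddMonoidHom.ext fun γ => ?_
      change (a : ℂ) * om f γ = ((a • omL γ : L.lattice) : ℂ)
      rw [Submodule.coe_smul, zsmul_eq_mul]
      rfl
    refine AddMonoidHom.ext fun γ => Subtype.ext ?_
    exact DFunLike.congr_fun h3 γ
  apply Subtype.ext
  rw [coe_opPar, h1]
  have h8 : (heckeSys N (ℓ : ℕ)).addTransfer (bL.comp omL) =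
      bL.comp ((heckeSys N (ℓ : ℕ)).addTransfer omL) :=
    (heckeSys N (ℓ : ℕ)).addTransfer_comp bL omL
  refine AddMonoidHom.ext fun γ => ?_
  have h9 := DFunLike.congr_fun h8 γ
  rw [h2] at h9
  refine h9.trans ?_
  change bL (a • omL γ) = a • (φ : Additive (Gamma0 N) →+ ℤ) γ
  rw [map_zsmul, h1]
  rfl

end Fermat.Agent.Cor.ES
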