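import Fermat.Agent.Corollaries.ES.Defs3
import Fermat.Agent.Corollaries.ES.Hecke

/-!
# The curve of an eigenform in `J₀(N)`
-/

set_option autoImplicit false

open UpperHalfPlane CongruenceSubgroup ModularFormClass
open scoped MatrixGroups Manifold ModularForm PeriodPair WeierstrassCurve.Affine

noncomputable section

namespace Fermat.Agent.Cor.ES

open Fermat.Agent.ModFun Fermat.Agent.X0Emb Fermat.Agent.Cor.HW.Per ModularCurve
open Fermat.Agent.GalRep ModularCurve.Period Fermat.Agent.HeckePar AlgebraicCurve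

local notation "𝕂" => AlgebraicClosure ℚ

theorem transport {W W' : WeierstrassCurve.Affine 𝕂} (hW : W = W') {x y : 𝕂}
    (h : W.Nonsingular x y) {n : ℕ}
    (hn : n • (WeierstrassCurve.Affine.Point.some x y h : W.Point) = 0) :
    ∃ h' : W'.Nonsingular x y,
      n • (WeierstrassCurve.Affine.Point.some x y h' : W'.Point) = 0 := by
  subst hW
  exact ⟨h, hn⟩

theorem baseChange_Wc (a b : ℚ) :
    ((Wc a b : WeierstrassCurve ℚ)⁄(AlgebraicClosure ℚ)) = (Wc (a : 𝕂) (b : 𝕂)).toAffine := by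
  have : (Wc a b : WeierstrassCurve ℚ).map (algebraMap ℚ 𝕂) = Wc (a : 𝕂) (b : 𝕂) := by
    ext <;> simp [Wc]
  exact this

variable {N : ℕ} [NeZero N] {f : CuspForm (Gamma0 N) 2} {L : PeriodPair} {a b : ℚ}
  {x y : modularFunctionFieldBar N} {S α β : ℂ → ℂ} {B : ℂ → ℂ → ℤ}

theorem Dat.mem (D : Dat f L a b x y S α β B) (γ : Additive (Gamma0 N)) :
    om f γ ∈ L.lattice := (D.lat _).mpr ⟨γ, rfl⟩

theorem Dat.B_zero_right (D : Dat f L a b x y S α β B) {μ : ℂ} (hμ : μ ∈ L.lattice) :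
    B μ 0 = 0 := by
  have h := D.sig.add_right 0 L.lattice.zero_mem 0 L.lattice.zero_mem μ hμ
  rw [add_zero] at h
  omega

/-- the homomorphism `γ ↦ B(μ, om f γ)` -/
def ph (D : Dat f L a b x y S α β B) (μ : L.lattice) : parabolicHoms ℤ (Gamma0 N) ℤ :=
  ⟨AddMonoidHom.mk' (fun γ => B μ (om f γ)) fun γ δ => by
    rw [map_add, D.sig.add_right _ (D.mem γ) _ (D.mem δ) _ μ.2], fun γ hγ => by
    have h := isParabolicHom_periodLin f γ hγ
    have h2 : om f (Additive.ofMul γ) = 0 := by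
      rw [om, AddMonoidHom.smul_apply, h, _root_.smul_zero]
    change B μ (om f (Additive.ofMul γ)) = 0
    rw [h2, D.B_zero_right μ.2]⟩

theorem ph_apply (D : Dat f L a b x y S α β B) (μ : L.lattice) (γ : Additive (Gamma0 N)) :
    (ph D μ : Additive (Gamma0 N) →+ ℤ) γ = B μ (om f γ) := rfl

theorem ph_add (D : Dat f L a b x y S α β B) (μ ν : L.lattice) :
    ph D (μ + ν) = ph D μ + ph D ν := by
  apply Subtype.ext
  refine AddMonoidHom.ext fun γ => ?_
  exact D.sig.add_left μ μ.2 ν ν.2 _ (D.mem γ)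

/-- `μ ↦ jMap φ_μ` -/
def Jm (D : Dat f L a b x y S α β B) {n : ℕ} (hn : n ≠ 0) : L.lattice →+ JZero N :=
  (jMap N n hn).comp (AddMonoidHom.mk' (ph D) (ph_add D))

theorem Jm_apply (D : Dat f L a b x y S α β B) {n : ℕ} (hn : n ≠ 0) (μ : L.lattice) :
    Jm D hn μ = jMap N n hn (ph D μ) := rfl

theorem Jm_eq_zero_iff (D : Dat f L a b x y S α β B) {n : ℕ} (hn : n ≠ 0) (μ : L.lattice) :
    Jm D hn μ = 0 ↔ (μ : ℂ) / n ∈ L.lattice := by
  have hn' : (n : ℂ) ≠ 0 := Nat.cast_ne_zero.mpr hn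
  constructor
  · intro h
    rw [Jm_apply, jMap_eq_zero_iff] at h
    obtain ⟨ψ, hψ⟩ := h
    obtain ⟨k, hk, hk2⟩ := D.sig.unimod n μ μ.2 (fun l hl => by
      obtain ⟨γ, rfl⟩ := (D.lat l).mp hl
      have h2 := DFunLike.congr_fun (congrArg Subtype.val hψ) γ
      rw [ph_apply] at h2
      rw [h2]
      exact ⟨(ψ : Additive (Gamma0 N) →+ ℤ) γ, rfl⟩)
    rw [hk2]
    push_cast
    rwa [mul_div_cancel_left₀ _ hn']
  · intro h
    have h2 : μ = n • (⟨(μ : ℂ) / n, h⟩ : L.lattice) := by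
      apply Subtype.ext
      rw [Submodule.coe_smul_of_tower, nsmul_eq_mul, mul_div_cancel₀ _ hn']
    rw [h2, map_nsmul, Jm_apply, nsmul_jMap]

theorem psiStmt_of (hTor : TorStmt) (hGal : GalStmt N) : PsiStmt N := by
  intro f L a b x y S α β B D n hodd
  have hn : n ≠ 0 := by
    rintro rfl
    exact (by decide : ¬ Odd 0) hodd
  obtain ⟨Θ, -, hsur, hker, hco⟩ := hTor L a b D.g₂ D.g₃ D.disc n hn
  choose m hm using hsur
  have hwd : ∀ μ ν : L.lattice, Θ μ = Θ ν → Jm D hn μ = Jm D hn ν := by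
    intro μ ν h
    rw [← sub_eq_zero, ← map_sub, hker] at h
    rw [← sub_eq_zero, ← map_sub, Jm_eq_zero_iff D hn]
    exact h
  refine ⟨fun P => Jm D hn (m P.1 P.2), fun P => nsmul_jMap hn _, ?_, ?_, ?_, ?_⟩
  · intro P hP h
    rw [Jm_eq_zero_iff D hn, ← hker, hm] at h
    exact h
  · intro P Q hP hQ hPQ
    change Jm D hn (m (P + Q) hPQ) = Jm D hn (m P hP) + Jm D hn (m Q hQ)
    rw [← map_add]
    refine hwd _ _ ?_
    rw [map_add, hm, hm, hm]
  · intro σ P hP hσ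
    change Jm D hn (m (σ • P) hσ) = σ • Jm D hn (m P hP)
    rcases eq_or_ne P 0 with rfl | hP0
    · have h1 : Jm D hn (m 0 hP) = 0 := by
        rw [Jm_eq_zero_iff D hn, ← hker, hm]
      have h2 : Jm D hn (m (σ • 0) hσ) = 0 := by
        rw [Jm_eq_zero_iff D hn, ← hker, hm]
        rfl
      rw [h1, h2]
      exact (_root_.smul_zero (A := JZero N) σ).symm
    · have hσP0 : σ • P ≠ 0 := fun h => hP0 ((smul_eq_zero_iff_eq σ).mp h)
      have h1 : ((m P hP : L.lattice) : ℂ) / n ∉ L.lattice := by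
        rw [← hker, hm]
        exact hP0
      have h2 : ((m (σ • P) hσ : L.lattice) : ℂ) / n ∉ L.lattice := by
        rw [← hker, hm]
        exact hσP0
      obtain ⟨x₀, y₀, h₀, e₀, ex₀, ey₀⟩ := hco _ h1
      obtain ⟨x₁, y₁, h₁, e₁, ex₁, ey₁⟩ := hco _ h2
      rw [hm] at e₀ e₁
      have e₂ : WeierstrassCurve.Affine.Point.map σ.toAlgHom P = .some x₁ y₁ h₁ := e₁
      have e₃ := e₂
      rw [e₀, WeierstrassCurve.Affine.Point.map_some] at e₃
      obtain ⟨ex, ey⟩ := WeierstrassCurve.Affine.Point.some.inj e₃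
      have hy₀ : y₀ ≠ 0 := by
        intro h0
        have h3 : -P = P := by
          rw [e₀, WeierstrassCurve.Affine.Point.neg_some]
          congr 1
          simp [WeierstrassCurve.Affine.negY, Wc, h0]
        obtain ⟨k, hk⟩ := hodd
        have h4 : P + P = 0 := by
          nth_rewrite 1 [← h3]
          exact neg_add_cancel P
        rw [hk, add_nsmul, one_nsmul, mul_comm, mul_nsmul, two_nsmul, ← add_nsmul, ← two_mul,
          mul_nsmul, two_nsmul, h4, nsmul_zero, zero_add] at hP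
        exact hP0 hP
      obtain ⟨h', hn'⟩ := transport (baseChange_Wc a b) h₀ (n := n) (by
        rw [← e₀]
        exact hP)
      exact (hGal f L a b x y S α β B D n hn _ _ (m P hP).2 (m (σ • P) hσ).2 h1 h2 x₀ y₀ h' hy₀
        hn' ex₀ ey₀ σ (by rw [← ex₁, ← ex]; rfl) (by rw [← ey₁, ← ey]; rfl) (ph D _) (ph D _) (fun γ => rfl) (fun γ => rfl)).symm
  · intro ℓ c hℓ hc P
    change heckeOperatorBar N ℓ (Jm D hn (m P.1 P.2)) = c • Jm D hn (m P.1 P.2)
    rw [Jm_apply, heckeOperatorBar_jMap hn ℓ hℓ]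
    rw [heckeStmt N f D.hf ℓ c hc L D.mem (fun z => B (m P.1 P.2) z)
      (fun l hl k hk => D.sig.add_right l hl k hk _ (m P.1 P.2).2) (ph D _) (fun γ => rfl)]
    rw [map_zsmul]

end Fermat.Agent.Cor.ES
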