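import Fermat.Agent.Corollaries.ES.Defs3
import Fermat.Agent.Corollaries.ES.Psi
import Fermat.Agent.Corollaries.MinModel
import Fermat.Agent.Torsion.FiniteLevel

/-!
# Eichler–Shimura: assembly
-/

set_option autoImplicit false

open UpperHalfPlane CongruenceSubgroup ModularFormClass
open scoped MatrixGroups Manifold ModularForm PeriodPair WeierstrassCurve.Affine

noncomputable section

namespace Fermat.Agent.Cor.ES

open Fermat.Agent.ModFun Fermat.Agent.X0Emb Fermat.Agent.Cor.HW.Per ModularCurve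
open Fermat.Agent.GalRep ModularCurve.Period Fermat.Agent.HeckePar AlgebraicCurve

local notation "𝕂" => AlgebraicClosure ℚ

theorem modelStmt : ModelStmt := by
  intro E hE
  obtain ⟨W, hW, hΔ, -⟩ := Fermat.Agent.Cor.MinModel.exists_globalMinimal E hE
  exact ⟨W, hΔ, hW⟩

variable {N : ℕ} [NeZero N]

/-- the congruence modulo one odd prime -/
theorem dvd_sub (hPsi : PsiStmt N) (hQuad : QuadStmt) {f : CuspForm (Gamma0 N) 2}
    {L : PeriodPair} {a b : ℚ} {x y : modularFunctionFieldBar N} {S α β : ℂ → ℂ} {B : ℂ → ℂ → ℤ}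
    (D : Dat f L a b x y S α β B) {W : WeierstrassCurve ℤ} (hΔ : W.Δ ≠ 0)
    (hW : W.IsIntegralModelOf (Wc a b)) {r : ℕ} (hr : r.Prime) (hg : W.IsGoodPrimeFor r)
    (hrN : ¬ r ∣ N) {c : ℤ} (hc : qCoeff f r = c) {p : ℕ} (hp : p.Prime) (hp2 : p ≠ 2)
    (hpr : r ≠ p) : (p : ℤ) ∣ c - W.apOfModel r := by
  have hodd : Odd p := hp.odd_of_ne_two hp2
  obtain ⟨Ψ, hΨn, hΨ0, hΨa, hΨg, hΨh⟩ := hPsi f L a b x y S α β B D p hodd
  obtain ⟨A, hA, σ, hσ⟩ := Frob.exists_frobenius r hr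
  -- a nontrivial torsion point
  have hcard := Fermat.Agent.Torsion.card_torsionBy_rat (W := Wc a b) D.disc hp.ne_zero
  obtain ⟨P, hP, hP0⟩ : ∃ P : Pts a b, p • P = 0 ∧ P ≠ 0 := by
    by_contra hcon
    push Not at hcon
    have h1 : ∀ Q : Submodule.torsionBy ℤ (Pts a b) (p : ℤ), Q = 0 := by
      intro Q
      apply Subtype.ext
      refine hcon Q.1 ?_
      have := Q.2
      rw [Submodule.mem_torsionBy_iff, natCast_zsmul] at this
      exact this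
    have h2 : Nat.card (Submodule.torsionBy ℤ (Pts a b) (p : ℤ)) = 1 := by
      rw [Nat.card_eq_one_iff_unique]
      exact ⟨⟨fun u v => (h1 u).trans (h1 v).symm⟩, ⟨0⟩⟩
    rw [hcard] at h2
    have := hp.one_lt
    nlinarith
  have tor : ∀ {Q : Pts a b}, p • Q = 0 → ∀ τ : 𝕂 ≃ₐ[ℚ] 𝕂, p • (τ • Q) = 0 := by
    intro Q hQ τ
    have h := WeierstrassCurve.Affine.Point.algEquiv_smul_zsmul (W' := (Wc a b).toAffine) τ p Q
    rw [natCast_zsmul, hQ, natCast_zsmul] at h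
    rw [← h]
    exact smul_zero (A := Pts a b) τ
  have hσP := tor hP σ
  have hσσP := tor hσP σ
  -- `Ψ` of integral multiples
  have hΨ00 : ∀ h : p • (0 : Pts a b) = 0, Ψ ⟨0, h⟩ = 0 := by
    intro h
    have h1 := hΨa 0 0 h h (by rw [add_zero]; exact h)
    have h2 : (⟨(0 : Pts a b) + 0, by rw [add_zero]; exact h⟩ : {P : Pts a b // p • P = 0}) =
        ⟨0, h⟩ := Subtype.ext (add_zero 0)
    rw [h2] at h1
    exact left_eq_add.mp h1
  let T : AddSubgroup (Pts a b) := (nsmulAddMonoidHom p : Pts a b →+ Pts a b).ker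
  let ΨT : T →+ JZero N :=
    { toFun := fun P => Ψ ⟨P.1, P.2⟩
      map_zero' := hΨ00 _
      map_add' := fun P Q => hΨa P.1 Q.1 P.2 Q.2 _ }
  let P₀ : T := ⟨P, hP⟩
  let P₁ : T := ⟨σ • P, hσP⟩
  let P₂ : T := ⟨σ • (σ • P), hσσP⟩
  have i1 : ΨT P₁ = σ • ΨT P₀ := hΨg σ P hP hσP
  have i2 : ΨT P₂ = σ • ΨT P₁ := hΨg σ (σ • P) hσP hσσP
  have hquad := hQuad (Wc a b) D.disc W hΔ hW p r hp hr hpr hg A hA σ hσ P hP
  have hquad' : P₂ - (W.apOfModel r) • P₁ + (r : ℤ) • P₀ = 0 := Subtype.ext hquad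
  have hfrob := Fermat.Agent.LTF.BLR.frob_quadratic (N := N) p hr
    (fun h => (hr.dvd_mul.mp h).elim hrN fun h' =>
      hpr ((Nat.prime_dvd_prime_iff_eq hr hp).mp h')) hA hσ (x := ΨT P₀) (n := 1) (by
        rw [pow_one]
        exact hΨn _)
  rw [← i1, ← i2] at hfrob
  have hhecke : heckeOperatorBar N ⟨r, hr⟩ (ΨT P₁) = c • ΨT P₁ :=
    hΨh ⟨r, hr⟩ c hrN hc ⟨σ • P, hσP⟩
  rw [hhecke, ← map_zsmul, ← natCast_zsmul (ΨT P₀) r, ← map_zsmul, ← map_sub, ← map_add] at hfrob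
  have h3 : P₂ - c • P₁ + (r : ℤ) • P₀ = 0 := by
    apply Subtype.ext
    exact hΨ0 _ (P₂ - c • P₁ + (r : ℤ) • P₀).2 hfrob
  have h4 : (c - W.apOfModel r) • P₁ = 0 := by
    rw [sub_smul]
    have h5 : c • P₁ - W.apOfModel r • P₁ =
        (P₂ - (W.apOfModel r) • P₁ + (r : ℤ) • P₀) - (P₂ - c • P₁ + (r : ℤ) • P₀) := by abel
    rw [h5, hquad', h3, sub_zero]
  have h5 : P₁ ≠ 0 := by
    intro h
    have h6 : σ • P = 0 := congrArg Subtype.val h
    exact hP0 ((smul_eq_zero_iff_eq σ).mp h6)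
  have h6 : p • P₁ = 0 := Subtype.ext hσP
  by_contra hnd
  have hcop : IsCoprime (p : ℤ) (c - W.apOfModel r) :=
    (Int.isCoprime_iff_gcd_eq_one.mpr
      ((Nat.Prime.coprime_iff_not_dvd hp).mpr fun h => hnd (Int.natCast_dvd.mpr h)))
  obtain ⟨u, v, huv⟩ := hcop
  apply h5
  have h7 : P₁ = (u * p + v * (c - W.apOfModel r)) • P₁ := by rw [huv, one_smul]
  rw [h7, add_smul, mul_smul, mul_smul, h4, natCast_zsmul, h6, smul_zero, smul_zero, add_zero]

/-- the eigenvalues of `f` are the traces of Frobenius of the curve -/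
theorem coeff_eq (hPsi : PsiStmt N) (hQuad : QuadStmt) {f : CuspForm (Gamma0 N) 2}
    {L : PeriodPair} {a b : ℚ} {x y : modularFunctionFieldBar N} {S α β : ℂ → ℂ} {B : ℂ → ℂ → ℤ}
    (D : Dat f L a b x y S α β B) {W : WeierstrassCurve ℤ}
    (hW : W.IsIntegralModelOf (Wc a b)) {r : ℕ} (hr : r.Prime) (hg : W.IsGoodPrimeFor r)
    (hrN : ¬ r ∣ N) : qCoeff f r = W.apOfModel r := by
  obtain ⟨c, hc⟩ := D.int ⟨r, hr⟩
  change qCoeff f r = c at hc
  have hΔ : W.Δ ≠ 0 := Fermat.Agent.Cor.MinModel.Δ_ne_zero_of_model D.disc hW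
  obtain ⟨p, hple, hp⟩ := Nat.exists_infinite_primes (r + 3 + (c - W.apOfModel r).natAbs)
  have h1 := dvd_sub hPsi hQuad D hΔ hW hr hg hrN hc hp (by omega) (by omega)
  have h2 := Int.eq_zero_of_abs_lt_dvd h1 (by rw [Int.abs_eq_natAbs]; omega)
  rw [hc, sub_eq_zero.mp h2]

theorem assembly : AssemblyStmt N := by
  intro hDat hPsi hQuad hModel f hf hint
  obtain ⟨L, a, b, x, y, S, α, β, B, D⟩ := hDat f hf hint
  obtain ⟨W, hΔ, hW⟩ := hModel (Wc a b) D.disc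
  exact ⟨W, hΔ, fun r hr hg hrN => coeff_eq hPsi hQuad D hW hr hg hrN⟩

end Fermat.Agent.Cor.ES
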