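import Fermat.Agent.Corollaries.ES.Defs3
import Fermat.Agent.Corollaries.ES.Div

/-!
# Eichler–Shimura: the Galois action on `jMap φ_μ`

The function `p(x) + q(x) y / 2` with divisor `n (P) - n (O)` of a torsion point `P` is a Kummer
function of the class `jMap φ_μ`; its conjugate belongs to `σ P`.
-/

set_option autoImplicit false

open UpperHalfPlane CongruenceSubgroup ModularFormClass
open scoped MatrixGroups Manifold ModularForm PeriodPair WeierstrassCurve.Affine

noncomputable section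

namespace Fermat.Agent.Cor.ES

open Fermat.Agent.ModFun Fermat.Agent.X0Emb Fermat.Agent.Cor.HW.Per ModularCurve
open Fermat.Agent.GalRep ModularCurve.Period Fermat.Agent.HeckePar AlgebraicCurve

local notation "𝕂" => AlgebraicClosure ℚ

/-- the conjugate of a function of a torsion point -/
theorem DivFn.conj {n : ℕ} {a b : ℚ} {x₀ y₀ : 𝕂} {p q : Polynomial 𝕂}
    (h : DivFn n (a : 𝕂) (b : 𝕂) x₀ y₀ p q) (σ : 𝕂 ≃ₐ[ℚ] 𝕂) :
    DivFn n (a : 𝕂) (b : 𝕂) (σ x₀) (σ y₀) (p.map (σ : 𝕂 →+* 𝕂)) (q.map (σ : 𝕂 →+* 𝕂)) := by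
  have ev : ∀ r : Polynomial 𝕂, (r.map (σ : 𝕂 →+* 𝕂)).eval (σ x₀) = σ (r.eval x₀) := by
    intro r
    rw [Polynomial.eval_map]
    exact Polynomial.eval₂_at_apply (σ : 𝕂 →+* 𝕂) x₀
  refine ⟨?_, ?_, ?_⟩
  · obtain ⟨c, hc, h1⟩ := h.norm
    refine ⟨σ c, (map_ne_zero σ).mpr hc, ?_⟩
    have h2 := congrArg (Polynomial.map (σ : 𝕂 →+* 𝕂)) h1
    have ea : (σ : 𝕂 →+* 𝕂) ((a : 𝕂) / 4) = (a : 𝕂) / 4 := by
      rw [map_div₀, map_ratCast, map_ofNat]
    have eb : (σ : 𝕂 →+* 𝕂) ((b : 𝕂) / 4) = (b : 𝕂) / 4 := by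
      rw [map_div₀, map_ratCast, map_ofNat]
    simp only [Polynomial.map_sub, Polynomial.map_mul, Polynomial.map_pow, Polynomial.map_X,
      Polynomial.map_C, ea, eb] at h2
    exact h2
  · rw [ev, ev, ← map_mul, ← map_add, h.vanish, map_zero]
  · rw [ev, ev, ← map_mul, ← map_sub]
    exact (map_ne_zero σ).mpr h.nonvanish

variable {N : ℕ} [NeZero N]

omit [NeZero N] in
theorem arithmeticGalois_smul_aeval (σ : 𝕂 ≃ₐ[ℚ] 𝕂) (x : modularFunctionFieldBar N)
    (p : Polynomial 𝕂) :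
    arithmeticGalois (modularFunctionFieldFull N) σ • (Polynomial.aeval x p) =
      Polynomial.aeval (arithmeticGalois (modularFunctionFieldFull N) σ • x)
        (p.map (σ : 𝕂 →+* 𝕂)) := by
  change arithmeticRingAut (modularFunctionFieldFull N) σ (Polynomial.aeval x p) =
    Polynomial.aeval (arithmeticRingAut (modularFunctionFieldFull N) σ x) (p.map (σ : 𝕂 →+* 𝕂))
  rw [Polynomial.aeval_def, Polynomial.aeval_def, Polynomial.eval₂_map]
  have h := Polynomial.hom_eval₂ p (algebraMap 𝕂 (modularFunctionFieldBar N))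
    (arithmeticRingAut (modularFunctionFieldFull N) σ : modularFunctionFieldBar N →+*
      modularFunctionFieldBar N) x
  refine h.trans ?_
  congr 1
  refine RingHom.ext fun c => ?_
  exact arithmeticRingAut_algebraMap (modularFunctionFieldFull N) σ c

theorem galStmt_of (hKum : KumStmt N) : GalStmt N := by
  intro f L a b x y S α β B D n hn μ μ' hμ hμ' hμn hμn' x₀ y₀ h hy₀ htor ex ey σ ex' ey' φ φ'
    hφ hφ'
  have hΔ : (Wc (a : 𝕂) (b : 𝕂)).Δ ≠ 0 := by
    have h1 : (Wc (a : 𝕂) (b : 𝕂)).Δ = ((Wc a b : WeierstrassCurve ℚ).Δ : 𝕂) := by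
      simp only [Wc, WeierstrassCurve.Δ, WeierstrassCurve.b₂, WeierstrassCurve.b₄,
        WeierstrassCurve.b₆, WeierstrassCurve.b₈]
      push_cast
      ring
    rw [h1]
    exact_mod_cast D.disc
  obtain ⟨p, q, hpq⟩ := divStmt 𝕂 (a : 𝕂) (b : 𝕂) n hn hΔ x₀ y₀ h hy₀ htor
  have h1 := hKum f L a b x y S α β B D n hn μ hμ hμn x₀ y₀ hy₀ ex ey p q hpq φ hφ
  have h2 := hKum f L a b x y S α β B D n hn μ' hμ' hμn' (σ x₀) (σ y₀)
    ((map_ne_zero σ).mpr hy₀) ex' ey' _ _ (hpq.conj σ) φ' hφ'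
  have h3 := h1.smul (arithmeticGalois (modularFunctionFieldFull N) σ)
  have h4 : arithmeticGalois (modularFunctionFieldFull N) σ •
      (Polynomial.aeval x p + Polynomial.aeval x q * (y / 2)) =
      Polynomial.aeval x (p.map (σ : 𝕂 →+* 𝕂)) +
        Polynomial.aeval x (q.map (σ : 𝕂 →+* 𝕂)) * (y / 2) := by
    have e1 := arithmeticGalois_smul_aeval σ x p
    have e2 := arithmeticGalois_smul_aeval σ x q
    have e3 := D.xrat σ
    have e4 := D.yrat σ
    rw [e3] at e1 e2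
    change arithmeticRingAut (modularFunctionFieldFull N) σ
      (Polynomial.aeval x p + Polynomial.aeval x q * (y / 2)) = _
    change arithmeticRingAut (modularFunctionFieldFull N) σ (Polynomial.aeval x p) = _ at e1
    change arithmeticRingAut (modularFunctionFieldFull N) σ (Polynomial.aeval x q) = _ at e2
    change arithmeticRingAut (modularFunctionFieldFull N) σ y = _ at e4
    rw [map_add, map_mul, map_div₀, e1, e2, e4, map_ofNat]
  rw [h4] at h3
  exact IsKummer.eq_of_same hn h3 h2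

end Fermat.Agent.Cor.ES
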