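import Fermat.Agent.Corollaries.ES.Semistable
import Fermat.Agent.Corollaries.NOS.Level
import Fermat.Agent.Corollaries.NOS.Local
import Fermat.Agent.Corollaries.HW.StrongMultAp

/-!
# Good reduction outside the level

The elliptic curve `E : y² = x³ - (a/4) x - b/4` of the periods of an eigenform `f` of weight two on
`Γ₀(N)` with integral eigenvalues has good reduction at **every** prime `r ∤ N`, with
`#E(𝔽_r) = r + 1 - a_r(f)`, and no additive reduction at the primes `r` with `r² ∤ N`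
(`eichler_shimura_good`). For a semistable elliptic curve `W` of conductor `N` the curve of the
periods of its newform is semistable of conductor `N` and has the `L`-function of `W`
(`exists_companion_semistable`).
-/

set_option autoImplicit false

open UpperHalfPlane hiding I
open CongruenceSubgroup ModularFormClass
open scoped MatrixGroups Manifold ModularForm PeriodPair WeierstrassCurve.Affine

noncomputable section

namespace Fermat.Agent.Cor.ES

open Fermat.Agent.ModFun Fermat.Agent.X0Emb Fermat.Agent.Cor.HW.Per ModularCurve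
open Fermat.Agent.Cor.HW

section Good

variable {N : ℕ} [NeZero N]

/-- A global minimal equation with the eigenvalues of `f` is good outside `N`. -/
theorem good_of_isDiscMinimal {E : WeierstrassCurve ℚ} (hE : E.Δ ≠ 0) {W : WeierstrassCurve ℤ}
    (hW : MinModel.IsDiscMinimal W E) {f : CuspForm (Gamma0 N) 2} (hf : f.IsNormalizedEigenform)
    (h : ∀ r : ℕ, r.Prime → W.IsGoodPrimeFor r → ¬ r ∣ N → qCoeff f r = W.apOfModel r) {r : ℕ}
    (hr : r.Prime) (hrN : ¬ r ∣ N) : W.IsGoodPrimeFor r ∧ qCoeff f r = W.apOfModel r := by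
  have hΔ := MinModel.Δ_ne_zero_of_model hE hW.1
  have hmod : W.IsModularModelOfLevel N := ⟨f, hf, fun p hp hg hpN => h p hp hg hpN⟩
  have hg : W.IsGoodPrimeFor r := NOS.not_dvd_Δ_of_isModularModelOfLevel (NeZero.ne N) hΔ hmod hr
    (NOS.minimalAt_of_isDiscMinimal hE hW hr) hrN
  exact ⟨hg, h r hr hg hrN⟩

/-- **Eichler–Shimura with good reduction outside the level.** `L` the lattice of the periods of
`f`, `a = g₂(L)`, `b = g₃(L)`: the curve `E : y² = x³ - (a/4) x - b/4` over `ℚ` has a global minimal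
equation `W` which is good, with `a_r(f) = r + 1 - #W(𝔽_r)`, at all primes `r ∤ N`, and which is
additive at `r` only if `r²` divides `N`. -/
theorem eichler_shimura_good (f : CuspForm (Gamma0 N) 2) (hf : f.IsNormalizedEigenform)
    (ha : ∀ ℓ : Nat.Primes, ∃ c : ℤ, qCoeff f ℓ = c) :
    ∃ (L : PeriodPair) (a b : ℚ) (W : WeierstrassCurve ℤ),
      (∀ z, z ∈ L.lattice ↔ ∃ γ, om f γ = z) ∧ L.g₂ = a ∧ L.g₃ = b ∧
      (⟨0, 0, 0, -a / 4, -b / 4⟩ : WeierstrassCurve ℚ).Δ ≠ 0 ∧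
      MinModel.IsDiscMinimal W ⟨0, 0, 0, -a / 4, -b / 4⟩ ∧
      (∀ r : ℕ, r.Prime → ¬ r ∣ N → W.IsGoodPrimeFor r ∧ qCoeff f r = W.apOfModel r) ∧
      ∀ r : ℕ, r.Prime → (r : ℤ) ∣ W.Δ → (r : ℤ) ∣ W.c₄ → r ^ 2 ∣ N := by
  obtain ⟨L, a, b, hL, h2, h3, hΔ, h⟩ := eichler_shimura f hf ha
  obtain ⟨W, hW⟩ := MinModel.exists_isDiscMinimal (⟨0, 0, 0, -a / 4, -b / 4⟩ : WeierstrassCurve ℚ)
  refine ⟨L, a, b, W, hL, h2, h3, hΔ, hW,
    fun r hr hrN => good_of_isDiscMinimal hΔ hW hf (h W hW.1) hr hrN, fun r hr hd hc => ?_⟩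
  exact NOS.sq_dvd_of_isAdditiveAt (NeZero.ne N) (MinModel.Δ_ne_zero_of_model hΔ hW.1)
    ⟨f, hf, fun p hp hg hpN => h W hW.1 p hp hg hpN⟩ hr (NOS.minimalAt_of_isDiscMinimal hΔ hW hr)
    ⟨hd, hc⟩

/-- **Every eigenform with integral eigenvalues has an elliptic curve over `ℚ`**: `W` is minimal at
every prime, its discriminant has no prime factor outside `N`, and `a_r(f) = a_r(W)` for all primes
`r ∤ N`. The product of its bad primes, with the additive ones squared, divides `N`. -/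
theorem exists_curve_good (f : CuspForm (Gamma0 N) 2) (hf : f.IsNormalizedEigenform)
    (ha : ∀ ℓ : Nat.Primes, ∃ c : ℤ, qCoeff f ℓ = c) :
    ∃ W : WeierstrassCurve ℤ, W.Δ ≠ 0 ∧
      (∀ (p : ℕ) [Fact p.Prime], (W.map (Int.castRingHom ℚ_[p])).IsMinimal ℤ_[p]) ∧
      (∀ r : ℕ, r.Prime → ¬ r ∣ N → ¬ (r : ℤ) ∣ W.Δ ∧ qCoeff f r = W.apOfModel r) ∧
      ∏ q ∈ W.Δ.natAbs.primeFactors, q ^ (if (q : ℤ) ∣ W.c₄ then 2 else 1) ∣ N := by
  obtain ⟨L, a, b, W, -, -, -, hΔ, hW, hgood, -⟩ := eichler_shimura_good f hf ha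
  have hΔW := MinModel.Δ_ne_zero_of_model hΔ hW.1
  refine ⟨W, hΔW, fun p _ => hW.isMinimal hΔ, hgood, ?_⟩
  exact NOS.prod_pow_dvd_level (NeZero.ne N) hΔW ⟨f, hf, fun p hp _ hpN => (hgood p hp hpN).2⟩
    fun q hq => NOS.minimalAt_of_isDiscMinimal hΔ hW hq

/-- In Mathlib's terms: the minimal Weierstrass equation over `ℤ_r` of the curve of the periods of
`f` has good reduction for every prime `r ∤ N`, and no additive reduction unless `r² ∣ N`. -/
theorem hasGoodReduction_of_periods (f : CuspForm (Gamma0 N) 2) (hf : f.IsNormalizedEigenform)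
    (ha : ∀ ℓ : Nat.Primes, ∃ c : ℤ, qCoeff f ℓ = c) :
    ∃ (L : PeriodPair) (a b : ℚ), (∀ z, z ∈ L.lattice ↔ ∃ γ, om f γ = z) ∧ L.g₂ = a ∧ L.g₃ = b ∧
      (⟨0, 0, 0, -a / 4, -b / 4⟩ : WeierstrassCurve ℚ).Δ ≠ 0 ∧
      (∀ (r : ℕ) [Fact r.Prime], ¬ r ∣ N →
        (((⟨0, 0, 0, -a / 4, -b / 4⟩ : WeierstrassCurve ℚ).map
          (algebraMap ℚ ℚ_[r])).minimal ℤ_[r]).HasGoodReduction ℤ_[r]) ∧
      ∀ (r : ℕ) [Fact r.Prime], ¬ r ^ 2 ∣ N →
        ¬ (((⟨0, 0, 0, -a / 4, -b / 4⟩ : WeierstrassCurve ℚ).map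
          (algebraMap ℚ ℚ_[r])).minimal ℤ_[r]).HasAdditiveReduction ℤ_[r] := by
  obtain ⟨L, a, b, W, hL, h2, h3, hΔ, hW, hgood, hadd⟩ := eichler_shimura_good f hf ha
  refine ⟨L, a, b, hL, h2, h3, hΔ, fun r hr hrN => ?_, fun r hr hrN h => ?_⟩
  · exact (NOS.hasGoodReduction_iff_not_dvd hΔ hW).mpr (hgood r hr.out hrN).1
  · have h' := (NOS.hasAdditiveReduction_iff_dvd hΔ hW).mp h
    exact hrN (hadd r hr.out h'.1 h'.2)

end Good

variable {W : WeierstrassCurve ℤ}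

/-- The `L`-function only depends on the numbers `a_p` and the bad primes. -/
theorem isHasseWeil_congr {W' : WeierstrassCurve ℤ} (hd : ∀ p : ℕ, p.Prime →
      ((p : ℤ) ∣ W'.Δ ↔ (p : ℤ) ∣ W.Δ))
    (hap : ∀ p : ℕ, p.Prime → ap W' p = ap W p) (Λ : ℂ → ℂ) :
    IsHasseWeil W' Λ ↔ IsHasseWeil W Λ := by
  have h : ∀ (p : Nat.Primes) (s : ℂ), eulerPoly W' p s = eulerPoly W p s := by
    intro p s
    unfold eulerPoly
    rw [hap p p.2]
    simp only [hd p p.2]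
  unfold IsHasseWeil
  simp only [h]

/-- **The companion of a semistable elliptic curve, complete form.** `f` the newform of `W`, `L` the
lattice of its periods: `ℂ / L` is an elliptic curve over `ℚ`; a global minimal equation `W'` of it
is **semistable**, has the **conductor** of `W`, the same numbers `a_p` at **all** primes, the same
`L`-function, isomorphic Tate modules, and `L(W, 1)` is a rational multiple of its real period. -/
theorem exists_companion_semistable (hΔ : W.Δ ≠ 0) (hW : W.IsSemistableModel) :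
    ∃ (f : CuspForm (Gamma0 W.conductorLevel) 2) (L : PeriodPair) (a b : ℚ) (Ω : ℝ)
      (W' : WeierstrassCurve ℤ),
      -- the newform of `W`
      f.IsNewform ∧ (∀ p : ℕ, p.Prime → qCoeff f p = (ap W p : ℂ)) ∧
      -- its period lattice and its real period
      (∀ z, z ∈ L.lattice ↔ ∃ γ, om f γ = z) ∧ L.g₂ = a ∧ L.g₃ = b ∧
      0 < Ω ∧ (∀ x : ℝ, (x : ℂ) ∈ L.lattice ↔ ∃ n : ℤ, x = n * Ω) ∧
      -- `W'` is a global minimal equation of `ℂ / L`
      W'.Δ ≠ 0 ∧ MinModel.IsDiscMinimal W' ⟨0, 0, 0, -a / 4, -b / 4⟩ ∧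
      (∀ (p : ℕ) [Fact p.Prime], (W'.map (Int.castRingHom ℚ_[p])).IsMinimal ℤ_[p]) ∧
      -- `W` and `W'`
      W'.IsSemistableModel ∧ W'.conductorLevel = W.conductorLevel ∧
      (∀ p : ℕ, p.Prime → ((p : ℤ) ∣ W'.Δ ↔ (p : ℤ) ∣ W.Δ)) ∧
      (∀ p : ℕ, p.Prime → ap W' p = ap W p) ∧
      (∀ Λ : ℂ → ℂ, IsHasseWeil W' Λ ↔ IsHasseWeil W Λ) ∧
      (∀ (p : ℕ) [Fact p.Prime], p ≠ 2 → W.ModRepIsIrreducible p → TateIso W W' p) ∧
      ∀ Λ : ℂ → ℂ, IsHasseWeil W Λ → ∃ q : ℚ, Λ 1 = q * Ω := by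
  obtain ⟨f, ⟨hf, hap⟩, -⟩ := existsUnique_newform_ap hΔ hW
  have ha : ∀ ℓ : Nat.Primes, ∃ c : ℤ, qCoeff f ℓ = c := fun ℓ => ⟨_, hap ℓ ℓ.2⟩
  obtain ⟨L, a, b, Ω, hL, h2, h3, hΩ0, hΩ, hq, -⟩ := exists_curve_L_one f hf.1 ha
  obtain ⟨L', a', b', W', hL', h2', h3', hΔ', hW', hgood, -⟩ := eichler_shimura_good f hf.1 ha
  have hLL : L.lattice = L'.lattice := by
    ext z
    rw [hL, hL']
  have e2 : a = a' := by
    have : (a : ℂ) = a' := by
      rw [← h2, ← h2', PeriodPair.g₂, PeriodPair.g₂, Moduli.G_congr hLL]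
    exact_mod_cast this
  have e3 : b = b' := by
    have : (b : ℂ) = b' := by
      rw [← h3, ← h3', PeriodPair.g₃, PeriodPair.g₃, Moduli.G_congr hLL]
    exact_mod_cast this
  subst e2 e3
  have hΔW' := MinModel.Δ_ne_zero_of_model hΔ' hW'.1
  have hss : W'.IsSemistableModel := NOS.isSemistableModel_of_squarefree
    W.squarefree_conductorLevel hΔW' ⟨f, hf.1, fun p hp _ hpN => (hgood p hp hpN).2⟩
    fun q hq => NOS.minimalAt_of_isDiscMinimal hΔ' hW' hq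
  have hsame : ∀ ℓ : ℕ, ℓ.Prime → ℓ ∉ W.Δ.natAbs.primeFactors →
      W.apOfModel ℓ = W'.apOfModel ℓ := by
    intro ℓ hℓ hℓS
    have hg : ¬ (ℓ : ℤ) ∣ W.Δ := fun h' => hℓS (Nat.mem_primeFactors.mpr
      ⟨hℓ, Int.natCast_dvd.mp h', Int.natAbs_ne_zero.mpr hΔ⟩)
    have h4 := (hgood ℓ hℓ fun h => hg ((W.prime_dvd_conductorLevel_iff hΔ hℓ).mp h)).2
    rw [hap ℓ hℓ, ap, if_neg hg] at h4
    exact_mod_cast h4
  obtain ⟨hcond, hapW⟩ := ap_eq_of_almost_all hΔ hW hΔW' hss _ hsame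
  have hbad : ∀ p : ℕ, p.Prime → ((p : ℤ) ∣ W'.Δ ↔ (p : ℤ) ∣ W.Δ) := fun p hp => by
    rw [← W.prime_dvd_conductorLevel_iff hΔ hp, ← W'.prime_dvd_conductorLevel_iff hΔW' hp, hcond]
  refine ⟨f, L, a, b, Ω, W', hf, hap, hL, h2, h3, hΩ0, hΩ, hΔW', hW',
    fun p _ => hW'.isMinimal hΔ', hss, hcond.symm, hbad, fun p hp => (hapW p hp).symm,
    isHasseWeil_congr hbad fun p hp => (hapW p hp).symm, ?_, ?_⟩
  · intro p _ hp2 hirr
    exact tateIso_of_almost_all hΔ hΔW' hp2 hirr W.Δ.natAbs.primeFactors hsame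
  · intro Λ hΛ
    have h4 : IsHasseWeil W (ModularForm.L (k := 2) two_pos f) := isHasseWeil hΔ hf hap
    have h5 : Λ = ModularForm.L (k := 2) two_pos f := hΛ.unique h4
    subst h5
    exact hq

end Fermat.Agent.Cor.ES
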