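import Fermat.Agent.Corollaries.ES.Defs2
import Fermat.Agent.Moduli.Super

/-!
# Eichler–Shimura, (S2): the `n`-th root of the function of a torsion point

`p(℘) + q(℘) ℘'/2` has the divisor `n (μ/n) - n (0)`, and so has `hroot ^ n`: the quotient is an
entire elliptic function, hence constant.
-/

set_option autoImplicit false

open Filter Topology Complex
open scoped PeriodPair

noncomputable section

namespace Fermat.Agent.Cor.ES

namespace RootF

variable {L : PeriodPair}

/-- a meromorphic elliptic function without poles is constant -/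
theorem ell_const {T : ℂ → ℂ} (hm : ∀ z, MeromorphicAt T z)
    (h0 : ∀ z, 0 ≤ meromorphicOrderAt T z) (hper : ∀ l ∈ L.lattice, ∀ z, T (z + l) = T z) :
    ∃ k : ℂ, ∀ z₀, T =ᶠ[𝓝[≠] z₀] fun _ => k := by
  have hmu : MeromorphicOn T Set.univ := fun z _ => hm z
  set T' := toMeromorphicNFOn T Set.univ with hT'
  have hNF : MeromorphicNFOn T' Set.univ := meromorphicNFOn_toMeromorphicNFOn T Set.univ
  have hord : ∀ z, meromorphicOrderAt T' z = meromorphicOrderAt T z := fun z =>
    meromorphicOrderAt_toMeromorphicNFOn hmu (Set.mem_univ z)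
  have han : ∀ z, AnalyticAt ℂ T' z := fun z =>
    ((hNF (Set.mem_univ z)).meromorphicOrderAt_nonneg_iff_analyticAt).mp (by
      rw [hord]
      exact h0 z)
  have heq : ∀ z, T' =ᶠ[𝓝[≠] z] T := fun z =>
    hmu.toMeromorphicNFOn_eq_self_on_nhdsNE (Set.mem_univ z)
  have hdiff : Differentiable ℂ T' := fun z => (han z).differentiableAt
  have hper' : ∀ z l, l ∈ L.lattice → T' (z + l) = T' z := by
    intro z l hl
    have hsh : Tendsto (fun w : ℂ => w + l) (𝓝[≠] z) (𝓝[≠] (z + l)) := by
      refine tendsto_nhdsWithin_of_tendsto_nhds_of_eventually_within _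
        ((continuous_add_const l).tendsto' z (z + l) rfl |>.mono_left nhdsWithin_le_nhds) ?_
      filter_upwards [self_mem_nhdsWithin] with w hw
      simpa using hw
    have h1 : (fun w => T' (w + l)) =ᶠ[𝓝[≠] z] T' := by
      filter_upwards [hsh.eventually (heq (z + l)), heq z] with w hw1 hw2
      rw [hw1, hw2, hper l hl]
    have h3 : Tendsto (fun w => T' (w + l)) (𝓝[≠] z) (𝓝 (T' (z + l))) :=
      (hdiff.continuous.comp (continuous_add_const l)).continuousAt.tendsto.mono_left
        nhdsWithin_le_nhds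
    have h4 : Tendsto T' (𝓝[≠] z) (𝓝 (T' z)) :=
      hdiff.continuous.continuousAt.tendsto.mono_left nhdsWithin_le_nhds
    exact tendsto_nhds_unique h3 (h4.congr' h1.symm)
  have hb := (IsZLattice.isCompact_range_of_periodic L.lattice T' hdiff.continuous
    hper').isBounded
  exact ⟨T' 0, fun z₀ => (heq z₀).symm.trans
    (Eventually.of_forall fun z => hdiff.apply_eq_apply_of_bounded hb z 0)⟩

theorem meromorphicAt_poly (p : Polynomial ℂ) {f : ℂ → ℂ} {z : ℂ} (hf : MeromorphicAt f z) :
    MeromorphicAt (fun w => p.eval (f w)) z := by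
  induction p using Polynomial.induction_on' with
  | add p q hp hq =>
    simp only [Polynomial.eval_add]
    exact hp.add hq
  | monomial i c =>
    simp only [Polynomial.eval_monomial]
    exact (MeromorphicAt.const c z).mul (hf.pow i)

theorem analyticAt_poly (p : Polynomial ℂ) {f : ℂ → ℂ} {z : ℂ} (hf : AnalyticAt ℂ f z) :
    AnalyticAt ℂ (fun w => p.eval (f w)) z := by
  induction p using Polynomial.induction_on' with
  | add p q hp hq =>
    simp only [Polynomial.eval_add]
    exact hp.add hq
  | monomial i c =>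
    simp only [Polynomial.eval_monomial]
    exact analyticAt_const.mul (hf.pow i)

variable (L) in
/-- the function `p(℘) + q(℘) ℘'/2` -/
def R (p q : Polynomial ℂ) (z : ℂ) : ℂ := p.eval (℘[L] z) + q.eval (℘[L] z) * (℘'[L] z / 2)

theorem meromorphicAt_R (p q : Polynomial ℂ) (z : ℂ) : MeromorphicAt (R L p q) z :=
  (meromorphicAt_poly p (L.meromorphic_weierstrassP z)).add
    ((meromorphicAt_poly q (L.meromorphic_weierstrassP z)).mul
      ((L.meromorphic_derivWeierstrassP z).div (MeromorphicAt.const 2 z)))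

theorem analyticAt_R (p q : Polynomial ℂ) {z : ℂ} (hz : z ∉ L.lattice) :
    AnalyticAt ℂ (R L p q) z :=
  (analyticAt_poly p (Moduli.analyticAt_P L hz)).add
    ((analyticAt_poly q (Moduli.analyticAt_P L hz)).mul
      ((Moduli.analyticAt_P' L hz).div analyticAt_const two_ne_zero))

theorem R_add (p q : Polynomial ℂ) {l : ℂ} (hl : l ∈ L.lattice) (z : ℂ) :
    R L p q (z + l) = R L p q z := by
  rw [R, R, L.weierstrassP_add_coe z ⟨l, hl⟩, L.derivWeierstrassP_add_coe z ⟨l, hl⟩]

theorem R_neg (p q : Polynomial ℂ) (z : ℂ) : R L p q (-z) = R L p (-q) z := by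
  rw [R, R, L.weierstrassP_neg, L.derivWeierstrassP_neg, Polynomial.eval_neg]
  ring

/-- the norm -/
theorem R_mul {n : ℕ} {x₀ c : ℂ} {p q : Polynomial ℂ}
    (h : p ^ 2 - q ^ 2 * (Polynomial.X ^ 3 - Polynomial.C (L.g₂ / 4) * Polynomial.X -
      Polynomial.C (L.g₃ / 4)) = Polynomial.C c * (Polynomial.X - Polynomial.C x₀) ^ n) {z : ℂ}
    (hz : z ∉ L.lattice) : R L p q z * R L p (-q) z = c * (℘[L] z - x₀) ^ n := by
  have h1 := congrArg (Polynomial.eval (℘[L] z)) h
  simp only [Polynomial.eval_sub, Polynomial.eval_pow, Polynomial.eval_mul, Polynomial.eval_X,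
    Polynomial.eval_C] at h1
  have h2 := L.derivWeierstrassP_sq z hz
  rw [← h1, R, R, Polynomial.eval_neg]
  linear_combination (-(q.eval (℘[L] z)) ^ 2 / 4) * h2

end RootF

open RootF

theorem multStmt : MultStmt := by
  intro L S α β B hS n hn μ hμ l hl z _
  have hn' : (n : ℂ) ≠ 0 := Nat.cast_ne_zero.mpr hn
  have h1 := hS.quasi l hl z
  have h2 := hS.quasi l hl (z - μ / n)
  have h3 := hS.pair l hl μ hμ
  rw [hroot, hroot, show z + l - μ / n = z - μ / n + l by ring, h1, h2]
  have h4 : Complex.exp (α μ * (z + l) / n) * Complex.exp (α l * (z - μ / n) + β l) =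
      Complex.exp (2 * Real.pi * Complex.I * B μ l / n) * (Complex.exp (α μ * z / n) *
        Complex.exp (α l * z + β l)) := by
    rw [← Complex.exp_add, ← Complex.exp_add, ← Complex.exp_add]
    congr 1
    have h5 : (2 * Real.pi * Complex.I * B μ l : ℂ) = α μ * l - α l * μ := by
      rw [h3]
    rw [h5]
    field_simp
    ring
  have he : Complex.exp (α l * z + β l) ≠ 0 := Complex.exp_ne_zero _
  by_cases hSz : S z = 0
  · rw [hSz]
    simp
  · rw [← mul_assoc, h4]
    field_simp

theorem rootStmt : RootStmt := by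
  intro L S α β B hS n hn μ hμ hμn hy p q hD
  obtain ⟨⟨c, hc, hnorm⟩, hvan, hnon⟩ := hD
  have hn' : (n : ℂ) ≠ 0 := Nat.cast_ne_zero.mpr hn
  have hnpos : 0 < n := Nat.pos_of_ne_zero hn
  have hSan : ∀ z, AnalyticAt ℂ S z := fun z => hS.diff.analyticAt z
  have ordS0 : ∀ z, z ∉ L.lattice → meromorphicOrderAt S z = ((0 : ℤ) : WithTop ℤ) := by
    intro z hz
    rw [(hSan z).meromorphicOrderAt_eq, ((hSan z).analyticOrderAt_eq_zero).mpr
      (fun h => hz ((hS.zero z).mp h))]
    rfl
  have ordS1 : ∀ z ∈ L.lattice, meromorphicOrderAt S z = ((1 : ℤ) : WithTop ℤ) := by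
    intro z hz
    rw [(hSan z).meromorphicOrderAt_eq,
      (hSan z).analyticOrderAt_eq_one_of_zero_deriv_ne_zero ((hS.zero z).mpr hz)
        (hS.simple z hz)]
    rfl
  set H : ℂ → ℂ := hroot S α n μ with hHdef
  have hHeq : H = (fun z => Complex.exp (α μ * z / n)) * (S ∘ fun z => z - μ / n) / S := by
    funext z
    rfl
  have hexp : ∀ z, AnalyticAt ℂ (fun z => Complex.exp (α μ * z / n)) z := fun z => by
    fun_prop
  have hsub : ∀ z, AnalyticAt ℂ (S ∘ fun z => z - μ / n) z := fun z =>
    AnalyticAt.comp (f := fun z : ℂ => z - μ / n) (hSan (z - μ / n)) (by fun_prop)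
  have hHm : ∀ z, MeromorphicAt H z := fun z => by
    rw [hHeq]
    exact ((hexp z).mul (hsub z)).meromorphicAt.div (hSan z).meromorphicAt
  have ordH : ∀ z, meromorphicOrderAt H z =
      meromorphicOrderAt S (z - μ / n) - meromorphicOrderAt S z := by
    intro z
    rw [hHeq, meromorphicOrderAt_div ((hexp z).mul (hsub z)).meromorphicAt
      (hSan z).meromorphicAt, meromorphicOrderAt_mul_of_ne_zero (hexp z) (Complex.exp_ne_zero _),
      meromorphicOrderAt_comp_sub_const_eq_meromorphicOrderAt]
  -- the order of `R`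
  have hRm : ∀ z, MeromorphicAt (R L p q) z := meromorphicAt_R p q
  have hnormev : ∀ z, (R L p q * R L p (-q)) =ᶠ[𝓝[≠] z]
      (fun _ => c) * (fun w => ℘[L] w - ℘[L] (μ / n)) ^ n := by
    intro z
    filter_upwards [Moduli.eventually_notMem_lattice L z] with w hw
    exact R_mul hnorm hw
  have hPm : ∀ z, MeromorphicAt (fun w => ℘[L] w - ℘[L] (μ / n)) z := fun z =>
    (L.meromorphic_weierstrassP z).sub (MeromorphicAt.const _ z)
  have hordnorm : ∀ z, meromorphicOrderAt (R L p q) z + meromorphicOrderAt (R L p (-q)) z =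
      n * meromorphicOrderAt (fun w => ℘[L] w - ℘[L] (μ / n)) z := by
    intro z
    rw [← meromorphicOrderAt_mul (meromorphicAt_R p q z) (meromorphicAt_R p (-q) z),
      meromorphicOrderAt_congr (hnormev z),
      meromorphicOrderAt_mul_of_ne_zero analyticAt_const hc, meromorphicOrderAt_pow (hPm z)]
  have ordRL : ∀ z ∈ L.lattice, meromorphicOrderAt (R L p q) z = ((-n : ℤ) : WithTop ℤ) := by
    intro z hz
    have h1 : meromorphicOrderAt (R L p (-q)) z = meromorphicOrderAt (R L p q) z := by
      have h2 : R L p (-q) = R L p q ∘ fun w => -w := by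
        funext w
        exact (R_neg p q w).symm
      have h3 : R L p q ∘ (fun w => w + (-z - z)) = R L p q := by
        funext w
        exact R_add p q (sub_mem (neg_mem hz) hz) w
      rw [h2, meromorphicOrderAt_comp_of_deriv_ne_zero (by fun_prop) (by simp)]
      conv_rhs => rw [← h3]
      rw [meromorphicOrderAt_comp_add_const_eq_meromorphicOrderAt]
      congr 1
      ring
    have h4 : meromorphicOrderAt (fun w => ℘[L] w - ℘[L] (μ / n)) z = ((-2 : ℤ) : WithTop ℤ) := by
      have h5 : (fun w => ℘[L] w - ℘[L] (μ / n)) = ℘[L] + fun _ => -℘[L] (μ / n) := by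
        funext w
        simp [sub_eq_add_neg]
      rw [h5, meromorphicOrderAt_add_eq_left_of_lt (MeromorphicAt.const _ z) ?_,
        L.order_weierstrassP z hz]
      · rfl
      · rw [L.order_weierstrassP z hz]
        refine lt_of_lt_of_le ?_ (analyticAt_const (v := -℘[L] (μ / n))).meromorphicOrderAt_nonneg
        have h7 : (-2 : WithTop ℤ) = ((-2 : ℤ) : WithTop ℤ) := rfl
        rw [h7]
        exact WithTop.coe_lt_coe.mpr (by norm_num)
    have h6 := hordnorm z
    rw [h1, h4] at h6
    have hne : meromorphicOrderAt (R L p q) z ≠ ⊤ := by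
      intro htop
      rw [htop] at h6
      exact absurd h6 (by
        rw [WithTop.top_add]
        exact_mod_cast WithTop.top_ne_coe)
    obtain ⟨r, hr⟩ := WithTop.ne_top_iff_exists.mp hne
    rw [← hr] at h6 ⊢
    have h7 : r + r = n * (-2) := by exact_mod_cast h6
    have h8 : r = -n := by linarith
    rw [h8]
  have ordRμ : ∀ z, z - μ / n ∈ L.lattice → z ∉ L.lattice →
      ((n : ℤ) : WithTop ℤ) ≤ meromorphicOrderAt (R L p q) z := by
    intro z hz hzL
    have hP : ℘[L] z = ℘[L] (μ / n) := by
      have := L.weierstrassP_add_coe (μ / n) ⟨_, hz⟩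
      simpa using this
    have hP' : ℘'[L] z = ℘'[L] (μ / n) := by
      have := L.derivWeierstrassP_add_coe (μ / n) ⟨_, hz⟩
      simpa using this
    have h1 : R L p (-q) z ≠ 0 := by
      rw [R, hP, hP', Polynomial.eval_neg, neg_mul, ← sub_eq_add_neg]
      exact hnon
    have h2 : meromorphicOrderAt (R L p (-q)) z = ((0 : ℤ) : WithTop ℤ) := by
      have h3 := analyticAt_R (L := L) p (-q) hzL
      rw [h3.meromorphicOrderAt_eq, (h3.analyticOrderAt_eq_zero).mpr h1]
      rfl
    have h4 : 0 < meromorphicOrderAt (fun w => ℘[L] w - ℘[L] (μ / n)) z := by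
      rw [← tendsto_zero_iff_meromorphicOrderAt_pos (hPm z)]
      have h5 : ContinuousAt (fun w => ℘[L] w - ℘[L] (μ / n)) z :=
        (Moduli.analyticAt_P L hzL).continuousAt.sub continuousAt_const
      have h6 := h5.tendsto.mono_left (nhdsWithin_le_nhds (s := {z}ᶜ))
      rwa [hP, sub_self] at h6
    have h7 := hordnorm z
    rw [h2] at h7
    have h8 : meromorphicOrderAt (R L p q) z + ((0 : ℤ) : WithTop ℤ) =
        meromorphicOrderAt (R L p q) z := by
      rw [WithTop.coe_zero, add_zero]
    rw [h8] at h7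
    rw [h7]
    by_cases htop : meromorphicOrderAt (fun w => ℘[L] w - ℘[L] (μ / n)) z = ⊤
    · rw [htop, WithTop.mul_top (by exact_mod_cast hn)]
      exact le_top
    · obtain ⟨r, hr⟩ := WithTop.ne_top_iff_exists.mp htop
      rw [← hr] at h4 ⊢
      have h9 : 0 < r := by exact_mod_cast h4
      have h10 : (n : ℤ) ≤ n * r := by nlinarith
      exact_mod_cast h10
  -- the quotient
  have hRad : ∀ l ∈ L.lattice, ∀ z, (R L p q / H ^ n) (z + l) = (R L p q / H ^ n) z := by
    intro l hl z
    rw [Pi.div_apply, Pi.div_apply, Pi.pow_apply, Pi.pow_apply, R_add p q hl]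
    by_cases hz : z ∈ L.lattice
    · have h1 : H z = 0 := by
        rw [hHdef, hroot, (hS.zero z).mpr hz, div_zero]
      have h2 : H (z + l) = 0 := by
        rw [hHdef, hroot, (hS.zero (z + l)).mpr (add_mem hz hl), div_zero]
      rw [h1, h2]
    · rw [hHdef, multStmt L S α β B hS n hn μ hμ l hl z hz, mul_pow, ← Complex.exp_nat_mul]
      have h3 : (n : ℂ) * (2 * Real.pi * Complex.I * B μ l / n) =
          (B μ l : ℤ) * (2 * Real.pi * Complex.I) := by
        field_simp
      rw [h3, Complex.exp_int_mul_two_pi_mul_I, one_mul]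
  have hTm : ∀ z, MeromorphicAt (R L p q / H ^ n) z := fun z => (hRm z).div ((hHm z).pow n)
  have hT0 : ∀ z, 0 ≤ meromorphicOrderAt (R L p q / H ^ n) z := by
    intro z
    rw [meromorphicOrderAt_div (hRm z) ((hHm z).pow n), meromorphicOrderAt_pow (hHm z), ordH]
    by_cases hz : z ∈ L.lattice
    · have h1 : z - μ / n ∉ L.lattice := by
        intro h2
        have h3 := sub_mem hz h2
        rw [sub_sub_cancel] at h3
        exact hμn h3
      rw [ordRL z hz, ordS1 z hz, ordS0 _ h1]
      have h4 : (-n : ℤ) - n * (0 - 1) = 0 := by ring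
      exact_mod_cast h4.ge
    · by_cases hz2 : z - μ / n ∈ L.lattice
      · rw [ordS0 z hz, ordS1 _ hz2]
        have h3 := ordRμ z hz2 hz
        by_cases htop : meromorphicOrderAt (R L p q) z = ⊤
        · rw [htop]
          have : (⊤ : WithTop ℤ) - n * (((1 : ℤ) : WithTop ℤ) - ((0 : ℤ) : WithTop ℤ)) = ⊤ := by
            have h4 : (n : WithTop ℤ) * (((1 : ℤ) : WithTop ℤ) - ((0 : ℤ) : WithTop ℤ)) =
              ((n * (1 - 0) : ℤ) : WithTop ℤ) := by
              push_cast
              rfl
            rw [h4]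
            rfl
          rw [this]
          exact le_top
        · obtain ⟨r, hr⟩ := WithTop.ne_top_iff_exists.mp htop
          rw [← hr] at h3 ⊢
          have h5 : (n : ℤ) ≤ r := by exact_mod_cast h3
          have h6 : (0 : ℤ) ≤ r - n * (1 - 0) := by linarith
          exact_mod_cast h6
      · rw [ordS0 z hz, ordS0 _ hz2]
        have h3 := (analyticAt_R (L := L) p q hz).meromorphicOrderAt_nonneg
        by_cases htop : meromorphicOrderAt (R L p q) z = ⊤
        · rw [htop]
          have : (⊤ : WithTop ℤ) - n * (((0 : ℤ) : WithTop ℤ) - ((0 : ℤ) : WithTop ℤ)) = ⊤ := by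
            have h4 : (n : WithTop ℤ) * (((0 : ℤ) : WithTop ℤ) - ((0 : ℤ) : WithTop ℤ)) =
              ((n * (0 - 0) : ℤ) : WithTop ℤ) := by
              push_cast
              rfl
            rw [h4]
            rfl
          rw [this]
          exact le_top
        · obtain ⟨r, hr⟩ := WithTop.ne_top_iff_exists.mp htop
          rw [← hr] at h3 ⊢
          have h5 : (0 : ℤ) ≤ r := by exact_mod_cast h3
          have h6 : (0 : ℤ) ≤ r - n * (0 - 0) := by linarith
          exact_mod_cast h6
  obtain ⟨k, hk⟩ := ell_const hTm hT0 hRad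
  -- equality outside `L`
  have hfin : ∀ z, z ∉ L.lattice → k * H z ^ n = R L p q z := by
    intro z hz
    have hshift : ∀ᶠ w in 𝓝[≠] z, w - μ / n ∉ L.lattice := by
      have hsh : Tendsto (fun w : ℂ => w - μ / n) (𝓝[≠] z) (𝓝[≠] (z - μ / n)) := by
        refine tendsto_nhdsWithin_of_tendsto_nhds_of_eventually_within _
          ((continuous_sub_right (μ / (n : ℂ))).tendsto' z _ rfl |>.mono_left
            nhdsWithin_le_nhds) ?_
        filter_upwards [self_mem_nhdsWithin] with w hw
        simpa using hw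
      exact hsh.eventually (Moduli.eventually_notMem_lattice L (z - μ / n))
    have h1 : (fun w => k * H w ^ n) =ᶠ[𝓝[≠] z] R L p q := by
      filter_upwards [hk z, hshift, Moduli.eventually_notMem_lattice L z] with w hw1 hw2 hw3
      have h2 : H w ≠ 0 := by
        rw [hHdef, hroot]
        exact div_ne_zero (mul_ne_zero (Complex.exp_ne_zero _)
          (fun h => hw2 ((hS.zero _).mp h))) (fun h => hw3 ((hS.zero _).mp h))
      rw [Pi.div_apply, Pi.pow_apply] at hw1
      rw [← hw1, div_mul_cancel₀ _ (pow_ne_zero n h2)]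
    have hSz : S z ≠ 0 := fun h => hz ((hS.zero z).mp h)
    have hHan : AnalyticAt ℂ H z := by
      rw [hHeq]
      exact ((hexp z).mul (hsub z)).div (hSan z) hSz
    have h3 : Tendsto (fun w => k * H w ^ n) (𝓝[≠] z) (𝓝 (k * H z ^ n)) :=
      (continuousAt_const.mul (hHan.continuousAt.pow n)).tendsto.mono_left nhdsWithin_le_nhds
    have h4 : Tendsto (R L p q) (𝓝[≠] z) (𝓝 (R L p q z)) :=
      (analyticAt_R p q hz).continuousAt.tendsto.mono_left nhdsWithin_le_nhds
    exact tendsto_nhds_unique h3 (h4.congr' h1.symm)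
  refine ⟨k, ?_, fun z hz => hfin z hz⟩
  rintro rfl
  obtain ⟨w, hw1, hw2⟩ := ((Moduli.eventually_P_ne L hμn (℘[L] (μ / n))).and
    (Moduli.eventually_notMem_lattice L (μ / n))).exists
  have h1 := R_mul hnorm hw2
  rw [← hfin w hw2, zero_mul, zero_mul] at h1
  rcases mul_eq_zero.mp h1.symm with h2 | h2
  · exact hc h2
  · exact hw1 (sub_eq_zero.mp ((pow_eq_zero_iff hn).mp h2))

end Fermat.Agent.Cor.ES
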