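import Fermat.Agent.Corollaries.ES.ModY
import Fermat.Agent.Corollaries.ES.Root

/-!
# Eichler–Shimura, (S4): the root of the function of a torsion point on the upper half plane

The `n`-th root `hroot` of the function of the torsion point `μ / n` of `ℂ / L`, composed with
`∫ f` and multiplied by a denominator of `℘(∫ f)`, is a holomorphic function on the upper half plane
with the character `γ ↦ exp (2 π i B(μ, ω(γ)) / n)`.
-/

set_option autoImplicit false

open UpperHalfPlane CongruenceSubgroup ModularFormClass Filter Topology Function Asymptotics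
open scoped MatrixGroups Manifold ModularForm PeriodPair

noncomputable section

namespace Fermat.Agent.Cor.ES

open Fermat.Agent.ModFun Fermat.Agent.X0Emb Fermat.Agent.Cor.HW.Per ModularCurve
open Fermat.Agent.GalRep

namespace Mero

/-- the holomorphic extension of a meromorphic function without poles -/
def ext (G : ℍ → ℂ) (w : ℍ) : ℂ := toMeromorphicNFOn (G ∘ ofComplex) upperHalfPlaneSet w

variable {G : ℍ → ℂ}

theorem meromorphicOn (hm : ∀ τ : ℍ, MeromorphicAt (G ∘ ofComplex) (τ : ℂ)) :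
    MeromorphicOn (G ∘ ofComplex) upperHalfPlaneSet := fun z hz => hm ⟨z, hz⟩

theorem analyticAt_ext (hm : ∀ τ : ℍ, MeromorphicAt (G ∘ ofComplex) (τ : ℂ))
    (hb : ∀ τ : ℍ, Bdd G τ) (τ : ℍ) :
    AnalyticAt ℂ (toMeromorphicNFOn (G ∘ ofComplex) upperHalfPlaneSet) (τ : ℂ) := by
  have hτ : (τ : ℂ) ∈ upperHalfPlaneSet := τ.im_pos
  rw [← (meromorphicNFOn_toMeromorphicNFOn _ _ hτ).meromorphicOrderAt_nonneg_iff_analyticAt,
    meromorphicOrderAt_toMeromorphicNFOn (meromorphicOn hm) hτ]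
  by_contra hlt
  have h1 := tendsto_cobounded_of_meromorphicOrderAt_neg (not_le.mp hlt)
  have h2 := h1.comp (tendsto_coe_ne τ)
  rw [← tendsto_norm_atTop_iff_cobounded] at h2
  obtain ⟨C, hC⟩ := hb τ
  have h3 := h2.eventually (eventually_gt_atTop C)
  obtain ⟨w, hw1, hw2⟩ := (hC.and h3).exists
  simp only [comp_apply, ofComplex_apply] at hw2
  exact absurd hw1 (not_le.mpr hw2)

theorem ext_eq (hm : ∀ τ : ℍ, MeromorphicAt (G ∘ ofComplex) (τ : ℂ)) {τ : ℍ} (h : An G τ) :
    ext G τ = G τ := by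
  have hτ : (τ : ℂ) ∈ upperHalfPlaneSet := τ.im_pos
  rw [ext, toMeromorphicNFOn_eq_toMeromorphicNFAt (meromorphicOn hm) hτ,
    toMeromorphicNFAt_eq_self.mpr (AnalyticAt.meromorphicNFAt h)]
  simp

theorem mdiff_ext (hm : ∀ τ : ℍ, MeromorphicAt (G ∘ ofComplex) (τ : ℂ))
    (hb : ∀ τ : ℍ, Bdd G τ) : MDiff (ext G) := by
  rw [UpperHalfPlane.mdifferentiable_iff]
  intro z hz
  have h1 := (analyticAt_ext hm hb ⟨z, hz⟩).differentiableAt.differentiableWithinAt
    (s := upperHalfPlaneSet)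
  refine h1.congr (fun w hw => ?_) ?_
  · simp [ext, ofComplex_apply_of_im_pos hw]
  · simp [ext, ofComplex_apply_of_im_pos hz]

end Mero

variable {N : ℕ} [NeZero N] {f : CuspForm (Gamma0 N) 2} {L : PeriodPair}

/-! ### The root -/

section root

variable {S α β : ℂ → ℂ} {B : ℂ → ℂ → ℤ} (hS : Sig L S α β B) (n : ℕ) (μ : ℂ)
include hS

theorem analyticAt_S (z : ℂ) : AnalyticAt ℂ S z := hS.diff.analyticAt z

theorem analyticAt_top (z : ℂ) :
    AnalyticAt ℂ (fun z => Complex.exp (α μ * z / n) * S (z - μ / n)) z := by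
  refine AnalyticAt.mul ?_ ?_
  · fun_prop
  · exact AnalyticAt.fun_comp (g := S) (f := fun z => z - μ / n) (analyticAt_S hS _) (by fun_prop)

theorem meromorphicAt_hroot (z : ℂ) : MeromorphicAt (hroot S α n μ) z :=
  (analyticAt_top hS n μ z).meromorphicAt.div (analyticAt_S hS z).meromorphicAt

theorem analyticAt_hroot {z : ℂ} (hz : z ∉ L.lattice) : AnalyticAt ℂ (hroot S α n μ) z :=
  (analyticAt_top hS n μ z).div (analyticAt_S hS z) fun h => hz ((hS.zero z).mp h)

theorem hroot_eq_zero {z : ℂ} (hz : z ∈ L.lattice) : hroot S α n μ z = 0 := by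
  rw [hroot, (hS.zero z).mpr hz, div_zero]

/-- near a lattice point the root is smaller than `℘` -/
theorem eventually_hroot_le {l : ℂ} (hl : l ∈ L.lattice) :
    ∀ᶠ z in 𝓝[≠] l, ‖hroot S α n μ z‖ ≤ ‖℘[L] z‖ := by
  obtain ⟨g, hg, hg0, hgl'⟩ := (meromorphicOrderAt_eq_int_iff (n := -2)
    (L.meromorphic_weierstrassP l)).mp (L.order_weierstrassP l hl)
  have hgl : ∀ᶠ z in 𝓝[≠] l, ℘[L] z = ((z - l) ^ 2)⁻¹ * g z := by
    refine hgl'.mono fun z hz => ?_
    rw [hz, zpow_neg, smul_eq_mul]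
    rfl
  have h1 : Tendsto (slope S l) (𝓝[≠] l) (𝓝 (deriv S l)) :=
    hasDerivAt_iff_tendsto_slope.mp (hS.diff l).hasDerivAt
  have h2 : Tendsto (fun z => (Complex.exp (α μ * z / n) * S (z - μ / n))) (𝓝[≠] l)
      (𝓝 (Complex.exp (α μ * l / n) * S (l - μ / n))) :=
    (analyticAt_top hS n μ l).continuousAt.tendsto.mono_left nhdsWithin_le_nhds
  have h3 : Tendsto (fun z => z - l) (𝓝[≠] l) (𝓝 0) := by
    have : ContinuousAt (fun z : ℂ => z - l) l := by fun_prop
    have h0 := this.tendsto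
    simp only [sub_self] at h0
    exact h0.mono_left nhdsWithin_le_nhds
  have h4 : Tendsto g (𝓝[≠] l) (𝓝 (g l)) := hg.continuousAt.tendsto.mono_left nhdsWithin_le_nhds
  have h5 : Tendsto (fun z => (Complex.exp (α μ * z / n) * S (z - μ / n)) * (z - l) /
      (slope S l z * g z)) (𝓝[≠] l) (𝓝 0) := by
    have := (h2.mul h3).div (h1.mul h4) (mul_ne_zero (hS.simple l hl) hg0)
    rw [mul_zero, zero_div] at this
    exact this
  have h6 : ∀ᶠ z in 𝓝[≠] l, ‖(Complex.exp (α μ * z / n) * S (z - μ / n)) * (z - l) /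
      (slope S l z * g z)‖ < 1 := by
    have := h5.norm
    rw [norm_zero] at this
    exact this.eventually (gt_mem_nhds one_pos)
  have h7 := h1.eventually_ne (hS.simple l hl)
  have h8 := h4.eventually_ne hg0
  filter_upwards [h6, h7, h8, hgl, self_mem_nhdsWithin] with z e1 e2 e3 e4 e5
  have hzl : z - l ≠ 0 := sub_ne_zero.mpr e5
  have hS' : S z = slope S l z * (z - l) := by
    rw [slope_def_field, (hS.zero l).mpr hl, sub_zero, div_mul_cancel₀ _ hzl]
  have h9 : hroot S α n μ z = (Complex.exp (α μ * z / n) * S (z - μ / n)) * (z - l) /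
      (slope S l z * g z) * ℘[L] z := by
    rw [hroot, e4, hS']
    field_simp
  rw [h9, norm_mul]
  exact mul_le_of_le_one_left (norm_nonneg _) e1.le

/-- the lift is bounded near all points -/
theorem bdd_lift {U V : ℍ → ℂ} (hU : Continuous U) (hV : Continuous V)
    (hUV : ∀ τ : ℍ, Ei f τ ∉ L.lattice → U τ = ℘[L] (Ei f τ) * V τ) (τ₀ : ℍ) :
    Mero.Bdd (fun τ => hroot S α n μ (Ei f τ) * V τ) τ₀ := by
  by_cases h0 : Ei f τ₀ ∈ L.lattice
  · have h1 := eventually_hroot_le hS n μ h0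
    have h2 := h1.and (Moduli.eventually_notMem_lattice L (Ei f τ₀))
    rw [eventually_nhdsWithin_iff] at h2
    have h3 := (continuous_Ei f).continuousAt.eventually h2
    obtain ⟨C, hC⟩ := Mero.bdd_of_continuousAt (hU.continuousAt (x := τ₀))
    refine ⟨C, ?_⟩
    filter_upwards [hC, h3.filter_mono nhdsWithin_le_nhds] with τ e1 e2
    by_cases h4 : Ei f τ = Ei f τ₀
    · rw [h4, hroot_eq_zero hS n μ h0, zero_mul, norm_zero]
      exact (norm_nonneg _).trans e1
    · obtain ⟨e3, e4⟩ := e2 h4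
      refine le_trans ?_ e1
      rw [hUV τ e4, norm_mul, norm_mul]
      exact mul_le_mul_of_nonneg_right e3 (norm_nonneg _)
  · refine Mero.bdd_of_continuousAt (ContinuousAt.mul ?_ hV.continuousAt)
    exact ContinuousAt.comp (f := Ei f) (g := hroot S α n μ)
      (analyticAt_hroot hS n μ h0).continuousAt (continuous_Ei f).continuousAt

theorem smul_lift (hL : ∀ γ, om f γ ∈ L.lattice) (hn : n ≠ 0) (hμ : μ ∈ L.lattice) {V : ℍ → ℂ}
    (hV : ∀ γ ∈ Gamma0 N, ∀ τ : ℍ, V (γ • τ) = V τ)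
    {φ : Additive (Gamma0 N) →+ ℤ} (hφ : ∀ γ, φ γ = B μ (om f γ)) (γ : Gamma0 N) (τ : ℍ) :
    hroot S α n μ (Ei f ((γ : SL(2, ℤ)) • τ)) * V ((γ : SL(2, ℤ)) • τ) =
      (charOf n φ γ : ℂ) * (hroot S α n μ (Ei f τ) * V τ) := by
  rw [hV _ γ.2, Ei_smul]
  by_cases h0 : Ei f τ ∈ L.lattice
  · rw [hroot_eq_zero hS n μ h0, hroot_eq_zero hS n μ (add_mem h0 (hL _))]
    simp
  · rw [multStmt L S α β B hS n hn μ hμ _ (hL _) _ h0, charOf_apply, hφ]
    have h1 : ((zetaC n ^ B μ (om f (Additive.ofMul γ)) : ℂˣ) : ℂ) =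
        Complex.exp (2 * Real.pi * Complex.I * B μ (om f (Additive.ofMul γ)) / n) := by
      rw [Units.val_zpow_eq_zpow_val, zetaC, Units.val_mk0, ← Complex.exp_int_mul]
      congr 1
      ring
    rw [h1]
    ring

end root

/-! ### Modular functions with values `F(∫ f)` -/

/-- `x` is a modular function whose function is `F(∫ f)` -/
def RF (f : CuspForm (Gamma0 N) 2) (L : PeriodPair) (x : LaurentSeries ℂ) (F : ℂ → ℂ) : Prop :=
  ∃ (u v : LaurentSeries ℂ) (U V : ℍ → ℂ), v ≠ 0 ∧ x * v = u ∧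
    Rep N (RingHom.id ℂ) u U ∧ Rep N (RingHom.id ℂ) v V ∧
    ∀ τ : ℍ, Ei f τ ∉ L.lattice → U τ = F (Ei f τ) * V τ

namespace RF

variable {x y : LaurentSeries ℂ} {F G : ℂ → ℂ}

theorem const (c : ℂ) : RF f L (algebraMap ℂ (LaurentSeries ℂ) c) (fun _ => c) :=
  ⟨_, 1, _, 1, one_ne_zero, mul_one _, Rep.const c, Rep.one, fun τ _ => by simp⟩

theorem add (hx : RF f L x F) (hy : RF f L y G) : RF f L (x + y) (fun z => F z + G z) := by
  obtain ⟨u, v, U, V, hv, hu, hU, hV, h⟩ := hx
  obtain ⟨u', v', U', V', hv', hu', hU', hV', h'⟩ := hy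
  refine ⟨u * v' + u' * v, v * v', _, _, mul_ne_zero hv hv', ?_, (hU.mul hV').add (hU'.mul hV),
    hV.mul hV', fun τ hτ => ?_⟩
  · rw [← hu, ← hu']
    ring
  · simp only [Pi.add_apply, Pi.mul_apply, h τ hτ, h' τ hτ]
    ring

theorem mul (hx : RF f L x F) (hy : RF f L y G) : RF f L (x * y) (fun z => F z * G z) := by
  obtain ⟨u, v, U, V, hv, hu, hU, hV, h⟩ := hx
  obtain ⟨u', v', U', V', hv', hu', hU', hV', h'⟩ := hy
  refine ⟨u * u', v * v', _, _, mul_ne_zero hv hv', ?_, hU.mul hU', hV.mul hV', fun τ hτ => ?_⟩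
  · rw [← hu, ← hu']
    ring
  · simp only [Pi.mul_apply, h τ hτ, h' τ hτ]
    ring

theorem aeval (hx : RF f L x F) (p : Polynomial ℂ) :
    RF f L (Polynomial.aeval x p) (fun z => p.eval (F z)) := by
  induction p using Polynomial.induction_on' with
  | add p q hp hq =>
    rw [map_add]
    simpa only [Polynomial.eval_add] using hp.add hq
  | monomial k a =>
    induction k with
    | zero =>
      rw [Polynomial.monomial_zero_left, Polynomial.aeval_C]
      simpa only [Polynomial.eval_C] using RF.const a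
    | succ k ih =>
      have h1 : Polynomial.monomial (k + 1) a = Polynomial.monomial k a * Polynomial.X := by
        rw [Polynomial.monomial_mul_X]
      rw [h1, map_mul, Polynomial.aeval_X]
      simpa only [Polynomial.eval_mul, Polynomial.eval_X] using ih.mul hx

end RF

theorem coeffMap_algebraMap {K : Type*} [Field K] (ι : K →+* ℂ) (c : K) :
    coeffMap ι (algebraMap K (LaurentSeries K) c) = algebraMap ℂ (LaurentSeries ℂ) (ι c) := by
  rw [algebraMap_laurentSeries_eq_single, algebraMap_laurentSeries_eq_single, coeffMap_single]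

theorem coeffMap_aeval {K : Type*} [Field K] (ι : K →+* ℂ) (x : LaurentSeries K)
    (p : Polynomial K) :
    coeffMap ι (Polynomial.aeval x p) = Polynomial.aeval (coeffMap ι x) (p.map ι) := by
  rw [Polynomial.aeval_def, Polynomial.aeval_def, Polynomial.hom_eval₂, Polynomial.eval₂_map]
  congr 1
  ext1 c
  exact coeffMap_algebraMap ι c

/-- the relation `U = ℘(∫ f) V` for any representation of `x` -/
theorem eq_of_isP {x u v : LaurentSeries ℂ} {U V : ℍ → ℂ} (hx : IsP f L x) (huv : x * v = u)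
    (hU : Rep N (RingHom.id ℂ) u U) (hV : Rep N (RingHom.id ℂ) v V) (τ : ℍ)
    (hτ : Ei f τ ∉ L.lattice) : U τ = ℘[L] (Ei f τ) * V τ := by
  obtain ⟨u', v', U', V', hv', hu', hU', hV', h'⟩ := hx
  have h1 : U * V' = U' * V := by
    refine (hU.mul hV').unique ?_
    rw [show u * v' = u' * v from by rw [← huv, ← hu']; ring]
    exact hU'.mul hV
  have hV0 : V' ≠ 0 := fun h0 => hv' (hV'.eq_zero_iff.mpr h0)
  have hne : ∀ᶠ w in 𝓝[≠] τ, V' w ≠ 0 := by
    have h2 := (Mero.analyticAt_of_mdiff hV'.mdiff τ)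
    rcases AnalyticAt.eventually_eq_zero_or_eventually_ne_zero h2 with h3 | h3
    · exfalso
      apply hV0
      refine UpperHalfPlane.eq_zero_of_frequently (τ := τ) hV'.mdiff ?_
      have h4 : ∀ᶠ w in 𝓝[≠] τ, V' w = 0 := by
        have := (Mero.tendsto_coe_ne τ).eventually (h3.filter_mono nhdsWithin_le_nhds)
        refine this.mono fun w hw => ?_
        simpa using hw
      exact h4.frequently
    · refine ((Mero.tendsto_coe_ne τ).eventually h3).mono fun w hw => ?_
      simpa using hw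
  have hcont : ContinuousAt (fun w => ℘[L] (Ei f w) * V w) τ := by
    refine ContinuousAt.mul ?_ hV.mdiff.continuous.continuousAt
    exact ContinuousAt.comp (f := Ei f) (g := ℘[L]) (Moduli.analyticAt_P L hτ).continuousAt
      (continuous_Ei f).continuousAt
  have h5 : Tendsto U (𝓝[≠] τ) (𝓝 (U τ)) :=
    (hU.mdiff.continuous.tendsto τ).mono_left nhdsWithin_le_nhds
  have h6 : Tendsto (fun w => ℘[L] (Ei f w) * V w) (𝓝[≠] τ) (𝓝 (℘[L] (Ei f τ) * V τ)) :=
    hcont.tendsto.mono_left nhdsWithin_le_nhds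
  have h7 : ∀ᶠ w in 𝓝[≠] τ, Ei f w ∉ L.lattice :=
    ((continuous_Ei f).continuousAt.eventually
      (Moduli.eventually_notMem_lattice' L hτ)).filter_mono nhdsWithin_le_nhds
  refine tendsto_nhds_unique (h5.congr' ?_) h6
  filter_upwards [hne, h7] with w e1 e2
  have e3 := congrFun h1 w
  simp only [Pi.mul_apply, h' w e2] at e3
  apply mul_right_cancel₀ e1
  linear_combination e3

/-- **(S4)** -/
theorem liftStmt (N : ℕ) [NeZero N] : LiftStmt N := by
  intro f L x y hf hL hx hy S α β B hS n hn μ hμ hμn p q hc φ hφ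
  obtain ⟨c, hc0, hc⟩ := hc
  obtain ⟨u, v, U, V, hv, huv, hU, hV⟩ := exists_rep_frac_bar N X0Emb.iota x.2
  -- over `ℂ`
  have hUC : Rep N (RingHom.id ℂ) (coeffMap X0Emb.iota u) U :=
    ⟨hU.mdiff, hU.inv, hU.growth, by rw [coeffMap_id]; exact hU.lexp⟩
  have hVC : Rep N (RingHom.id ℂ) (coeffMap X0Emb.iota v) V :=
    ⟨hV.mdiff, hV.inv, hV.growth, by rw [coeffMap_id]; exact hV.lexp⟩
  have hUV : ∀ τ : ℍ, Ei f τ ∉ L.lattice → U τ = ℘[L] (Ei f τ) * V τ :=
    eq_of_isP hx (by rw [← map_mul, huv]) hUC hVC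
  obtain ⟨κ, hκ⟩ : ∃ κ : ℂ, κ ^ n = c := IsAlgClosed.exists_pow_nat_eq c (Nat.pos_of_ne_zero hn)
  set G : ℍ → ℂ := fun τ => κ * (hroot S α n μ (Ei f τ) * V τ) with hG
  have hm : ∀ τ : ℍ, MeromorphicAt (G ∘ ofComplex) (τ : ℂ) := fun τ =>
    (MeromorphicAt.const κ _).mul ((mero_comp (meromorphicAt_hroot hS n μ) τ).mul
      (AnalyticAt.meromorphicAt (Mero.analyticAt_of_mdiff hV.mdiff τ)))
  have hb : ∀ τ : ℍ, Mero.Bdd G τ := fun τ =>
    (Mero.bdd_of_continuousAt (F := fun _ : ℍ => κ) continuousAt_const).mul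
      (bdd_lift hS n μ hU.mdiff.continuous hV.mdiff.continuous hUV τ)
  have han : ∀ τ : ℍ, Ei f τ ∉ L.lattice → Mero.An G τ := by
    intro τ hτ
    have h1 : Mero.An (fun τ => hroot S α n μ (Ei f τ)) τ :=
      AnalyticAt.comp_of_eq (f := Ei f ∘ ofComplex) (g := hroot S α n μ)
        (analyticAt_hroot hS n μ hτ) (Mero.analyticAt_of_mdiff (mdiff_Ei f) τ) (by simp)
    exact analyticAt_const.mul (AnalyticAt.mul h1 (Mero.analyticAt_of_mdiff hV.mdiff τ))
  have hGs : ∀ (γ : Gamma0 N) (τ : ℍ), G ((γ : SL(2, ℤ)) • τ) = (charOf n φ γ : ℂ) * G τ := by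
    intro γ τ
    rw [hG]
    beta_reduce
    rw [smul_lift hS n μ hL hn hμ hV.inv hφ]
    ring
  have hchar : HasChar N (charOf n φ) (Mero.ext G) := by
    refine ⟨Mero.mdiff_ext hm hb, fun σ => ?_, fun γ τ => ?_⟩
    · obtain ⟨m, hgr⟩ := ((ModGrowth.const κ).mul
        ((growth_comp (f := f) (meromorphicAt_hroot hS n μ)).mul hV.growth)) σ
      refine ⟨m, hgr.congr' ?_ EventuallyEq.rfl⟩
      obtain ⟨T, hT⟩ := cusp_comp (f := f) (meromorphicAt_hroot hS n μ) σ
      have h1 : ∀ᶠ w : ℍ in atImInfty, T < w.im := by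
        rw [atImInfty, eventually_comap]
        filter_upwards [eventually_gt_atTop T] with a ha w hw
        rw [hw]
        exact ha
      filter_upwards [h1] with w hw
      have h2 : Mero.An G (σ • w) := analyticAt_const.mul
        (AnalyticAt.mul (hT w hw) (Mero.analyticAt_of_mdiff hV.mdiff _))
      rw [Mero.ext_eq hm h2]
      rfl
    · have hcont : Continuous (Mero.ext G) := (Mero.mdiff_ext hm hb).continuous
      have h1 : Tendsto (fun w => Mero.ext G ((γ : SL(2, ℤ)) • w)) (𝓝[≠] τ)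
          (𝓝 (Mero.ext G ((γ : SL(2, ℤ)) • τ))) :=
        ((hcont.comp (Mero.continuous_smul' γ)).tendsto τ).mono_left nhdsWithin_le_nhds
      have h2 : Tendsto (fun w => (charOf n φ γ : ℂ) * Mero.ext G w) (𝓝[≠] τ)
          (𝓝 ((charOf n φ γ : ℂ) * Mero.ext G τ)) :=
        ((continuous_const.mul hcont).tendsto τ).mono_left nhdsWithin_le_nhds
      refine tendsto_nhds_unique (h1.congr' ?_) h2
      filter_upwards [Mero.eventually_an hm τ, (Mero.tendsto_smul_ne (γ : SL(2, ℤ)) τ).eventually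
        (Mero.eventually_an hm ((γ : SL(2, ℤ)) • τ))] with w hw1 hw2
      rw [Mero.ext_eq hm hw1, Mero.ext_eq hm hw2, hGs]
  -- the `n`-th power
  have hpow := hchar.pow n
  rw [charOf_pow hn φ] at hpow
  have hpinv : ∀ γ ∈ Gamma0 N, ∀ τ : ℍ, (Mero.ext G ^ n) (γ • τ) = (Mero.ext G ^ n) τ := by
    intro γ hγ τ
    have := hpow.smul ⟨γ, hγ⟩ τ
    simpa using this
  obtain ⟨Gs, hGs'⟩ := hpow.exists_lexp (fun τ => by
    have h1 : ModularGroup.T ∈ Gamma0 N := by
      rw [Gamma0_mem]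
      simp [ModularGroup.T]
    have h2 := hpinv _ h1 τ
    rw [UpperHalfPlane.modular_T_smul] at h2
    exact h2)
  -- the value
  set wx : modularFunctionFieldBar N := Polynomial.aeval x p + Polynomial.aeval x q * (y / 2)
    with hwx
  have hwxC : coeffMap X0Emb.iota (wx : LaurentSeries (AlgebraicClosure ℚ)) =
      Polynomial.aeval (coeffMap X0Emb.iota (x : LaurentSeries (AlgebraicClosure ℚ)))
        (p.map X0Emb.iota) +
      Polynomial.aeval (coeffMap X0Emb.iota (x : LaurentSeries (AlgebraicClosure ℚ)))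
        (q.map X0Emb.iota) * (coeffMap X0Emb.iota (y : LaurentSeries (AlgebraicClosure ℚ)) *
          algebraMap ℂ (LaurentSeries ℂ) (1 / 2)) := by
    have h1 : (wx : LaurentSeries (AlgebraicClosure ℚ)) =
        Polynomial.aeval (x : LaurentSeries (AlgebraicClosure ℚ)) p +
        Polynomial.aeval (x : LaurentSeries (AlgebraicClosure ℚ)) q *
          ((y : LaurentSeries (AlgebraicClosure ℚ)) *
            algebraMap (AlgebraicClosure ℚ) (LaurentSeries (AlgebraicClosure ℚ)) (1 / 2)) := by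
      rw [hwx]
      simp [div_eq_mul_inv]
      exact Or.inl (Or.inl (map_ofNat _ 2).symm)
    rw [h1, map_add, map_mul, map_mul, coeffMap_aeval, coeffMap_aeval, coeffMap_algebraMap,
      map_div₀ X0Emb.iota, map_one X0Emb.iota, map_ofNat X0Emb.iota]
  have hRF : RF f L (coeffMap X0Emb.iota (wx : LaurentSeries (AlgebraicClosure ℚ)))
      (fun z => (p.map X0Emb.iota).eval (℘[L] z) +
        (q.map X0Emb.iota).eval (℘[L] z) * (℘'[L] z * (1 / 2))) := by
    rw [hwxC]
    exact (RF.aeval hx _).add ((RF.aeval hx _).mul (RF.mul hy (RF.const _)))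
  obtain ⟨u', v', U', V', hv', hu', hU', hV', hUV'⟩ := hRF
  have hval : ∀ τ : ℍ, Ei f τ ∉ L.lattice →
      U' τ = c * hroot S α n μ (Ei f τ) ^ n * V' τ := by
    intro τ hτ
    rw [hUV' τ hτ, hc _ hτ]
    ring
  have hfun : Mero.ext G ^ n * V' = V ^ n * U' := by
    have hc1 := (Mero.mdiff_ext hm hb).continuous
    have hc2 := hV'.mdiff.continuous
    have hc3 := hV.mdiff.continuous
    have hc4 := hU'.mdiff.continuous
    refine Continuous.ext_on (dense_Ei hf (Moduli.countable_lattice L)) (by fun_prop)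
      (by fun_prop) fun τ hτ => ?_
    simp only [Pi.mul_apply, Pi.pow_apply]
    rw [Mero.ext_eq hm (han τ hτ), hval τ hτ, hG, ← hκ]
    ring
  have hser : Gs * v' = coeffMap X0Emb.iota v ^ n * u' := by
    have l1 : LExp 1 (Mero.ext G ^ n * V') (Gs * v') := by
      have := hV'.lexp
      rw [coeffMap_id] at this
      exact hGs'.mul this
    have l2 : LExp 1 (V ^ n * U') (coeffMap X0Emb.iota v ^ n * u') := by
      have h1 := ((hVC.pow n).mul hU').lexp
      rwa [coeffMap_id] at h1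
    rw [hfun] at l1
    exact l1.unique one_pos l2
  have hGs2 : Gs = coeffMap X0Emb.iota
      ((wx * (⟨v, hV.mem_bar⟩ : modularFunctionFieldBar N) ^ n : modularFunctionFieldBar N) :
        LaurentSeries (AlgebraicClosure ℚ)) := by
    apply mul_right_cancel₀ hv'
    rw [hser, MulMemClass.coe_mul, map_mul, SubmonoidClass.coe_pow, map_pow, ← hu']
    ring
  refine ⟨⟨v, hV.mem_bar⟩, Mero.ext G, fun h => hv (congrArg Subtype.val h), hchar, ?_, ?_⟩
  · rw [← hGs2]
    exact hGs'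
  · intro h0
    have h1 : u' = 0 := by
      rw [← hu', h0]
      simp
    have h2 : U' = 0 := hU'.eq_zero_iff.mp h1
    have hV0 : V' ≠ 0 := fun h => hv' (hV'.eq_zero_iff.mpr h)
    obtain ⟨hWo, hWne⟩ := nonempty_ne_zero hV'.mdiff.continuous hV0
    have hC : ((L.lattice : Set ℂ) ∪ (fun z => z + μ / n) '' (L.lattice : Set ℂ)).Countable :=
      (Moduli.countable_lattice L).union ((Moduli.countable_lattice L).image _)
    obtain ⟨τ, hτ1, hτ2⟩ := (dense_Ei hf hC).inter_open_nonempty _ hWo hWne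
    have h3 : Ei f τ ∉ L.lattice := fun h => hτ2 (Or.inl h)
    have h4 := hval τ h3
    rw [h2, Pi.zero_apply] at h4
    have h5 : hroot S α n μ (Ei f τ) = 0 := by
      have h6 := (mul_eq_zero.mp h4.symm).resolve_right hτ1
      exact pow_eq_zero_iff hn |>.mp ((mul_eq_zero.mp h6).resolve_left hc0)
    rw [hroot, div_eq_zero_iff, mul_eq_zero] at h5
    rcases h5 with (h5 | h5) | h5
    · exact Complex.exp_ne_zero _ h5
    · exact hτ2 (Or.inr ⟨_, (hS.zero _).mp h5, by simp⟩)
    · exact h3 ((hS.zero _).mp h5)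

end Fermat.Agent.Cor.ES
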