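import Fermat.Agent.Corollaries.ES.Defs3
import Fermat.Agent.Corollaries.ES.Lift

/-!
# Eichler–Shimura, (Kum): the Kummer function of `jMap φ_μ`
-/

set_option autoImplicit false

open UpperHalfPlane CongruenceSubgroup ModularFormClass
open scoped MatrixGroups Manifold ModularForm PeriodPair

noncomputable section

namespace Fermat.Agent.Cor.ES

open Fermat.Agent.ModFun Fermat.Agent.X0Emb Fermat.Agent.Cor.HW.Per ModularCurve
open Fermat.Agent.GalRep ModularCurve.Period Fermat.Agent.HeckePar AlgebraicCurve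

/-- the function of a torsion point under a field homomorphism -/
theorem DivFn.mapHom {F K : Type*} [Field F] [Field K] (ι : F →+* K) {n : ℕ} {a b x₀ y₀ : F}
    {p q : Polynomial F} (h : DivFn n a b x₀ y₀ p q) :
    DivFn n (ι a) (ι b) (ι x₀) (ι y₀) (p.map ι) (q.map ι) := by
  obtain ⟨⟨c, hc0, hc⟩, h2, h3⟩ := h
  refine ⟨⟨ι c, (map_ne_zero ι).mpr hc0, ?_⟩, ?_, ?_⟩
  · have h4 := congrArg (Polynomial.map ι) hc
    simp only [Polynomial.map_sub, Polynomial.map_pow, Polynomial.map_mul, Polynomial.map_X,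
      Polynomial.map_C] at h4
    rw [map_div₀ ι, map_div₀ ι, map_ofNat ι] at h4
    exact h4
  · rw [Polynomial.eval_map_apply, Polynomial.eval_map_apply, ← map_mul, ← map_add, h2, map_zero]
  · rw [Polynomial.eval_map_apply, Polynomial.eval_map_apply, ← map_mul, ← map_sub]
    exact (map_ne_zero ι).mpr h3

/-- **(Kum)** -/
theorem kumStmt_of {N : ℕ} [NeZero N] (hlift : LiftStmt N) : KumStmt N := by
  intro f L a b x y S α β B hD n hn μ hμ hμn x₀ y₀ hy0 hx₀ hy₀ p q hpq φ hφ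
  have hf : f ≠ 0 := by
    rintro rfl
    have h1 : qCoeff (0 : CuspForm (Gamma0 N) 2) 1 = 1 := hD.hf.1
    have : qCoeff (0 : CuspForm (Gamma0 N) 2) 1 = 0 := by
      have h2 := (FermatAgent.HeckeEigen.qCoeff_smul (0 : ℂ) (0 : CuspForm (Gamma0 N) 2) 1)
      rw [zero_smul, zero_mul] at h2
      exact h2
    rw [this] at h1
    exact zero_ne_one h1
  have hL : ∀ γ, om f γ ∈ L.lattice := fun γ => (hD.lat _).mpr ⟨γ, rfl⟩
  have hy' : ℘'[L] (μ / n) ≠ 0 := by
    intro h0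
    rw [h0, zero_div] at hy₀
    exact hy0 ((map_eq_zero X0Emb.iota).mp hy₀)
  have hdiv : DivFn n L.g₂ L.g₃ (℘[L] (μ / n)) (℘'[L] (μ / n) / 2) (p.map X0Emb.iota)
      (q.map X0Emb.iota) := by
    have := hpq.mapHom X0Emb.iota
    rw [hx₀, hy₀] at this
    rw [hD.g₂, hD.g₃]
    simpa using this
  obtain ⟨c, hc0, hc⟩ := rootStmt L S α β B hD.sig n hn μ hμ hμn hy' _ _ hdiv
  obtain ⟨s, g, hs, hg, hgn, hne⟩ := hlift f L x y hf hL hD.isP hD.isP' S α β B hD.sig n hn μ hμ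
    hμn p q ⟨c, hc0, hc⟩ φ hφ
  have h0 : (Polynomial.aeval x p + Polynomial.aeval x q * (y / 2)) * s ^ n ≠ 0 :=
    mul_ne_zero hne (pow_ne_zero n hs)
  obtain ⟨z, hz⟩ := exists_isKummer_of_dvd hn h0 fun v =>
    dvd_ord_of_hasChar (g := ⟨g, hg.mdiff⟩) hg (parChar_charOf n φ.2) h0 hgn v
  have h1 : jMap N n hn φ = z := jMap_eq_of_rel hn ⟨_, g, hz, hg, hgn⟩
  rw [h1]
  have h2 := hz.mul_pow (inv_ne_zero hs)
  rwa [mul_assoc, ← mul_pow, mul_inv_cancel₀ hs, one_pow, mul_one] at h2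

theorem kumStmt (N : ℕ) [NeZero N] : KumStmt N := kumStmt_of (liftStmt N)

end Fermat.Agent.Cor.ES
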