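import Fermat.Agent.Corollaries.ES.Main
import Fermat.Agent.Corollaries.HW.PeriodCusp

/-!
# The value `L(f, 1)` and the real period of the curve of `f`

`f` is a normalized eigenform of weight two with integral eigenvalues, `E = ℂ / L` its curve over
`ℚ`, `Ω` the least positive real period of `E`. Then `L(f, 1)` is a rational multiple of `Ω` and
`#E(𝔽_r) L(f, 1) ∈ ℤ Ω` for all good primes `r` (Birch, Manin).
-/

set_option autoImplicit false

open UpperHalfPlane hiding I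
open CongruenceSubgroup ModularFormClass
open scoped MatrixGroups Manifold ModularForm PeriodPair WeierstrassCurve.Affine

noncomputable section

namespace Fermat.Agent.Cor.ES

open Fermat.Agent.ModFun Fermat.Agent.X0Emb Fermat.Agent.Cor.HW.Per ModularCurve ModularCurve.Period
open Fermat.Agent.HeckePar Fermat.Agent.S21per

variable {N : ℕ} [NeZero N] {f : CuspForm (Gamma0 N) 2}

/-- the real period -/
theorem exists_real_period (hf : f.IsNormalizedEigenform)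
    (ha : ∀ ℓ : Nat.Primes, ∃ c : ℤ, qCoeff f ℓ = c) {L : PeriodPair}
    (hL : ∀ z, z ∈ L.lattice ↔ ∃ γ, om f γ = z) :
    ∃ Ω : ℝ, 0 < Ω ∧ ∀ x : ℝ, (x : ℂ) ∈ L.lattice ↔ ∃ n : ℤ, x = n * Ω := by
  obtain ⟨Ω₁, Ω₂, h₁, h₂, φ₁, φ₂, s₁, s₂, hre, him⟩ := exists_periods hf ha
  have hr := exists_int_qCoeff hf ha
  -- real periods are multiples of `Ω₁`
  have hmul : ∀ x : ℝ, (x : ℂ) ∈ L.lattice → ∃ k : ℤ, x = k * Ω₁ := by
    intro x hx
    obtain ⟨γ, hγ⟩ := (hL _).mp hx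
    refine ⟨φ₁ γ, ?_⟩
    have h3 := hre γ
    rw [hγ, Complex.ofReal_re] at h3
    rw [h3, mul_comm]
  let H : AddSubgroup ℤ :=
    { carrier := {k : ℤ | (((k : ℝ) * Ω₁ : ℝ) : ℂ) ∈ L.lattice}
      zero_mem' := by simp
      add_mem' := by
        intro k m hk hm
        have h3 := L.lattice.add_mem hk hm
        change ((((k + m : ℤ) : ℝ) * Ω₁ : ℝ) : ℂ) ∈ L.lattice
        have h4 : ((((k + m : ℤ) : ℝ) * Ω₁ : ℝ) : ℂ) =
            (((k : ℝ) * Ω₁ : ℝ) : ℂ) + (((m : ℝ) * Ω₁ : ℝ) : ℂ) := by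
          push_cast
          ring
        rw [h4]
        exact h3
      neg_mem' := by
        intro k hk
        have h3 := L.lattice.neg_mem hk
        change ((((-k : ℤ) : ℝ) * Ω₁ : ℝ) : ℂ) ∈ L.lattice
        have h4 : ((((-k : ℤ) : ℝ) * Ω₁ : ℝ) : ℂ) = -(((k : ℝ) * Ω₁ : ℝ) : ℂ) := by
          push_cast
          ring
        rw [h4]
        exact h3 }
  obtain ⟨d, hd⟩ := Int.subgroup_cyclic H
  have hH : ∀ k : ℤ, k ∈ H ↔ d ∣ k := by
    intro k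
    rw [hd, ← AddSubgroup.zmultiples_eq_closure, Int.mem_zmultiples_iff]
  -- a nonzero real period
  obtain ⟨γ, hγ⟩ := s₁ 1
  have h2H : (2 : ℤ) ∈ H := by
    obtain ⟨g, rfl⟩ := Additive.ofMul.surjective γ
    have hc := om_conj hr g
    have h3 : om f (Additive.ofMul (jConjGamma0 N g)) + om f (Additive.ofMul g) =
        ((((2 : ℤ) : ℝ) * Ω₁ : ℝ) : ℂ) := by
      rw [hc]
      apply Complex.ext
      · rw [Complex.add_re, Complex.conj_re, hre, hγ, Complex.ofReal_re]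
        push_cast
        ring
      · rw [Complex.add_im, Complex.conj_im, Complex.ofReal_im]
        ring
    change ((((2 : ℤ) : ℝ) * Ω₁ : ℝ) : ℂ) ∈ L.lattice
    rw [← h3]
    exact L.lattice.add_mem ((hL _).mpr ⟨_, rfl⟩) ((hL _).mpr ⟨_, rfl⟩)
  have hd0 : d ≠ 0 := by
    rintro rfl
    have := (hH 2).mp h2H
    rw [zero_dvd_iff] at this
    exact two_ne_zero this
  have hdpos : (0 : ℝ) < |(d : ℝ)| := abs_pos.mpr (by exact_mod_cast hd0)
  refine ⟨|(d : ℝ)| * Ω₁, mul_pos hdpos h₁, fun x => ?_⟩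
  have habs : |(d : ℝ)| = ((|d| : ℤ) : ℝ) := (Int.cast_abs).symm
  constructor
  · intro hx
    obtain ⟨k, rfl⟩ := hmul x hx
    obtain ⟨m, hm⟩ := (hH k).mp hx
    obtain ⟨n, hn⟩ := abs_dvd_abs |d| k |>.mp ((abs_dvd_abs _ _).mpr ((abs_dvd d k).mpr ⟨m, hm⟩))
    refine ⟨n, ?_⟩
    rw [habs, hn]
    push_cast
    ring
  · rintro ⟨n, rfl⟩
    have h3 : (n * |d| : ℤ) ∈ H := (hH _).mpr (Dvd.dvd.mul_left ((dvd_abs d d).mpr dvd_rfl) n)
    have h4 : (((n * |d| : ℤ) : ℝ) * Ω₁ : ℝ) = n * (|(d : ℝ)| * Ω₁) := by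
      rw [habs]
      push_cast
      ring
    rw [← h4]
    exact h3

/-- Manin's relation: `(1 + r - a_r) L(f, 1)` is an integral multiple of the real period. -/
theorem manin_period (hf : f.IsNormalizedEigenform)
    (ha : ∀ ℓ : Nat.Primes, ∃ c : ℤ, qCoeff f ℓ = c) {L : PeriodPair}
    (hL : ∀ z, z ∈ L.lattice ↔ ∃ γ, om f γ = z) {Ω : ℝ}
    (hΩ : ∀ x : ℝ, (x : ℂ) ∈ L.lattice ↔ ∃ n : ℤ, x = n * Ω) {r : ℕ} (hr : r.Prime)
    (hrN : ¬ r ∣ N) :
    ∃ m : ℤ, (1 + r - qCoeff f r) * ModularForm.L (k := 2) two_pos f 1 = m * Ω := by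
  have : Fact r.Prime := ⟨hr⟩
  obtain ⟨c, hc⟩ := ha ⟨r, hr⟩
  change qCoeff f r = c at hc
  obtain ⟨g, hg⟩ := manin (p := r) hf hrN
  have him := L_one_im (exists_int_qCoeff hf ha)
  set v := ModularForm.L (k := 2) two_pos f 1 with hv
  have hreal : v = ((v.re : ℝ) : ℂ) := Complex.ext (by simp) (by simp [him])
  have hmem : (1 + r - qCoeff f r) * v ∈ L.lattice := by
    rw [hg]
    refine L.lattice.neg_mem (Submodule.sum_mem _ fun j _ => (hL _).mpr ⟨_, rfl⟩)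
  have h3 : (1 + r - qCoeff f r) * v = (((1 + r - c : ℝ) * v.re : ℝ) : ℂ) := by
    rw [hc]
    conv_lhs => rw [hreal]
    push_cast
    ring
  rw [h3, hΩ] at hmem
  obtain ⟨m, hm⟩ := hmem
  refine ⟨m, ?_⟩
  rw [h3, hm]
  push_cast
  ring

/-- **Birch, Manin**: `L(f, 1)` is a rational multiple of the real period `Ω` of the curve `E` of
`f`, and `#E(𝔽_r) L(f, 1) ∈ ℤ Ω` for all good primes `r`. -/
theorem exists_curve_L_one (f : CuspForm (Gamma0 N) 2) (hf : f.IsNormalizedEigenform)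
    (ha : ∀ ℓ : Nat.Primes, ∃ c : ℤ, qCoeff f ℓ = c) :
    ∃ (L : PeriodPair) (a b : ℚ) (Ω : ℝ), (∀ z, z ∈ L.lattice ↔ ∃ γ, om f γ = z) ∧
      L.g₂ = a ∧ L.g₃ = b ∧ 0 < Ω ∧ (∀ x : ℝ, (x : ℂ) ∈ L.lattice ↔ ∃ n : ℤ, x = n * Ω) ∧
      (∃ q : ℚ, ModularForm.L (k := 2) two_pos f 1 = q * Ω) ∧
      ∀ W : WeierstrassCurve ℤ, W.IsIntegralModelOf ⟨0, 0, 0, -a / 4, -b / 4⟩ →
        ∀ r : ℕ, r.Prime → W.IsGoodPrimeFor r → ¬ r ∣ N →
          ∃ m : ℤ, ((r : ℂ) + 1 - W.apOfModel r) * ModularForm.L (k := 2) two_pos f 1 =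
            m * Ω := by
  obtain ⟨L, a, b, hL, h2, h3, hΔ, hW⟩ := eichler_shimura f hf ha
  obtain ⟨Ω, hΩ0, hΩ⟩ := exists_real_period hf ha hL
  have key : ∀ W : WeierstrassCurve ℤ, W.IsIntegralModelOf ⟨0, 0, 0, -a / 4, -b / 4⟩ →
        ∀ r : ℕ, r.Prime → W.IsGoodPrimeFor r → ¬ r ∣ N →
          ∃ m : ℤ, ((r : ℂ) + 1 - W.apOfModel r) * ModularForm.L (k := 2) two_pos f 1 =
            m * Ω := by
    intro W hWE r hr hg hrN
    obtain ⟨m, hm⟩ := manin_period hf ha hL hΩ hr hrN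
    refine ⟨m, ?_⟩
    rw [← hm, hW W hWE r hr hg hrN]
    ring
  refine ⟨L, a, b, Ω, hL, h2, h3, hΩ0, hΩ, ?_, key⟩
  obtain ⟨W, hWE, hΔW, -⟩ := Fermat.Agent.Cor.MinModel.exists_globalMinimal _ hΔ
  obtain ⟨r, hle, hr⟩ := Nat.exists_infinite_primes (N + W.Δ.natAbs + 1)
  have hN0 : 0 < N := Nat.pos_of_ne_zero (NeZero.ne N)
  have hrN : ¬ r ∣ N := fun h => absurd (Nat.le_of_dvd hN0 h) (by omega)
  have hg : W.IsGoodPrimeFor r := fun h => by
    have h4 := Nat.le_of_dvd (Int.natAbs_pos.mpr hΔW) (Int.natCast_dvd.mp h)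
    omega
  obtain ⟨m, hm⟩ := key W hWE r hr hg hrN
  have hne : ((r : ℤ) + 1 - W.apOfModel r) ≠ 0 := by
    have : Fact r.Prime := ⟨hr⟩
    have h5 : W.apOfModel r = (r : ℤ) + 1 - ((W.reductionMod r).card : ℤ) := by
      change (Nat.card (ZMod r) : ℤ) + 1 - ((W.reductionMod r).card : ℤ) = _
      rw [Nat.card_zmod]
    rw [h5]
    have h6 : 0 < (W.reductionMod r).card := by
      have : Nonempty (W.reductionMod r).toAffine.Point := ⟨0⟩
      exact Nat.card_pos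
    omega
  refine ⟨m / ((r : ℤ) + 1 - W.apOfModel r : ℤ), ?_⟩
  have hneC : ((r : ℂ) + 1 - W.apOfModel r) ≠ 0 := by exact_mod_cast hne
  push_cast
  rw [div_mul_eq_mul_div, eq_div_iff hneC, ← hm]
  ring

end Fermat.Agent.Cor.ES
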