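import Fermat.Agent.Corollaries.ES.Semistable
import Fermat.Agent.Corollaries.HW.Hasse

/-!
# A lower bound for `L(W, 1)`

`W` a semistable elliptic curve over `ℚ`, `Ω` the real period of its newform. For every good prime
`r` the number `#W(𝔽_r) L(W, 1)` is an integral multiple of `Ω`. So `|L(W, 1)| ≥ Ω / #W(𝔽_r)` if
`L(W, 1)` is not zero; for `W` good at two this is at least `Ω / 5`.
-/

set_option autoImplicit false

open CongruenceSubgroup ModularFormClass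

noncomputable section

namespace Fermat.Agent.Cor.ES

open Fermat.Agent.Cor.HW.Per Fermat.Agent.Cor.HW

variable {W : WeierstrassCurve ℤ}

/-- `#W(𝔽_r) = r + 1 - a_r` is positive. -/
theorem card_pos {r : ℕ} (hr : r.Prime) (hg : W.IsGoodPrimeFor r) :
    0 < (r : ℤ) + 1 - W.apOfModel r := by
  have h1 := apOfModel_sq_le hr hg
  have h2 : (2 : ℤ) ≤ r := by exact_mod_cast hr.two_le
  by_contra h
  nlinarith

/-- **`L(W, 1)` is discrete**: it lies in `ℤ · Ω / #W(𝔽_r)` for every good prime `r`; if it is not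
zero, then `|L(W, 1)| ≥ Ω / #W(𝔽_r)`, and `|L(W, 1)| ≥ Ω / 5` if `W` is good at two. -/
theorem exists_lower_bound (hΔ : W.Δ ≠ 0) (hW : W.IsSemistableModel) :
    ∃ (f : CuspForm (Gamma0 W.conductorLevel) 2) (Ω : ℝ), f.IsNewform ∧
      (∀ p : ℕ, p.Prime → qCoeff f p = (ap W p : ℂ)) ∧ 0 < Ω ∧
      (∀ x : ℝ, (∃ γ, om f γ = x) ↔ ∃ n : ℤ, x = n * Ω) ∧
      ∀ Λ : ℂ → ℂ, IsHasseWeil W Λ →
        (∀ r : ℕ, r.Prime → W.IsGoodPrimeFor r →
          ∃ m : ℤ, ((r + 1 - W.apOfModel r : ℤ) : ℂ) * Λ 1 = m * Ω) ∧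
        (Λ 1 ≠ 0 → ∀ r : ℕ, r.Prime → W.IsGoodPrimeFor r →
          Ω / (r + 1 - W.apOfModel r : ℤ) ≤ ‖Λ 1‖) ∧
        (Λ 1 ≠ 0 → W.IsGoodPrimeFor 2 → Ω / 5 ≤ ‖Λ 1‖) := by
  obtain ⟨f, L, a, b, Ω, W', hf, hap, hL, -, -, hΩ0, hΩ, -, -, -, -, -, h⟩ :=
    exists_companion hΔ hW
  refine ⟨f, Ω, hf, hap, hΩ0, fun x => ?_, fun Λ hΛ => ?_⟩
  · rw [← hL, hΩ]
  have hm : ∀ r : ℕ, r.Prime → W.IsGoodPrimeFor r →
      ∃ m : ℤ, ((r + 1 - W.apOfModel r : ℤ) : ℂ) * Λ 1 = m * Ω := by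
    intro r hr hg
    obtain ⟨m, hm⟩ := (h Λ hΛ).2 r hr hg
    refine ⟨m, ?_⟩
    rw [← hm]
    push_cast
    ring
  have hlow : Λ 1 ≠ 0 → ∀ r : ℕ, r.Prime → W.IsGoodPrimeFor r →
      Ω / (r + 1 - W.apOfModel r : ℤ) ≤ ‖Λ 1‖ := by
    intro h0 r hr hg
    obtain ⟨m, hm⟩ := hm r hr hg
    have hc := card_pos hr hg
    have hc' : (0 : ℝ) < ((r + 1 - W.apOfModel r : ℤ) : ℝ) := by exact_mod_cast hc
    have hne : ((r + 1 - W.apOfModel r : ℤ) : ℂ) ≠ 0 := by exact_mod_cast hc.ne'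
    have hm0 : m ≠ 0 := by
      rintro rfl
      rw [Int.cast_zero, zero_mul] at hm
      exact (mul_ne_zero hne h0) hm
    have h1 := congrArg norm hm
    rw [norm_mul, norm_mul, Complex.norm_intCast, Complex.norm_intCast, Complex.norm_real,
      abs_of_pos hc', Real.norm_of_nonneg hΩ0.le] at h1
    have h2 : (1 : ℝ) ≤ |(m : ℝ)| := by exact_mod_cast Int.one_le_abs hm0
    rw [div_le_iff₀ hc', mul_comm ‖Λ 1‖, h1]
    nlinarith
  refine ⟨hm, hlow, fun h0 hg => ?_⟩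
  refine le_trans ?_ (hlow h0 2 Nat.prime_two hg)
  have h1 := apOfModel_sq_le Nat.prime_two hg
  have h2 : ((2 : ℕ) : ℤ) + 1 - W.apOfModel 2 ≤ 5 := by
    push_cast at h1 ⊢
    by_contra h
    nlinarith
  have hc := card_pos Nat.prime_two hg
  have hc' : (0 : ℝ) < ((((2 : ℕ) : ℤ) + 1 - W.apOfModel 2 : ℤ) : ℝ) := by exact_mod_cast hc
  have h2' : ((((2 : ℕ) : ℤ) + 1 - W.apOfModel 2 : ℤ) : ℝ) ≤ 5 := by exact_mod_cast h2
  exact div_le_div_of_nonneg_left hΩ0.le hc' h2'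

end Fermat.Agent.Cor.ES
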