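import Fermat.Agent.Corollaries.ES.Defs3
import Fermat.Agent.Corollaries.ES.Exp
import Fermat.Agent.Corollaries.ES.ModY

/-!
# The modular parametrization
-/

set_option autoImplicit false

open UpperHalfPlane CongruenceSubgroup ModularFormClass
open scoped MatrixGroups Manifold ModularForm PeriodPair WeierstrassCurve.Affine

noncomputable section

namespace Fermat.Agent.Cor.ES

open Fermat.Agent.ModFun Fermat.Agent.X0Emb Fermat.Agent.Cor.HW.Per ModularCurve
open Fermat.Agent.GalRep ModularCurve.Period Fermat.Agent.HeckePar AlgebraicCurve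

local notation "𝕂" => AlgebraicClosure ℚ

variable {N : ℕ} [NeZero N] {f : CuspForm (Gamma0 N) 2} {L : PeriodPair}

omit [NeZero N] in
theorem ne_zero_of_qCoeff (h1 : qCoeff f 1 = 1) : f ≠ 0 := by
  rintro rfl
  have : qCoeff (0 : CuspForm (Gamma0 N) 2) 1 = 0 := by
    have h2 := (FermatAgent.HeckeEigen.qCoeff_smul (0 : ℂ) (0 : CuspForm (Gamma0 N) 2) 1)
    rw [zero_smul, zero_mul] at h2
    exact h2
  rw [this] at h1
  exact zero_ne_one h1

/-- the function of `℘'(∫ f)` is unique -/
theorem IsP'.unique (hf : f ≠ 0) {y y' : LaurentSeries ℂ} (h : IsP' f L y) (h' : IsP' f L y') :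
    y = y' := by
  obtain ⟨u, v, U, V, hv, hu, hU, hV, hUV⟩ := h
  obtain ⟨u', v', U', V', hv', hu', hU', hV', hUV'⟩ := h'
  have h1 : U * V' = U' * V := by
    have h2 : Set.EqOn (U * V') (U' * V) {τ : ℍ | Ei f τ ∉ (L.lattice : Set ℂ)} := by
      intro τ hτ
      rw [Pi.mul_apply, Pi.mul_apply, hUV τ hτ, hUV' τ hτ]
      ring
    exact Continuous.ext_on (dense_Ei hf (Moduli.countable_lattice L))
      (hU.mul hV').mdiff.continuous (hU'.mul hV).mdiff.continuous h2
  have h3 := hU.mul hV'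
  rw [h1] at h3
  have h4 : u * v' = u' * v := h3.unique_left (hU'.mul hV)
  rw [← hu, ← hu'] at h4
  have h5 : (y - y') * (v * v') = 0 := by linear_combination h4
  exact sub_eq_zero.mp ((mul_eq_zero.mp h5).resolve_right (mul_ne_zero hv hv'))

variable {a b : ℚ} {x y : modularFunctionFieldBar N} {S α β : ℂ → ℂ} {B : ℂ → ℂ → ℤ}

theorem Dat.qCoeff_one (D : Dat f L a b x y S α β B) : qCoeff f 1 = 1 := D.hf.qCoeff_one

/-- the invariant differential `dx / y` is `f(q) dq / q` -/
theorem Dat.theta (D : Dat f L a b x y S α β B) :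
    Igusa.theta (coeffMap X0Emb.iota (x : LaurentSeries 𝕂)) =
      coeffMap X0Emb.iota (y : LaurentSeries 𝕂) * phi f := by
  have h1 := D.qCoeff_one
  have hf := ne_zero_of_qCoeff h1
  have h2 : coeffMap X0Emb.iota (y : LaurentSeries 𝕂) =
      Igusa.theta (coeffMap X0Emb.iota (x : LaurentSeries 𝕂)) / phi f :=
    D.isP'.unique hf (modStmt' N f L _ hf D.isP)
  have h3 : phi f ≠ 0 := by
    intro h
    have h4 := (lo_phi h1).1
    rw [h] at h4
    simp at h4
  rw [h2, div_mul_cancel₀ _ h3]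

theorem Dat.lead (D : Dat f L a b x y S α β B) :
    Lead (coeffMap X0Emb.iota (x : LaurentSeries 𝕂)) :=
  (expStmt f L _ D.qCoeff_one D.isP).2

/-- the equation of the curve -/
theorem Dat.equation (D : Dat f L a b x y S α β B) :
    y ^ 2 = 4 * x ^ 3 - algebraMap 𝕂 (modularFunctionFieldBar N) a * x -
      algebraMap 𝕂 (modularFunctionFieldBar N) b := by
  have h1 := D.qCoeff_one
  have h2 := (expStmt f L _ h1 D.isP).1
  unfold ODE at h2
  rw [D.theta] at h2
  have h3 : phi f ≠ 0 := by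
    intro h
    have h4 := (lo_phi h1).1
    rw [h] at h4
    simp at h4
  have h5 : coeffMap X0Emb.iota (y : LaurentSeries 𝕂) ^ 2 =
      4 * coeffMap X0Emb.iota (x : LaurentSeries 𝕂) ^ 3 -
        HahnSeries.C L.g₂ * coeffMap X0Emb.iota (x : LaurentSeries 𝕂) - HahnSeries.C L.g₃ := by
    have h6 : phi f ^ 2 ≠ 0 := pow_ne_zero 2 h3
    apply mul_right_cancel₀ h6
    linear_combination h2
  apply Subtype.ext
  apply GalRep.coeffMap_injective X0Emb.iota.injective
  have hC : ∀ c : ℚ, coeffMap X0Emb.iota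
      ((algebraMap 𝕂 (modularFunctionFieldBar N) c : modularFunctionFieldBar N) :
        LaurentSeries 𝕂) = HahnSeries.C (c : ℂ) := by
    intro c
    have h7 : ((algebraMap 𝕂 (modularFunctionFieldBar N) c : modularFunctionFieldBar N) :
        LaurentSeries 𝕂) = algebraMap 𝕂 (LaurentSeries 𝕂) c := rfl
    rw [h7, algebraMap_laurentSeries_eq_single, coeffMap_single, HahnSeries.C_apply]
    congr 1
    exact map_ratCast X0Emb.iota c
  have h8 : ((y ^ 2 : modularFunctionFieldBar N) : LaurentSeries 𝕂) =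
      (y : LaurentSeries 𝕂) ^ 2 := rfl
  have h9 : ((4 * x ^ 3 - algebraMap 𝕂 (modularFunctionFieldBar N) a * x -
      algebraMap 𝕂 (modularFunctionFieldBar N) b : modularFunctionFieldBar N) :
        LaurentSeries 𝕂) = 4 * (x : LaurentSeries 𝕂) ^ 3 -
      ((algebraMap 𝕂 (modularFunctionFieldBar N) a : modularFunctionFieldBar N) :
        LaurentSeries 𝕂) * (x : LaurentSeries 𝕂) -
      ((algebraMap 𝕂 (modularFunctionFieldBar N) b : modularFunctionFieldBar N) :
        LaurentSeries 𝕂) := rfl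
  rw [h8, h9, map_pow, map_sub, map_sub, map_mul, map_mul, map_pow, hC, hC, h5, D.g₂, D.g₃,
    map_ofNat]

end Fermat.Agent.Cor.ES
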