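import Fermat.Agent.Corollaries.ES.Defs3
import Fermat.Agent.EC.TateFrob
import Fermat.Agent.S41.VarChange

/-!
# Eichler–Shimura, part 3 (Quad): the quadratic equation of the Frobenius on `E[p]`

`E` is an elliptic curve over `ℚ`, `W` an integral model of `E` with good reduction at `r ≠ p`. A
Frobenius `σ` at a place over `r` satisfies `σ² - a_r σ + r = 0` on the `p`-torsion points of `E`
(Cayley and Hamilton).
-/

set_option autoImplicit false

open WeierstrassCurve WeierstrassCurve.Affine WeierstrassCurve.Affine.Point Polynomial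

noncomputable section

namespace Fermat.Agent.Cor.ES

local notation "𝕂" => AlgebraicClosure ℚ

/-- the equation on the integral model -/
theorem quad_model {W : WeierstrassCurve ℤ} (hW : W.Δ ≠ 0) {p r : ℕ} (hp : p.Prime)
    (hr : r.Prime) (hrp : r ≠ p) (hg : W.IsGoodPrimeFor r) {A : ValuationSubring 𝕂}
    (hA : A.LiesOverPrime r) {σ : 𝕂 ≃ₐ[ℚ] 𝕂} (hσ : A.IsFrobeniusAt σ r)
    (P : ((W.map (Int.castRingHom ℚ))⁄𝕂).Point) (hP : p • P = 0) :
    σ • (σ • P) - (W.apOfModel r) • (σ • P) + (r : ℤ) • P = 0 := by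
  haveI : Fact p.Prime := ⟨hp⟩
  haveI : Fact r.Prime := ⟨hr⟩
  haveI : NeZero p := ⟨hp.ne_zero⟩
  have hΔ : (W.map (Int.castRingHom ℚ)).Δ ≠ 0 := by
    rw [WeierstrassCurve.map_Δ, eq_intCast, Int.cast_ne_zero]
    exact hW
  haveI : Finite (Submodule.torsionBy ℤ ((W.map (Int.castRingHom ℚ))⁄𝕂).Point (p : ℤ)) :=
    Fermat.Agent.Torsion.finite_torsionBy_rat (W := W.map (Int.castRingHom ℚ)) hΔ hp.ne_zero
  haveI : Module.Finite (ZMod p)
      (Submodule.torsionBy ℤ ((W.map (Int.castRingHom ℚ))⁄𝕂).Point (p : ℤ)) :=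
    Module.Finite.of_finite
  set M := galoisRepModuleEnd (K := 𝕂) ℚ (W.map (Int.castRingHom ℚ)) p σ with hM
  have hc := Fermat.Agent.Tate.charpoly_galoisRep_frobenius_prime (p := p) hg (Ne.symm hrp) hA hσ
  have hCH := LinearMap.aeval_self_charpoly M
  rw [hM, hc, ← hM] at hCH
  let x : Submodule.torsionBy ℤ ((W.map (Int.castRingHom ℚ))⁄𝕂).Point (p : ℤ) :=
    ⟨P, by rw [Submodule.mem_torsionBy_iff, natCast_zsmul, hP]⟩
  have h1 := LinearMap.congr_fun hCH x
  simp only [map_add, map_sub, map_mul, map_pow, aeval_X, aeval_C, LinearMap.add_apply,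
    LinearMap.sub_apply, Module.End.mul_apply, pow_two, Module.algebraMap_end_apply,
    LinearMap.zero_apply] at h1
  rw [Int.cast_smul_eq_zsmul, Nat.cast_smul_eq_nsmul] at h1
  rw [← natCast_zsmul] at h1
  exact congrArg Subtype.val h1

/-- **The quadratic equation of the Frobenius on the torsion points** -/
theorem quadStmt : QuadStmt := by
  intro E hE W hW hWE p r hp hr hrp hg A hA σ hσ P hP
  obtain ⟨C, hC⟩ := hWE
  obtain ⟨e, he⟩ := S41vc.exists_equiv_galois hE hC
  have h1 := quad_model hW hp hr hrp hg hA hσ (e.symm P) (by rw [← map_nsmul, hP, _root_.map_zero])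
  have h2 := congrArg e h1
  rw [map_add, map_sub, map_zsmul, map_zsmul, he, he, _root_.map_zero, AddEquiv.apply_symm_apply] at h2
  exact h2

end Fermat.Agent.Cor.ES

end
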