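import Fermat.Agent.Corollaries.ES.Defs3
import Fermat.Agent.Moduli.Hom

/-!
# Eichler–Shimura, (Tor): the torsion points of `y² = x³ - (a/4) x - b/4` and the lattice
-/

set_option autoImplicit false

open UpperHalfPlane CongruenceSubgroup ModularFormClass
open scoped MatrixGroups Manifold ModularForm PeriodPair WeierstrassCurve.Affine

noncomputable section

namespace Fermat.Agent.Cor.ES

open Fermat.Agent.ModFun Fermat.Agent.X0Emb Fermat.Agent.Cor.HW.Per ModularCurve
open Fermat.Agent.GalRep ModularCurve.Period Fermat.Agent.HeckePar AlgebraicCurve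

local notation "𝕂" => AlgebraicClosure ℚ

namespace TorF

/-- the embedding as a map of `ℚ`-algebras -/
def iotaA : 𝕂 →ₐ[ℚ] ℂ := X0Emb.iota.toRatAlgHom

theorem iotaA_apply (z : 𝕂) : iotaA z = X0Emb.iota z := rfl

/-- the points over the complex numbers -/
abbrev PtsC (a b : ℚ) : Type := ((Wc a b : WeierstrassCurve ℚ)⁄ℂ).Point

theorem unif {L : PeriodPair} {a b : ℚ} (h2 : L.g₂ = a) (h3 : L.g₃ = b)
    (hΔ : (Wc a b : WeierstrassCurve ℚ).Δ ≠ 0) :
    Moduli.Unif L ((Wc a b : WeierstrassCurve ℚ)⁄ℂ) where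
  g₂ := by
    rw [h2]
    simp only [WeierstrassCurve.Affine.baseChange, WeierstrassCurve.baseChange,
      WeierstrassCurve.map, WeierstrassCurve.toAffine, Wc, WeierstrassCurve.c₄,
      WeierstrassCurve.b₂, WeierstrassCurve.b₄]
    simp
    ring
  g₃ := by
    rw [h3]
    simp only [WeierstrassCurve.Affine.baseChange, WeierstrassCurve.baseChange,
      WeierstrassCurve.map, WeierstrassCurve.toAffine, Wc, WeierstrassCurve.c₆,
      WeierstrassCurve.b₂, WeierstrassCurve.b₄, WeierstrassCurve.b₆]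
    simp
    ring
  Δ := by
    have h : ((Wc a b : WeierstrassCurve ℚ).map (algebraMap ℚ ℂ)).Δ ≠ 0 := by
      rw [WeierstrassCurve.map_Δ]
      exact (map_ne_zero _).mpr hΔ
    exact h

end TorF

open TorF in
theorem torStmt : TorStmt := by
  intro L a b h2 h3 hΔ n hn
  set U := unif h2 h3 hΔ with hU
  let m : Pts a b →+ PtsC a b :=
    WeierstrassCurve.Affine.Point.map (W' := (Wc a b : WeierstrassCurve ℚ)) iotaA
  have hminj : Function.Injective m := WeierstrassCurve.Affine.Point.map_injective iotaA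
  have hnC : (n : ℂ) ≠ 0 := Nat.cast_ne_zero.mpr hn
  -- the `n`-torsion points over `ℂ` come from `𝕂`
  have hcK : Nat.card {P : Pts a b // n • P = 0} = n ^ 2 :=
    Torsion.card_torsion (K := 𝕂) (W := (Wc a b : WeierstrassCurve ℚ).map (algebraMap ℚ 𝕂))
      (by
        rw [WeierstrassCurve.map_Δ]
        exact (map_ne_zero _).mpr hΔ) (by exact_mod_cast hn)
  have hcC : Nat.card {P : PtsC a b // n • P = 0} = n ^ 2 :=
    Torsion.card_torsion (K := ℂ) (W := (Wc a b : WeierstrassCurve ℚ).map (algebraMap ℚ ℂ))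
      (by
        rw [WeierstrassCurve.map_Δ]
        exact (map_ne_zero _).mpr hΔ) (by exact_mod_cast hn)
  have hlift : ∀ Q : PtsC a b, n • Q = 0 → ∃ P : Pts a b, n • P = 0 ∧ m P = Q := by
    have hfC : Finite {P : PtsC a b // n • P = 0} :=
      Nat.finite_of_card_ne_zero (by rw [hcC]; positivity)
    have hfK : Finite {P : Pts a b // n • P = 0} :=
      Nat.finite_of_card_ne_zero (by rw [hcK]; positivity)
    let r : {P : Pts a b // n • P = 0} → {P : PtsC a b // n • P = 0} := fun P =>
      ⟨m P.1, by rw [← map_nsmul, P.2, map_zero]⟩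
    have hr : Function.Injective r := fun P Q h => Subtype.ext (hminj (congrArg Subtype.val h))
    have hs : Function.Surjective r :=
      ((Nat.bijective_iff_injective_and_card r).mpr ⟨hr, by rw [hcK, hcC]⟩).2
    intro Q hQ
    obtain ⟨P, hP⟩ := hs ⟨Q, hQ⟩
    exact ⟨P.1, P.2, congrArg Subtype.val hP⟩
  have hex : ∀ μ : L.lattice, ∃ P : Pts a b, n • P = 0 ∧ m P = U.hom ((μ : ℂ) / n) := by
    intro μ
    refine hlift _ ?_
    rw [← map_nsmul, Moduli.Unif.hom_ker, nsmul_eq_mul, mul_div_cancel₀ _ hnC]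
    exact μ.2
  choose T hT1 hT2 using hex
  refine ⟨AddMonoidHom.mk' T fun μ ν => hminj ?_, hT1, ?_, ?_, ?_⟩
  · rw [map_add, hT2, hT2, hT2, ← map_add]
    congr 1
    push_cast
    ring
  · intro P hP
    have h1 : n • m P = 0 := by rw [← map_nsmul, hP, map_zero]
    obtain ⟨z, hz, hzP⟩ := U.exists_of_torsion hn h1
    refine ⟨⟨_, hz⟩, hminj ?_⟩
    change m (T ⟨_, hz⟩) = m P
    rw [hT2, ← hzP]
    congr 1
    simp only
    rw [mul_div_assoc, mul_div_cancel₀]
    exact hnC
  · intro μ
    change T μ = 0 ↔ _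
    rw [← Moduli.Unif.hom_ker U, ← hT2, ← map_zero m]
    exact ⟨fun h => congrArg m h, fun h => hminj h⟩
  · intro μ hμ
    have h4 := hT2 μ
    rw [Moduli.Unif.hom_apply, U.φ_of_notMem hμ] at h4
    change ∃ (x₀ y₀ : 𝕂) (h : _), T μ = .some x₀ y₀ h ∧ _
    rcases hTm : T μ with _ | ⟨x₀, y₀, h⟩
    · rw [hTm] at h4
      exact absurd h4.symm (WeierstrassCurve.Affine.Point.some_ne_zero _)
    · refine ⟨x₀, y₀, h, rfl, ?_, ?_⟩
      · rw [hTm] at h4
        have h5 := (WeierstrassCurve.Affine.Point.some.inj h4).1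
        rw [← iotaA_apply]
        refine h5.trans ?_
        simp [Moduli.Unif.px, WeierstrassCurve.b₂, Wc, WeierstrassCurve.Affine.baseChange,
          WeierstrassCurve.baseChange, WeierstrassCurve.map, WeierstrassCurve.toAffine]
      · rw [hTm] at h4
        have h5 := (WeierstrassCurve.Affine.Point.some.inj h4).2
        rw [← iotaA_apply]
        refine h5.trans ?_
        simp [Moduli.Unif.py, Moduli.Unif.px, WeierstrassCurve.b₂, Wc,
          WeierstrassCurve.Affine.baseChange,
          WeierstrassCurve.baseChange, WeierstrassCurve.map, WeierstrassCurve.toAffine]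

end Fermat.Agent.Cor.ES
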