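import Fermat.Agent.Corollaries.ES.Shimura
import Fermat.Agent.Corollaries.ES.Dat
import Fermat.Agent.Corollaries.ES.Tor
import Fermat.Agent.Corollaries.ES.Gal
import Fermat.Agent.Corollaries.ES.Kum
import Fermat.Agent.Corollaries.ES.Quad
import Fermat.Agent.Corollaries.ES.Final
import Fermat.Agent.Corollaries.ES.Param

/-!
# The theorem of Eichler and Shimura

Every normalized eigenform of weight two on `Γ₀(N)` with integral eigenvalues is the form of an
elliptic curve over `ℚ`: the complex torus of its periods.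
-/

set_option autoImplicit false

open UpperHalfPlane CongruenceSubgroup ModularFormClass
open scoped MatrixGroups Manifold ModularForm PeriodPair WeierstrassCurve.Affine

noncomputable section

namespace Fermat.Agent.Cor.ES

open Fermat.Agent.ModFun Fermat.Agent.X0Emb Fermat.Agent.Cor.HW.Per ModularCurve

local notation "𝕂" => AlgebraicClosure ℚ

variable (N : ℕ) [NeZero N]

theorem psiStmt : PsiStmt N := psiStmt_of torStmt (galStmt_of (kumStmt N))

theorem finalStmt : FinalStmt N := assembly (datStmt N) (psiStmt N) quadStmt modelStmt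

variable {N}

/-- **The theorem of Eichler and Shimura** for integral eigenvalues, with the rationality of the
period lattice: let `f` be a normalized eigenform of weight two on `Γ₀(N)` with integral
eigenvalues. The periods `om f γ = 2πi ∫_z^{γz} f` of `f` form a lattice whose invariants `a = g₂`,
`b = g₃` are rational, and the elliptic curve `E : y² = x³ - (a/4) x - b/4` over `ℚ` has the
eigenvalues of `f` as traces of Frobenius. -/
theorem eichler_shimura (f : CuspForm (Gamma0 N) 2) (hf : f.IsNormalizedEigenform)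
    (ha : ∀ ℓ : Nat.Primes, ∃ c : ℤ, qCoeff f ℓ = c) :
    ∃ (L : PeriodPair) (a b : ℚ), (∀ z, z ∈ L.lattice ↔ ∃ γ, om f γ = z) ∧ L.g₂ = a ∧ L.g₃ = b ∧
      (⟨0, 0, 0, -a / 4, -b / 4⟩ : WeierstrassCurve ℚ).Δ ≠ 0 ∧
      ∀ W : WeierstrassCurve ℤ, W.IsIntegralModelOf ⟨0, 0, 0, -a / 4, -b / 4⟩ →
        ∀ r : ℕ, r.Prime → W.IsGoodPrimeFor r → ¬ r ∣ N → qCoeff f r = W.apOfModel r := by
  obtain ⟨L, a, b, x, y, S, α, β, B, D⟩ := datStmt N f hf ha
  exact ⟨L, a, b, D.lat, D.g₂, D.g₃, D.disc, fun W hW r hr hg hrN =>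
    coeff_eq (psiStmt N) quadStmt D hW hr hg hrN⟩

/-- The same with a global minimal equation. -/
theorem exists_curve (f : CuspForm (Gamma0 N) 2) (hf : f.IsNormalizedEigenform)
    (ha : ∀ ℓ : Nat.Primes, ∃ c : ℤ, qCoeff f ℓ = c) :
    ∃ W : WeierstrassCurve ℤ, W.Δ ≠ 0 ∧
      (∀ (p : ℕ) [Fact p.Prime], (W.map (Int.castRingHom ℚ_[p])).IsMinimal ℤ_[p]) ∧
      ∀ r : ℕ, r.Prime → W.IsGoodPrimeFor r → ¬ r ∣ N → qCoeff f r = W.apOfModel r := by
  obtain ⟨L, a, b, -, -, -, hΔ, h⟩ := eichler_shimura f hf ha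
  obtain ⟨W, hW, hΔW, hmin⟩ := Fermat.Agent.Cor.MinModel.exists_globalMinimal _ hΔ
  exact ⟨W, hΔW, @hmin, fun r hr hg hrN => h W hW r hr hg hrN⟩

/-- A normalized eigenform with integral eigenvalues makes an elliptic curve modular. -/
theorem exists_isModularModelOfLevel (f : CuspForm (Gamma0 N) 2) (hf : f.IsNormalizedEigenform)
    (ha : ∀ ℓ : Nat.Primes, ∃ c : ℤ, qCoeff f ℓ = c) :
    ∃ W : WeierstrassCurve ℤ, W.Δ ≠ 0 ∧ W.IsModularModelOfLevel N := by
  obtain ⟨W, hΔ, -, h⟩ := exists_curve f hf ha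
  exact ⟨W, hΔ, f, hf, fun p hp hg hpN => h p hp hg hpN⟩

/-- **The modular parametrization** `X₀(N) → E`, defined over `ℚ`, with `dx / y = f(q) dq / q`:
there are modular functions `x = q⁻² + ...`, `y` with rational coefficients such that
`y² = 4x³ - g₂ x - g₃`. -/
theorem exists_parametrization (f : CuspForm (Gamma0 N) 2) (hf : f.IsNormalizedEigenform)
    (ha : ∀ ℓ : Nat.Primes, ∃ c : ℤ, qCoeff f ℓ = c) :
    ∃ (L : PeriodPair) (a b : ℚ) (x y : modularFunctionFieldBar N),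
      (∀ z, z ∈ L.lattice ↔ ∃ γ, om f γ = z) ∧ L.g₂ = a ∧ L.g₃ = b ∧
      (∀ σ : 𝕂 ≃ₐ[ℚ] 𝕂, arithmeticGalois (modularFunctionFieldFull N) σ • x = x) ∧
      (∀ σ : 𝕂 ≃ₐ[ℚ] 𝕂, arithmeticGalois (modularFunctionFieldFull N) σ • y = y) ∧
      y ^ 2 = 4 * x ^ 3 - algebraMap 𝕂 (modularFunctionFieldBar N) a * x -
        algebraMap 𝕂 (modularFunctionFieldBar N) b ∧
      Lead (coeffMap X0Emb.iota (x : LaurentSeries 𝕂)) ∧
      Igusa.theta (coeffMap X0Emb.iota (x : LaurentSeries 𝕂)) =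
        coeffMap X0Emb.iota (y : LaurentSeries 𝕂) * phi f := by
  obtain ⟨L, a, b, x, y, S, α, β, B, D⟩ := datStmt N f hf ha
  exact ⟨L, a, b, x, y, D.lat, D.g₂, D.g₃, D.xrat, D.yrat, D.equation, D.lead, D.theta⟩

end Fermat.Agent.Cor.ES
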