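import Fermat.Agent.Corollaries.ES.Defs

/-!
# Meromorphic modular functions are quotients of holomorphic ones

A function `F` on the upper half plane which is meromorphic, invariant under `Γ₀(N)`, holomorphic
near the cusps and of moderate growth there is a quotient `U / V` of two `Γ₀(N)`-invariant
holomorphic functions which are meromorphic at the cusps; `V` is a polynomial in `j`.
-/

set_option autoImplicit false

open UpperHalfPlane CongruenceSubgroup Filter Topology Function Asymptotics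
open scoped MatrixGroups Manifold ModularForm

noncomputable section

namespace Fermat.Agent.Cor.ES.Mero

open Fermat.Agent.ModFun Fermat.Agent.X0Emb Fermat.Agent.JLevelOne ModularCurve

/-- `F` is holomorphic at `τ` -/
def An (F : ℍ → ℂ) (τ : ℍ) : Prop := AnalyticAt ℂ (F ∘ ofComplex) (τ : ℂ)

/-- `F` is bounded near `τ` -/
def Bdd (F : ℍ → ℂ) (τ : ℍ) : Prop := ∃ C : ℝ, ∀ᶠ w in 𝓝[≠] τ, ‖F w‖ ≤ C

/-- a meromorphic modular function for `Γ₀(N)` -/
structure IsMero (N : ℕ) (F : ℍ → ℂ) : Prop where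
  mero : ∀ τ : ℍ, MeromorphicAt (F ∘ ofComplex) (τ : ℂ)
  inv : ∀ γ ∈ Gamma0 N, ∀ τ : ℍ, F (γ • τ) = F τ
  cusp : ∀ σ : SL(2, ℤ), ∃ T : ℝ, ∀ τ : ℍ, T < τ.im → An F (σ • τ)
  growth : ModGrowth F

theorem map_coe_ne (τ : ℍ) : Filter.map ((↑) : ℍ → ℂ) (𝓝[≠] τ) = 𝓝[≠] (τ : ℂ) := by
  have h := UpperHalfPlane.isOpenEmbedding_coe.map_nhdsWithin_preimage_eq (s := {(τ : ℂ)}ᶜ) τ
  rw [← h]
  congr 2
  ext w
  simp only [Set.mem_preimage, Set.mem_compl_iff, Set.mem_singleton_iff]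
  exact not_congr ⟨fun h => by rw [h], fun h => UpperHalfPlane.ext h⟩

theorem tendsto_coe_ne (τ : ℍ) : Tendsto ((↑) : ℍ → ℂ) (𝓝[≠] τ) (𝓝[≠] (τ : ℂ)) :=
  (map_coe_ne τ).le

instance neBot_ne (τ : ℍ) : (𝓝[≠] τ).NeBot := by
  rw [← Filter.map_neBot_iff ((↑) : ℍ → ℂ), map_coe_ne]
  infer_instance

theorem tendsto_ofComplex_ne (τ : ℍ) : Tendsto ofComplex (𝓝[≠] (τ : ℂ)) (𝓝[≠] τ) := by
  rw [← map_coe_ne, Filter.tendsto_map'_iff]
  refine tendsto_id.congr fun w => ?_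
  simp

theorem continuous_smul' (σ : SL(2, ℤ)) : Continuous (fun w : ℍ => σ • w) :=
  (UpperHalfPlane.mdifferentiable_smul (g := (σ : GL (Fin 2) ℝ)) (by simp)).continuous

theorem tendsto_smul_ne (σ : SL(2, ℤ)) (τ : ℍ) :
    Tendsto (fun w : ℍ => σ • w) (𝓝[≠] τ) (𝓝[≠] (σ • τ)) := by
  refine tendsto_nhdsWithin_iff.mpr ⟨?_, ?_⟩
  · exact ((continuous_smul' σ).tendsto τ).mono_left nhdsWithin_le_nhds
  · filter_upwards [self_mem_nhdsWithin] with w hw
    simpa using hw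

/-- the action of `σ` on `ℂ` -/
def act (σ : SL(2, ℤ)) (z : ℂ) : ℂ := ((σ • ofComplex z : ℍ) : ℂ)

theorem act_coe (σ : SL(2, ℤ)) (τ : ℍ) : act σ (τ : ℂ) = ((σ • τ : ℍ) : ℂ) := by
  simp [act]

theorem analyticAt_of_mdiff {F : ℍ → ℂ} (hF : MDiff F) (τ : ℍ) : An F τ := by
  rw [UpperHalfPlane.mdifferentiable_iff] at hF
  exact hF.analyticAt (isOpen_upperHalfPlaneSet.mem_nhds τ.im_pos)

theorem analyticAt_act (σ : SL(2, ℤ)) (τ : ℍ) : AnalyticAt ℂ (act σ) (τ : ℂ) := by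
  have h : MDiff (fun w : ℍ => ((σ • w : ℍ) : ℂ)) :=
    mdifferentiable_coe.comp (UpperHalfPlane.mdifferentiable_smul (by simp))
  exact analyticAt_of_mdiff h τ

theorem comp_act {F : ℍ → ℂ} (σ : SL(2, ℤ)) :
    (F ∘ ofComplex) ∘ act σ = (fun w : ℍ => F (σ • w)) ∘ ofComplex := by
  funext z
  simp [act]

theorem An.comp_smul {F : ℍ → ℂ} {σ : SL(2, ℤ)} {τ : ℍ} (h : An F (σ • τ)) :
    An (fun w => F (σ • w)) τ := by
  rw [An, ← comp_act]
  exact AnalyticAt.comp_of_eq h (analyticAt_act σ τ) (act_coe σ τ)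

theorem An.of_comp_smul {F : ℍ → ℂ} {σ : SL(2, ℤ)} {τ : ℍ} (h : An (fun w => F (σ • w)) τ) :
    An F (σ • τ) := by
  have h1 : An (fun w => F (σ • w)) (σ⁻¹ • (σ • τ)) := by rwa [inv_smul_smul]
  have h2 := h1.comp_smul
  simpa [smul_inv_smul] using h2

theorem mero_comp_smul {F : ℍ → ℂ} (h : ∀ τ : ℍ, MeromorphicAt (F ∘ ofComplex) (τ : ℂ))
    (σ : SL(2, ℤ)) (τ : ℍ) : MeromorphicAt ((fun w => F (σ • w)) ∘ ofComplex) (τ : ℂ) := by
  rw [← comp_act]
  refine MeromorphicAt.comp_analyticAt ?_ (analyticAt_act σ τ)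
  rw [act_coe]
  exact h _

theorem An.continuousAt {F : ℍ → ℂ} {τ : ℍ} (h : An F τ) : ContinuousAt F τ := by
  have h1 : ContinuousAt ((F ∘ ofComplex) ∘ ((↑) : ℍ → ℂ)) τ :=
    ContinuousAt.comp (AnalyticAt.continuousAt h) UpperHalfPlane.continuous_coe.continuousAt
  have h2 : (F ∘ ofComplex) ∘ ((↑) : ℍ → ℂ) = F := by
    funext w
    simp
  rwa [h2] at h1

theorem bdd_of_continuousAt {F : ℍ → ℂ} {τ : ℍ} (h : ContinuousAt F τ) : Bdd F τ := by
  refine ⟨‖F τ‖ + 1, nhdsWithin_le_nhds ?_⟩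
  have h1 := h.norm.eventually (gt_mem_nhds (lt_add_one ‖F τ‖))
  exact h1.mono fun w hw => hw.le

theorem Bdd.mul {F G : ℍ → ℂ} {τ : ℍ} (hF : Bdd F τ) (hG : Bdd G τ) : Bdd (F * G) τ := by
  obtain ⟨C, hC⟩ := hF
  obtain ⟨D, hD⟩ := hG
  refine ⟨C * D, ?_⟩
  filter_upwards [hC, hD] with w h1 h2
  rw [Pi.mul_apply, norm_mul]
  exact mul_le_mul h1 h2 (norm_nonneg _) ((norm_nonneg _).trans h1)

theorem Bdd.comp_smul {F : ℍ → ℂ} {σ : SL(2, ℤ)} {τ : ℍ} (h : Bdd F (σ • τ)) :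
    Bdd (fun w => F (σ • w)) τ := by
  obtain ⟨C, hC⟩ := h
  exact ⟨C, (tendsto_smul_ne σ τ).eventually hC⟩

/-- near any point a meromorphic function is holomorphic outside of the point -/
theorem eventually_an {F : ℍ → ℂ} (h : ∀ τ : ℍ, MeromorphicAt (F ∘ ofComplex) (τ : ℂ)) (τ : ℍ) :
    ∀ᶠ w in 𝓝[≠] τ, An F w :=
  (tendsto_coe_ne τ).eventually (h τ).eventually_analyticAt

/-- the order of the pole is finite -/
theorem exists_pow {F : ℍ → ℂ} (h : ∀ τ : ℍ, MeromorphicAt (F ∘ ofComplex) (τ : ℂ)) (τ : ℍ) :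
    ∃ n : ℕ, ∀ m, n ≤ m → Bdd (fun w : ℍ => ((w : ℂ) - τ) ^ m * F w) τ := by
  obtain ⟨n, hn⟩ := h τ
  refine ⟨n, fun m hm => ?_⟩
  obtain ⟨d, rfl⟩ := Nat.exists_eq_add_of_le hm
  have h1 : Bdd (fun w : ℍ => ((w : ℂ) - τ) ^ d) τ := by
    refine bdd_of_continuousAt (Continuous.continuousAt ?_)
    exact (UpperHalfPlane.continuous_coe.sub continuous_const).pow d
  have h2 : Bdd (fun w : ℍ => ((w : ℂ) - τ) ^ n * F w) τ := by
    refine bdd_of_continuousAt ?_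
    have h3 := hn.continuousAt.comp_of_eq (f := ((↑) : ℍ → ℂ)) (x := τ)
      UpperHalfPlane.continuous_coe.continuousAt rfl
    refine h3.congr (Eventually.of_forall fun w => ?_)
    simp [smul_eq_mul]
  have h4 := h1.mul h2
  obtain ⟨C, hC⟩ := h4
  refine ⟨C, hC.mono fun w hw => ?_⟩
  refine le_of_eq_of_le ?_ hw
  simp only [Pi.mul_apply]
  rw [← mul_assoc, ← pow_add, add_comm d n]

/-! ### The denominator -/

/-- `∏ (j - j(x)) ^ n(x)` -/
def den (t : Finset ℍ) (n : ℍ → ℕ) (w : ℍ) : ℂ := ∏ x ∈ t, (jFun w - jFun x) ^ n x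

theorem den_smul (t : Finset ℍ) (n : ℍ → ℕ) (σ : SL(2, ℤ)) (w : ℍ) :
    den t n (σ • w) = den t n w := by
  simp only [den, jFun_smul]

theorem continuous_jFun : Continuous jFun := jFun_mdiff.continuous

theorem continuous_den (t : Finset ℍ) (n : ℍ → ℕ) : Continuous (den t n) :=
  continuous_finsetProd _ fun _ _ => (continuous_jFun.sub continuous_const).pow _

theorem rep_den (N : ℕ) (t : Finset ℍ) (n : ℍ → ℕ) :
    ∃ v : LaurentSeries ℂ, v ≠ 0 ∧ Rep N (RingHom.id ℂ) v (den t n) := by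
  classical
  induction t using Finset.induction_on with
  | empty =>
    refine ⟨1, one_ne_zero, ?_⟩
    convert! (Rep.one (N := N) (ι := RingHom.id ℂ)) using 1
  | insert a s ha ih =>
    obtain ⟨v, hv, hr⟩ := ih
    have h1 : Rep N (RingHom.id ℂ) (qExpand ℂ 1 (jqModC ℂ)) jFun := by
      have := Rep.jd (ι := RingHom.id ℂ) N 1 (one_dvd _)
      rwa [jd_one] at this
    have h0 : qExpand ℂ 1 (jqModC ℂ) + algebraMap ℂ (LaurentSeries ℂ) (-jFun a) ≠ 0 := by
      intro h0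
      have h3 := (h1.add (Rep.const (N := N) (ι := RingHom.id ℂ) (-jFun a))).eq_zero_iff.mp h0
      obtain ⟨w, hw⟩ := jFun_surjective (jFun a + 1)
      have h4 := congrFun h3 w
      simp [hw] at h4
    have h2 := ((h1.add (Rep.const (N := N) (ι := RingHom.id ℂ) (-jFun a))).pow (n a)).mul hr
    refine ⟨_, mul_ne_zero (pow_ne_zero (n a) h0) hv, cast ?_ h2⟩
    congr 1
    funext w
    simp [den, Finset.prod_insert ha, sub_eq_add_neg]

theorem bdd_slope (x : ℍ) : Bdd (fun w : ℍ => (jFun w - jFun x) / ((w : ℂ) - x)) x := by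
  have h1 : DifferentiableAt ℂ (jFun ∘ ofComplex) (x : ℂ) :=
    (analyticAt_of_mdiff jFun_mdiff x).differentiableAt
  obtain ⟨C, hC⟩ := h1.isBigO_sub.bound
  refine ⟨C, ?_⟩
  have h2 : ∀ᶠ w : ℍ in 𝓝[≠] x, ‖(jFun ∘ ofComplex) (w : ℂ) - (jFun ∘ ofComplex) (x : ℂ)‖ ≤
      C * ‖(w : ℂ) - x‖ :=
    (UpperHalfPlane.continuous_coe.continuousAt.eventually hC).filter_mono nhdsWithin_le_nhds
  filter_upwards [h2, self_mem_nhdsWithin] with w hw hne
  have h3 : (w : ℂ) - x ≠ 0 := sub_ne_zero.mpr fun h => hne (UpperHalfPlane.ext h)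
  rw [norm_div, div_le_iff₀ (norm_pos_iff.mpr h3)]
  simpa using hw

/-- the denominator removes the pole at one of its zeros -/
theorem bdd_den_mul {G : ℍ → ℂ} {t : Finset ℍ} {n : ℍ → ℕ} {x : ℍ} (hx : x ∈ t)
    (hG : Bdd (fun w : ℍ => ((w : ℂ) - x) ^ n x * G w) x) : Bdd (fun w => den t n w * G w) x := by
  classical
  have h1 : Bdd (fun w : ℍ => (((jFun w - jFun x) / ((w : ℂ) - x)) ^ n x)) x := by
    obtain ⟨C, hC⟩ := bdd_slope x
    refine ⟨C ^ n x, hC.mono fun w hw => ?_⟩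
    rw [norm_pow]
    exact pow_le_pow_left₀ (norm_nonneg _) hw _
  have h2 : Bdd (fun w : ℍ => den (t.erase x) n w) x :=
    bdd_of_continuousAt (continuous_den _ _).continuousAt
  obtain ⟨C, hC⟩ := (h2.mul h1).mul hG
  refine ⟨C, ?_⟩
  filter_upwards [hC, self_mem_nhdsWithin] with w hw hne
  have h3 : (w : ℂ) - x ≠ 0 := sub_ne_zero.mpr fun h => hne (UpperHalfPlane.ext h)
  refine le_of_eq_of_le ?_ hw
  simp only [Pi.mul_apply]
  rw [den, ← Finset.mul_prod_erase t _ hx, div_pow]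
  rw [show (∏ x ∈ t.erase x, (jFun w - jFun x) ^ n x) = den (t.erase x) n w from rfl]
  congr 1
  field_simp

variable {N : ℕ} [NeZero N] {F : ℍ → ℂ}

/-- a denominator -/
theorem exists_den (hF : IsMero N F) : ∃ (t : Finset ℍ) (n : ℍ → ℕ),
    ∀ τ : ℍ, Bdd (fun w => den t n w * F w) τ := by
  classical
  have : Finite (SL(2, ℤ) ⧸ Gamma0 N) := Subgroup.finite_quotient_of_finiteIndex
  let R (q : SL(2, ℤ) ⧸ Gamma0 N) : SL(2, ℤ) := q.out⁻¹
  have hT : ∃ T : ℝ, ∀ q, ∀ τ : ℍ, T < τ.im → An F (R q • τ) := by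
    have h : ∀ q, ∀ᶠ T in (atTop : Filter ℝ), ∀ τ : ℍ, T < τ.im → An F (R q • τ) := by
      intro q
      obtain ⟨T, hT⟩ := hF.cusp (R q)
      filter_upwards [eventually_ge_atTop T] with T' hT' τ hτ
      exact hT τ (hT'.trans_lt hτ)
    exact (eventually_all.mpr h).exists
  obtain ⟨T, hT⟩ := hT
  have hn : ∀ x : ℍ, ∃ n : ℕ, ∀ q, Bdd (fun w : ℍ => ((w : ℂ) - x) ^ n * F (R q • w)) x := by
    intro x
    have h : ∀ q, ∀ᶠ n in (atTop : Filter ℕ),
        Bdd (fun w : ℍ => ((w : ℂ) - x) ^ n * F (R q • w)) x := by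
      intro q
      obtain ⟨n, hn⟩ := exists_pow (mero_comp_smul hF.mero (R q)) x
      filter_upwards [eventually_ge_atTop n] with m hm
      exact hn m hm
    exact (eventually_all.mpr h).exists
  choose n hn using hn
  let W (x : ℍ) : Set ℍ := {w | w = x ∨ ∀ q, An F (R q • w)}
  have hW : ∀ x : ℍ, W x ∈ 𝓝 x := by
    intro x
    have h1 : ∀ᶠ w in 𝓝[≠] x, ∀ q, An F (R q • w) := by
      rw [eventually_all]
      intro q
      exact (tendsto_smul_ne (R q) x).eventually (eventually_an hF.mero (R q • x))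
    rw [eventually_nhdsWithin_iff] at h1
    filter_upwards [h1] with w hw
    by_cases hwx : w = x
    · exact Or.inl hwx
    · exact Or.inr (hw hwx)
  obtain ⟨t, -, ht⟩ := (ModularGroup.isCompact_truncatedFundamentalDomain T).elim_nhds_subcover W
    fun x _ => hW x
  refine ⟨t, n, fun τ₀ => ?_⟩
  obtain ⟨g, hg⟩ := ModularGroup.exists_smul_mem_fd τ₀
  set q : SL(2, ℤ) ⧸ Gamma0 N := (g : SL(2, ℤ) ⧸ Gamma0 N) with hq
  have hqF : ∀ w : ℍ, F (g⁻¹ • w) = F (R q • w) := by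
    intro w
    obtain ⟨γ, hγ⟩ := QuotientGroup.mk_out_eq_mul (Gamma0 N) g
    have h1 : R q = (γ : SL(2, ℤ))⁻¹ * g⁻¹ := by
      simp only [R]
      rw [hq, hγ, mul_inv_rev]
    rw [h1, mul_smul, hF.inv _ (inv_mem γ.2)]
  have key : Bdd (fun w => den t n w * F (R q • w)) (g • τ₀) := by
    have hcase : (g • τ₀) ∈ t ∨ An F (R q • (g • τ₀)) := by
      by_cases hT' : T < (g • τ₀).im
      · exact Or.inr (hT q _ hT')
      · have h1 := ht (show g • τ₀ ∈ ModularGroup.truncatedFundamentalDomain T from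
          ⟨hg, not_lt.mp hT'⟩)
        obtain ⟨x, hx, hxW⟩ := Set.mem_iUnion₂.mp h1
        rcases hxW with h | h
        · exact Or.inl (h ▸ hx)
        · exact Or.inr (h q)
    rcases hcase with h | h
    · exact bdd_den_mul h (hn _ q)
    · exact (bdd_of_continuousAt (continuous_den t n).continuousAt).mul
        (bdd_of_continuousAt (h.comp_smul.continuousAt))
  have h2 := key.comp_smul (σ := g) (τ := τ₀)
  refine (show (fun w => den t n (g • w) * F (R q • (g • w))) = fun w => den t n w * F w from ?_) ▸ h2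
  funext w
  rw [den_smul, ← hqF, inv_smul_smul]

/-! ### The numerator -/

theorem mero_mul (hF : IsMero N F) (t : Finset ℍ) (n : ℍ → ℕ) :
    MeromorphicOn ((fun w => den t n w * F w) ∘ ofComplex) upperHalfPlaneSet := by
  intro z hz
  have h1 : MeromorphicAt (F ∘ ofComplex) ((⟨z, hz⟩ : ℍ) : ℂ) := hF.mero ⟨z, hz⟩
  obtain ⟨v, -, hv⟩ := rep_den N t n
  have h2 : An (den t n) ⟨z, hz⟩ := analyticAt_of_mdiff hv.mdiff _
  exact h2.meromorphicAt.mul h1

/-- the numerator -/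
def num (t : Finset ℍ) (n : ℍ → ℕ) (F : ℍ → ℂ) (w : ℍ) : ℂ :=
  toMeromorphicNFOn ((fun w => den t n w * F w) ∘ ofComplex) upperHalfPlaneSet w

theorem analyticAt_num (hF : IsMero N F) {t : Finset ℍ} {n : ℍ → ℕ}
    (h : ∀ τ : ℍ, Bdd (fun w => den t n w * F w) τ) (τ : ℍ) :
    AnalyticAt ℂ (toMeromorphicNFOn ((fun w => den t n w * F w) ∘ ofComplex) upperHalfPlaneSet)
      (τ : ℂ) := by
  have hm := mero_mul hF t n
  have hτ : (τ : ℂ) ∈ upperHalfPlaneSet := τ.im_pos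
  rw [← (meromorphicNFOn_toMeromorphicNFOn _ _ hτ).meromorphicOrderAt_nonneg_iff_analyticAt,
    meromorphicOrderAt_toMeromorphicNFOn hm hτ]
  by_contra hlt
  have h1 := tendsto_cobounded_of_meromorphicOrderAt_neg (not_le.mp hlt)
  have h2 := h1.comp (tendsto_coe_ne τ)
  rw [← tendsto_norm_atTop_iff_cobounded] at h2
  obtain ⟨C, hC⟩ := h τ
  have h3 := h2.eventually (eventually_gt_atTop C)
  obtain ⟨w, hw1, hw2⟩ := (hC.and h3).exists
  simp only [comp_apply, ofComplex_apply] at hw2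
  exact absurd hw1 (not_le.mpr hw2)

theorem num_eq (hF : IsMero N F) {t : Finset ℍ} {n : ℍ → ℕ} {τ : ℍ} (h : An F τ) :
    num t n F τ = den t n τ * F τ := by
  have hm := mero_mul hF t n
  have hτ : (τ : ℂ) ∈ upperHalfPlaneSet := τ.im_pos
  obtain ⟨v, -, hv⟩ := rep_den N t n
  have h2 : An (den t n) τ := analyticAt_of_mdiff hv.mdiff _
  have h3 : AnalyticAt ℂ ((fun w => den t n w * F w) ∘ ofComplex) (τ : ℂ) := h2.mul h
  rw [num, toMeromorphicNFOn_eq_toMeromorphicNFAt hm hτ,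
    toMeromorphicNFAt_eq_self.mpr h3.meromorphicNFAt]
  simp

theorem mdiff_num (hF : IsMero N F) {t : Finset ℍ} {n : ℍ → ℕ}
    (h : ∀ τ : ℍ, Bdd (fun w => den t n w * F w) τ) : MDiff (num t n F) := by
  rw [UpperHalfPlane.mdifferentiable_iff]
  intro z hz
  have h1 := (analyticAt_num hF h ⟨z, hz⟩).differentiableAt.differentiableWithinAt
    (s := upperHalfPlaneSet)
  refine h1.congr (fun w hw => ?_) ?_
  · simp [num, ofComplex_apply_of_im_pos hw]
  · simp [num, ofComplex_apply_of_im_pos hz]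

theorem inv_num (hF : IsMero N F) {t : Finset ℍ} {n : ℍ → ℕ}
    (h : ∀ τ : ℍ, Bdd (fun w => den t n w * F w) τ) (γ : SL(2, ℤ)) (hγ : γ ∈ Gamma0 N) (τ : ℍ) :
    num t n F (γ • τ) = num t n F τ := by
  have hc : Continuous (num t n F) := (mdiff_num hF h).continuous
  have h1 : Tendsto (fun w => num t n F (γ • w)) (𝓝[≠] τ) (𝓝 (num t n F (γ • τ))) :=
    ((hc.comp (continuous_smul' γ)).tendsto τ).mono_left nhdsWithin_le_nhds
  have h2 : Tendsto (fun w => num t n F w) (𝓝[≠] τ) (𝓝 (num t n F τ)) :=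
    (hc.tendsto τ).mono_left nhdsWithin_le_nhds
  refine tendsto_nhds_unique (h1.congr' ?_) h2
  filter_upwards [eventually_an hF.mero τ,
    (tendsto_smul_ne γ τ).eventually (eventually_an hF.mero (γ • τ))] with w hw1 hw2
  rw [num_eq hF hw1, num_eq hF hw2, den_smul, hF.inv γ hγ]

theorem growth_num (hF : IsMero N F) {t : Finset ℍ} {n : ℍ → ℕ} : ModGrowth (num t n F) := by
  obtain ⟨v, -, hv⟩ := rep_den N t n
  intro σ
  obtain ⟨m, hm⟩ := (hv.growth.mul hF.growth) σ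
  refine ⟨m, hm.congr' ?_ EventuallyEq.rfl⟩
  obtain ⟨T, hT⟩ := hF.cusp σ
  have h1 : ∀ᶠ w : ℍ in atImInfty, T < w.im := by
    rw [atImInfty, eventually_comap]
    filter_upwards [eventually_gt_atTop T] with a ha w hw
    rw [hw]
    exact ha
  filter_upwards [h1] with w hw
  rw [num_eq hF (hT w hw)]
  rfl

/-- **A meromorphic modular function is a quotient of two holomorphic ones.** -/
theorem exists_rep (hF : IsMero N F) : ∃ (u v : LaurentSeries ℂ) (U V : ℍ → ℂ), v ≠ 0 ∧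
    Rep N (RingHom.id ℂ) u U ∧ Rep N (RingHom.id ℂ) v V ∧
    ∀ τ : ℍ, An F τ → U τ = F τ * V τ := by
  obtain ⟨t, n, h⟩ := exists_den hF
  obtain ⟨v, hv, hr⟩ := rep_den N t n
  have hper : Periodic (num t n F ∘ ofComplex) (1 : ℝ) := by
    refine Fermat.Agent.S21per.periodic_comp_ofComplex_of_vadd fun τ => ?_
    have h1 : ModularGroup.T ∈ Gamma0 N := by
      rw [Gamma0_mem]
      simp [ModularGroup.T]
    have h2 := inv_num hF h _ h1 τ
    rw [UpperHalfPlane.modular_T_smul] at h2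
    exact h2
  obtain ⟨m, hm⟩ := (growth_num hF (t := t) (n := n)).growthInf
  obtain ⟨u, hu⟩ := Fermat.Agent.GalRep.exists_lexp one_pos hper (mdiff_num hF h) hm
  refine ⟨u, v, num t n F, den t n, hv, ⟨mdiff_num hF h, inv_num hF h, growth_num hF, ?_⟩, hr, ?_⟩
  · rwa [show coeffMap (RingHom.id ℂ) u = u from by ext; simp [coeffMap]]
  · intro τ hτ
    rw [num_eq hF hτ, mul_comm]

end Fermat.Agent.Cor.ES.Mero
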