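import Fermat.Agent.Corollaries.ES.Defs2
import Fermat.Agent.Corollaries.ES.Uniq

/-!
# The invariants of the period lattice are rational (Shimura)
-/

set_option autoImplicit false

open UpperHalfPlane CongruenceSubgroup ModularFormClass Filter Topology ModularForm
open scoped MatrixGroups Manifold ModularForm PeriodPair

noncomputable section

namespace Fermat.Agent.Cor.ES

open Fermat.Agent.ModFun Fermat.Agent.X0Emb Fermat.Agent.Cor.HW.Per ModularCurve

/-! ### Lattices -/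

theorem disc_ne (L : PeriodPair) : L.g₂ ^ 3 - 27 * L.g₃ ^ 2 ≠ 0 := by
  obtain ⟨hα, τ, hL⟩ := Moduli.exists_orient L.indep
  have hL' : (Moduli.mkPP L.ω₁ hα τ).lattice = L.lattice := hL
  have h2 : L.g₂ = (2 * Real.pi / L.ω₁) ^ 4 * E₄ τ / 12 := by
    rw [← Moduli.g₂_mkPP L.ω₁ hα τ, PeriodPair.g₂, PeriodPair.g₂, Moduli.G_congr hL']
  have h3 : L.g₃ = (2 * Real.pi / L.ω₁) ^ 6 * E₆ τ / 216 := by
    rw [← Moduli.g₃_mkPP L.ω₁ hα τ, PeriodPair.g₃, PeriodPair.g₃, Moduli.G_congr hL']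
  have hd := discriminant_eq_E₄_cube_sub_E₆_sq τ
  have hd0 := discriminant_ne_zero τ
  have h4 : (2 * Real.pi / L.ω₁ : ℂ) ≠ 0 := div_ne_zero Moduli.two_pi_ne_zero' hα
  have h5 : L.g₂ ^ 3 - 27 * L.g₃ ^ 2 = (2 * Real.pi / L.ω₁) ^ 12 * discriminant τ := by
    rw [h2, h3]
    linear_combination -(2 * Real.pi / L.ω₁) ^ 12 * hd
  rw [h5]
  exact mul_ne_zero (pow_ne_zero _ h4) hd0

theorem Wc_Δ (a b : ℂ) : (Wc a b).Δ = a ^ 3 - 27 * b ^ 2 := by
  simp only [Wc, WeierstrassCurve.Δ, WeierstrassCurve.b₂, WeierstrassCurve.b₄,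
    WeierstrassCurve.b₆, WeierstrassCurve.b₈]
  ring

theorem Wc_c₄ (a b : ℂ) : (Wc a b).c₄ = 12 * a := by
  simp only [Wc, WeierstrassCurve.c₄, WeierstrassCurve.b₂, WeierstrassCurve.b₄]
  ring

theorem Wc_c₆ (a b : ℂ) : (Wc a b).c₆ = 216 * b := by
  simp only [Wc, WeierstrassCurve.c₆, WeierstrassCurve.b₂, WeierstrassCurve.b₄,
    WeierstrassCurve.b₆]
  ring

/-- **Uniformization**: every `(a, b)` with `a³ ≠ 27 b²` comes from a lattice. -/
theorem exists_lattice {a b : ℂ} (h : a ^ 3 - 27 * b ^ 2 ≠ 0) :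
    ∃ L : PeriodPair, L.g₂ = a ∧ L.g₃ = b := by
  obtain ⟨L, hL⟩ := Moduli.exists_unif (Wc a b).toAffine (by
    have := Wc_Δ a b
    exact this ▸ h)
  have h4 := hL.g₂
  have h6 := hL.g₃
  refine ⟨L, h4.trans ?_, h6.trans ?_⟩
  · have : (Wc a b).toAffine.c₄ = 12 * a := Wc_c₄ a b
    rw [this]
    ring
  · have : (Wc a b).toAffine.c₆ = 216 * b := Wc_c₆ a b
    rw [this]
    ring

/-- a lattice `L'` for which `℘_L` is a rational function of `℘_L'` near `0` is contained in `L`. -/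
theorem mem_of_relation (L L' : PeriodPair) {A B : Polynomial ℂ} (hB : B ≠ 0)
    (h : ∀ z, z ∉ L'.lattice → z ∉ L.lattice →
      B.eval (℘[L'] z) * ℘[L] z = A.eval (℘[L'] z)) {l : ℂ} (hl : l ∈ L'.lattice) :
    l ∈ L.lattice := by
  by_contra hn
  -- near `0`
  have e1 : ∀ᶠ z in 𝓝[≠] (0 : ℂ), z ∉ L'.lattice := Moduli.eventually_notMem_lattice L' 0
  have e2 : ∀ᶠ z in 𝓝[≠] (0 : ℂ), z ∉ L.lattice := Moduli.eventually_notMem_lattice L 0
  have hc : Tendsto (fun z : ℂ => z + l) (𝓝[≠] 0) (𝓝 l) := by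
    have : ContinuousAt (fun z : ℂ => z + l) 0 := by fun_prop
    have h0 := this.tendsto
    simp only [zero_add] at h0
    exact h0.mono_left nhdsWithin_le_nhds
  have e3 : ∀ᶠ z in 𝓝[≠] (0 : ℂ), z + l ∉ L.lattice :=
    hc.eventually (Moduli.eventually_notMem_lattice' L hn)
  have hinf := Moduli.tendsto_P_zero L'
  have e4 : ∀ᶠ z in 𝓝[≠] (0 : ℂ), B.eval (℘[L'] z) ≠ 0 := by
    have h1 : ∀ᶠ w : ℂ in Filter.comap norm atTop, B.eval w ≠ 0 := by
      have h2 : {w : ℂ | B.eval w = 0}.Finite := by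
        have := B.rootSet_finite ℂ
        refine (B.roots.toFinset.finite_toSet).subset fun w hw => ?_
        simp only [Finset.mem_coe, Multiset.mem_toFinset]
        exact (Polynomial.mem_roots hB).mpr hw
      have h3 := h2.isBounded
      rw [comap_norm_atTop]
      have := Bornology.isBounded_def.mp h3
      exact this
    exact (tendsto_comap_iff.mpr hinf).eventually h1
  have key : ∀ᶠ z in 𝓝[≠] (0 : ℂ), ℘[L] z = ℘[L] (z + l) := by
    filter_upwards [e1, e2, e3, e4] with z h1 h2 h3 h4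
    have h5 : ℘[L'] (z + l) = ℘[L'] z := L'.weierstrassP_add_coe z ⟨l, hl⟩
    have h6 : z + l ∉ L'.lattice := fun h' => h1 (by simpa using sub_mem h' hl)
    have h7 := h z h1 h2
    have h8 := h (z + l) h6 h3
    rw [h5, ← h7] at h8
    exact (mul_left_cancel₀ h4 h8).symm
  -- the limit of the right side is finite
  have hfin : Tendsto (fun z : ℂ => ‖℘[L] (z + l)‖) (𝓝[≠] 0) (𝓝 ‖℘[L] l‖) :=
    ((Moduli.analyticAt_P L hn).continuousAt.tendsto.comp hc).norm
  have hfin' : Tendsto (fun z : ℂ => ‖℘[L] z‖) (𝓝[≠] 0) (𝓝 ‖℘[L] l‖) :=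
    hfin.congr' (key.mono fun z hz => congrArg norm hz.symm)
  exact not_tendsto_nhds_of_tendsto_atTop (Moduli.tendsto_P_zero L) _ hfin'

/-! ### The action of the automorphisms of `ℂ` -/

/-- the field of modular functions is stable under the automorphisms of `ℂ` -/
theorem coeffMap_mem {N : ℕ} [NeZero N] (σ : ℂ →+* ℂ) {x : LaurentSeries ℂ}
    (hx : x ∈ modularFunctionFieldFullC ℂ N) : coeffMap σ x ∈ modularFunctionFieldFullC ℂ N := by
  have hle : (modularFunctionFieldFullC ℂ N).toSubfield ≤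
      (modularFunctionFieldFullC ℂ N).toSubfield.comap (coeffMap σ) := by
    rw [modularFunctionFieldFullC, IntermediateField.adjoin_toSubfield, Subfield.closure_le]
    rintro y (⟨c, rfl⟩ | ⟨d, hd, hdN, rfl⟩)
    · rw [SetLike.mem_coe, Subfield.mem_comap]
      have : coeffMap σ (algebraMap ℂ (LaurentSeries ℂ) c) =
          algebraMap ℂ (LaurentSeries ℂ) (σ c) := by
        rw [algebraMap_laurentSeries_eq_single, algebraMap_laurentSeries_eq_single,
          coeffMap_single]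
      rw [this]
      exact Subfield.subset_closure (Or.inl ⟨_, rfl⟩)
    · rw [SetLike.mem_coe, Subfield.mem_comap, coeffMap_qExpand, coeffMap_jqModC]
      exact Subfield.subset_closure (Or.inr ⟨d, hd, hdN, rfl⟩)
  exact hle hx

variable {N : ℕ} [NeZero N] {f : CuspForm (Gamma0 N) 2}

theorem IsP.mem {L : PeriodPair} {x : LaurentSeries ℂ} (h : IsP f L x) :
    x ∈ modularFunctionFieldFullC ℂ N := by
  obtain ⟨u, v, U, V, hv, hx, hU, hV, -⟩ := h
  have : x = u / v := by rw [← hx, mul_div_cancel_right₀ _ hv]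
  rw [this]
  exact div_mem hU.mem_fullC hV.mem_fullC

theorem coeffMap_phi (hr : ∀ n, ∃ a : ℤ, qCoeff f n = a) (σ : ℂ →+* ℂ) :
    coeffMap σ (phi f) = phi f := by
  ext k
  rw [coeffMap_coeff, phi]
  rcases lt_or_ge k 0 with hk | hk
  · rw [HahnSeries.ofPowerSeries_apply, HahnSeries.embDomain_of_notMem_range, map_zero]
    rintro ⟨n, hn⟩
    simp at hn
    omega
  · obtain ⟨n, rfl⟩ := Int.eq_ofNat_of_zero_le hk
    have h1 : (HahnSeries.ofPowerSeries ℤ ℂ (qExpansion 1 f)).coeff (n : ℤ) =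
        (qExpansion 1 f).coeff n := HahnSeries.ofPowerSeries_apply_coeff _ _
    obtain ⟨a, ha⟩ := hr n
    have h2 : (qExpansion 1 f).coeff n = (a : ℂ) := ha
    change σ ((HahnSeries.ofPowerSeries ℤ ℂ (qExpansion 1 f)).coeff (n : ℤ)) =
      (HahnSeries.ofPowerSeries ℤ ℂ (qExpansion 1 f)).coeff (n : ℤ)
    rw [h1, h2, map_intCast]

theorem ODE.coeffMap (hr : ∀ n, ∃ a : ℤ, qCoeff f n = a) (σ : ℂ →+* ℂ) {a b : ℂ}
    {x : LaurentSeries ℂ} (h : ODE f a b x) : ODE f (σ a) (σ b) (coeffMap σ x) := by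
  have h1 := congrArg (ModularCurve.coeffMap σ) h
  have hC : ∀ c : ℂ, ModularCurve.coeffMap σ (HahnSeries.C c) = HahnSeries.C (σ c) := fun c => by
    rw [HahnSeries.C_apply, HahnSeries.C_apply, coeffMap_single]
  rw [map_pow, map_mul, map_sub, map_sub, map_mul, map_mul, map_pow, map_pow, hC, hC,
    coeffMap_phi hr, Igusa.coeffMap_theta, map_ofNat] at h1
  exact h1

theorem Lead.coeffMap (σ : ℂ →+* ℂ) {x : LaurentSeries ℂ} (h : Lead x) :
    Lead (coeffMap σ x) :=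
  ⟨by rw [coeffMap_coeff, h.coeff, map_one], fun n hn => by
    rw [coeffMap_coeff, h.zero n hn, map_zero]⟩

/-- **Shimura**: the invariants of the period lattice of an eigenform with integral eigenvalues are
rational. -/
theorem ratStmt_of (hLat : LatStmt N) (hMod : ModStmt N) (hExp : ExpStmt N) (hConv : ConvStmt N)
    (hPer : PeriodStmt N) (hSub : SubStmt) (hTrans : TransStmt N) : RatStmt N := by
  intro f hf ha
  have hr := exists_int_qCoeff hf ha
  have h1 : qCoeff f 1 = 1 := hf.qCoeff_one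
  have hf0 : f ≠ 0 := by
    rintro rfl
    have : qCoeff (0 : CuspForm (Gamma0 N) 2) 1 = 0 := by
      have h2 := (FermatAgent.HeckeEigen.qCoeff_smul (0 : ℂ) (0 : CuspForm (Gamma0 N) 2) 1)
      rw [zero_smul, zero_mul] at h2
      exact h2
    rw [this] at h1
    exact zero_ne_one h1
  obtain ⟨L, hL⟩ := hLat f hf ha
  have hper : ∀ γ, om f γ ∈ L.lattice := fun γ => (hL _).mpr ⟨γ, rfl⟩
  obtain ⟨x, hx⟩ := hMod f L hf0 hper
  obtain ⟨hode, hlead⟩ := hExp f L x h1 hx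
  -- the conjugate lattices
  have conj : ∀ σ : ℂ ≃+* ℂ, ∃ L' : PeriodPair, L'.g₂ = σ L.g₂ ∧ L'.g₃ = σ L.g₃ ∧
      IsP f L' (coeffMap (σ : ℂ →+* ℂ) x) ∧ L.lattice ≤ L'.lattice := by
    intro σ
    have hd : (σ L.g₂) ^ 3 - 27 * (σ L.g₃) ^ 2 ≠ 0 := by
      have h2 : (σ L.g₂) ^ 3 - 27 * (σ L.g₃) ^ 2 = σ (L.g₂ ^ 3 - 27 * L.g₃ ^ 2) := by
        rw [map_sub, map_mul, map_pow, map_pow, map_ofNat]
      rw [h2]
      exact (map_ne_zero_iff σ σ.injective).mpr (disc_ne L)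
    obtain ⟨L', h2, h3⟩ := exists_lattice hd
    have hode' := hode.coeffMap hr (σ : ℂ →+* ℂ)
    have hP : IsP f L' (coeffMap (σ : ℂ →+* ℂ) x) := by
      refine hConv f L' _ h1 (coeffMap_mem _ hx.mem) ?_ (hlead.coeffMap _)
      rw [h2, h3]
      exact hode'
    refine ⟨L', h2, h3, hP, fun z hz => ?_⟩
    obtain ⟨γ, rfl⟩ := (hL z).mp hz
    exact hPer f L' _ hf0 hP γ
  have key : ∀ σ : ℂ ≃+* ℂ, σ L.g₂ = L.g₂ ∧ σ L.g₃ = L.g₃ := by
    intro σ
    obtain ⟨L₁, h2, h3, hP₁, hle₁⟩ := conj σ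
    obtain ⟨L₂, -, -, hP₂, hle₂⟩ := conj σ.symm
    obtain ⟨A, B, hB, hAB⟩ := hSub L L₂ hle₂
    have hrel := (hTrans f L L₂ x _ A B hf0 hx hP₂).mpr fun z _ hz => hAB z hz
    have hrel' := congrArg (coeffMap (σ : ℂ →+* ℂ)) hrel
    have hev : ∀ P : Polynomial ℂ, coeffMap (σ : ℂ →+* ℂ) (Polynomial.aeval x P) =
        Polynomial.aeval (coeffMap (σ : ℂ →+* ℂ) x) (P.map (σ : ℂ →+* ℂ)) := by
      intro P
      induction P using Polynomial.induction_on' with
      | add p q hp hq => rw [map_add, map_add, hp, hq, Polynomial.map_add, map_add]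
      | monomial n c =>
        rw [Polynomial.aeval_monomial, map_mul, map_pow, Polynomial.map_monomial,
          Polynomial.aeval_monomial, algebraMap_laurentSeries_eq_single,
          algebraMap_laurentSeries_eq_single, coeffMap_single]
    have hback : coeffMap (σ : ℂ →+* ℂ) (coeffMap (σ.symm : ℂ →+* ℂ) x) = x := by
      ext k
      simp [coeffMap_coeff]
    rw [map_mul, hev, hev, hback] at hrel'
    have h4 := (hTrans f L₁ L _ x (A.map (σ : ℂ →+* ℂ)) (B.map (σ : ℂ →+* ℂ)) hf0 hP₁ hx).mp hrel'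
    have hB' : B.map (σ : ℂ →+* ℂ) ≠ 0 :=
      (Polynomial.map_ne_zero_iff σ.injective).mpr hB
    have hle : L₁.lattice ≤ L.lattice := fun l hl => mem_of_relation L L₁ hB' h4 hl
    have heq : L₁.lattice = L.lattice := le_antisymm hle hle₁
    rw [← h2, ← h3]
    exact ⟨by rw [PeriodPair.g₂, PeriodPair.g₂, Moduli.G_congr heq],
      by rw [PeriodPair.g₃, PeriodPair.g₃, Moduli.G_congr heq]⟩
  obtain ⟨a, ha'⟩ := IntStruct.exists_rat_of_forall_ringEquiv_fixed L.g₂ fun σ => (key σ).1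
  obtain ⟨b, hb'⟩ := IntStruct.exists_rat_of_forall_ringEquiv_fixed L.g₃ fun σ => (key σ).2
  exact ⟨L, a, b, hL, ha'.symm, hb'.symm⟩

end Fermat.Agent.Cor.ES
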