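import Fermat.Agent.Corollaries.ES.LValue
import Fermat.Agent.Corollaries.HW.TateEquiv
import Fermat.Agent.Corollaries.HW.Final

/-!
# The modular curve quotient attached to a semistable elliptic curve

Every semistable elliptic curve `W` over `ℚ` of conductor `N` has a companion `E`: the complex torus
of the periods of its newform, an elliptic curve over `ℚ` with a modular parametrization
`X₀(N) → E`, with the same traces of Frobenius and the same Tate modules. The value `L(W, 1)` is a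
rational multiple of the real period of `E`.
-/

set_option autoImplicit false

open UpperHalfPlane hiding I
open CongruenceSubgroup ModularFormClass
open scoped MatrixGroups Manifold ModularForm PeriodPair WeierstrassCurve.Affine

noncomputable section

namespace Fermat.Agent.Cor.ES

open Fermat.Agent.ModFun Fermat.Agent.X0Emb Fermat.Agent.Cor.HW.Per ModularCurve
open Fermat.Agent.Cor.HW

variable {W : WeierstrassCurve ℤ}

/-- **The companion of a semistable elliptic curve.** -/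
theorem exists_companion (hΔ : W.Δ ≠ 0) (hW : W.IsSemistableModel) :
    ∃ (f : CuspForm (Gamma0 W.conductorLevel) 2) (L : PeriodPair) (a b : ℚ) (Ω : ℝ)
      (W' : WeierstrassCurve ℤ),
      -- the newform of `W`
      f.IsNewform ∧ (∀ p : ℕ, p.Prime → qCoeff f p = (ap W p : ℂ)) ∧
      -- its period lattice and its real period
      (∀ z, z ∈ L.lattice ↔ ∃ γ, om f γ = z) ∧ L.g₂ = a ∧ L.g₃ = b ∧
      0 < Ω ∧ (∀ x : ℝ, (x : ℂ) ∈ L.lattice ↔ ∃ n : ℤ, x = n * Ω) ∧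
      -- `W'` is a global minimal equation of `ℂ / L`
      W'.Δ ≠ 0 ∧ W'.IsIntegralModelOf ⟨0, 0, 0, -a / 4, -b / 4⟩ ∧
      (∀ (p : ℕ) [Fact p.Prime], (W'.map (Int.castRingHom ℚ_[p])).IsMinimal ℤ_[p]) ∧
      -- `W` and `W'`
      (∀ ℓ : ℕ, ℓ.Prime → W.IsGoodPrimeFor ℓ → W'.IsGoodPrimeFor ℓ →
        W'.apOfModel ℓ = W.apOfModel ℓ) ∧
      (∀ (p : ℕ) [Fact p.Prime], p ≠ 2 → W.ModRepIsIrreducible p → TateIso W W' p) ∧
      ∀ Λ : ℂ → ℂ, IsHasseWeil W Λ → (∃ q : ℚ, Λ 1 = q * Ω) ∧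
        ∀ r : ℕ, r.Prime → W.IsGoodPrimeFor r →
          ∃ m : ℤ, ((r : ℂ) + 1 - W.apOfModel r) * Λ 1 = m * Ω := by
  obtain ⟨f, ⟨hf, hap⟩, -⟩ := existsUnique_newform_ap hΔ hW
  have ha : ∀ ℓ : Nat.Primes, ∃ c : ℤ, qCoeff f ℓ = c := fun ℓ => ⟨_, hap ℓ ℓ.2⟩
  obtain ⟨L, a, b, Ω, hL, h2, h3, hΩ0, hΩ, hq, -⟩ := exists_curve_L_one f hf.1 ha
  obtain ⟨L', a', b', hL', h2', h3', hΔ', hE⟩ := eichler_shimura f hf.1 ha
  have hLL : L.lattice = L'.lattice := by
    ext z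
    rw [hL, hL']
  have e2 : a = a' := by
    have : (a : ℂ) = a' := by
      rw [← h2, ← h2', PeriodPair.g₂, PeriodPair.g₂, Moduli.G_congr hLL]
    exact_mod_cast this
  have e3 : b = b' := by
    have : (b : ℂ) = b' := by
      rw [← h3, ← h3', PeriodPair.g₃, PeriodPair.g₃, Moduli.G_congr hLL]
    exact_mod_cast this
  subst e2 e3
  obtain ⟨W', hW', hΔW', hmin⟩ := Fermat.Agent.Cor.MinModel.exists_globalMinimal _ hΔ'
  have hgood : ∀ {r : ℕ}, r.Prime → W.IsGoodPrimeFor r → ¬ r ∣ W.conductorLevel :=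
    fun hr hg h => hg ((W.prime_dvd_conductorLevel_iff hΔ hr).mp h)
  have hcoef : ∀ {r : ℕ}, r.Prime → W.IsGoodPrimeFor r → qCoeff f r = (W.apOfModel r : ℂ) := by
    intro r hr hg
    have hg' : ¬ (r : ℤ) ∣ W.Δ := hg
    rw [hap r hr, ap, if_neg hg']
  have hsame : ∀ ℓ : ℕ, ℓ.Prime → W.IsGoodPrimeFor ℓ → W'.IsGoodPrimeFor ℓ →
      W'.apOfModel ℓ = W.apOfModel ℓ := by
    intro ℓ hℓ hg hg'
    have h4 := hE W' hW' ℓ hℓ hg' (hgood hℓ hg)
    rw [hcoef hℓ hg] at h4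
    exact_mod_cast h4.symm
  refine ⟨f, L, a, b, Ω, W', hf, hap, hL, h2, h3, hΩ0, hΩ, hΔW', hW', @hmin, hsame, ?_, ?_⟩
  · intro p _ hp2 hirr
    refine tateIso_of_almost_all hΔ hΔW' hp2 hirr
      (W.Δ.natAbs.primeFactors ∪ W'.Δ.natAbs.primeFactors) fun ℓ hℓ hℓS => ?_
    simp only [Finset.mem_union, not_or] at hℓS
    refine (hsame ℓ hℓ (fun h' => hℓS.1 (Nat.mem_primeFactors.mpr
      ⟨hℓ, Int.natCast_dvd.mp h', Int.natAbs_ne_zero.mpr hΔ⟩)) fun h' => hℓS.2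
      (Nat.mem_primeFactors.mpr ⟨hℓ, Int.natCast_dvd.mp h', Int.natAbs_ne_zero.mpr hΔW'⟩)).symm
  · intro Λ hΛ
    have h4 : IsHasseWeil W (ModularForm.L (k := 2) two_pos f) := isHasseWeil hΔ hf hap
    have h5 : Λ = ModularForm.L (k := 2) two_pos f := hΛ.unique h4
    subst h5
    refine ⟨hq, fun r hr hg => ?_⟩
    obtain ⟨m, hm⟩ := manin_period hf.1 ha hL hΩ hr (hgood hr hg)
    refine ⟨m, ?_⟩
    rw [← hm, hcoef hr hg]
    ring

end Fermat.Agent.Cor.ES
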